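import Fermat.Agent.EqEu.Kum

/-!
# The locally trivial part of `H²`, equivariantly
-/

set_option autoImplicit false
set_option linter.unusedSectionVars false

namespace Fermat.Agent.EqEu

open Fermat.Agent.Coh Fermat.Agent.GCFT Fermat.Agent.GlobalCFT Fermat.Agent.PT Fermat.Agent.GalD
  Fermat.Agent.LocalCFT Module ExtCitation

/-- The field of algebraic numbers. -/
local notation "Qb" => AlgebraicClosure ℚ
/-- The absolute Galois group. -/
local notation "GQ" => (AlgebraicClosure ℚ ≃ₐ[ℚ] AlgebraicClosure ℚ)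

section inv

variable {G : Type} [Group G] (N : Subgroup G) [hN : N.Normal] (M : Type) [AddCommGroup M]
  [Module (MonoidAlgebra ℤ G) M] (P : Type) [AddCommGroup P] [Module (MonoidAlgebra ℤ G) P]

/-- invariants under a normal subgroup -/
noncomputable def invN : Submodule (MonoidAlgebra ℤ G) M :=
  mkSub { carrier := {x | ∀ n ∈ N, MonoidAlgebra.of ℤ G n • x = x}
          zero_mem' := fun n _ => smul_zero _
          add_mem' := fun ha hb n hn => by rw [smul_add, ha n hn, hb n hn]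
          neg_mem' := fun ha n hn => by rw [smul_neg, ha n hn] } (by
    intro g x hx n hn
    have h1 : n * g = g * (g⁻¹ * n * g) := by group
    have h2 : g⁻¹ * n * g ∈ N := by
      have := hN.conj_mem n hn g⁻¹
      simpa using this
    rw [← mul_smul, ← map_mul, h1, map_mul, mul_smul, hx _ h2])

variable {M}

theorem mem_invN {x : M} : x ∈ invN N M ↔ ∀ n ∈ N, MonoidAlgebra.of ℤ G n • x = x := Iff.rfl

theorem nh_invN (hPN : ∀ n ∈ N, ∀ x : P, MonoidAlgebra.of ℤ G n • x = x) :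
    nh (MonoidAlgebra ℤ G) P M = nh (MonoidAlgebra ℤ G) P (invN N M) :=
  Nat.card_congr
    { toFun := fun f => f.codRestrict (invN N M) fun x n hn => by rw [← map_smul, hPN n hn]
      invFun := fun f => (invN N M).subtype ∘ₗ f
      left_inv := fun f => rfl
      right_inv := fun f => rfl }

end inv

variable {S : Finset Nat.Primes} {U H : Subgroup (AlgebraicClosure ℚ ≃ₐ[ℚ] AlgebraicClosure ℚ)}
variable {p : ℕ} [hp : Fact p.Prime]
variable (hn : ∀ h ∈ H, ∀ u ∈ U, h * u * h⁻¹ ∈ U) (hpS : pPrime p ∈ S)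
variable {P : Type} [AddCommGroup P] [Module (MonoidAlgebra ℤ H) P]

theorem SRel.conj {f : ↥(Z2 ((famS S).res U) (rep (muQ p) U))} {x : IS S}
    (hk : SRel hpS (f : U × U → ZMod p) x) (h : H) :
    SRel hpS ((cnj (famS S) (muQ p) (h : GQ) (hn' hn h)).mapZ2 f : U × U → ZMod p)
      (repI S (h : GQ) x) := by
  obtain ⟨g, y, D, h0, h1, h2, h3, h4, h5⟩ := hk
  have e1 : ∀ u : U, (h : GQ) * ((h : GQ)⁻¹ * u * h) = u * h := fun u => by group
  refine ⟨fun u => repK S (h : GQ) (g ⟨(h : GQ)⁻¹ * u * h, hn' hn h u u.2⟩), repK S (h : GQ) y,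
    repI S (h : GQ) D, ?_, ?_, fun u v => ?_, fun u => ?_, fun u => ?_, ?_⟩
  · funext l z
    change (D : AA).1 l _ = 0
    rw [h0]
    rfl
  · exact (Fam.Sm1.comp h1 (cnj (famS S) (muQ p) (h : GQ) (hn' hn h)).f
      (cnj (famS S) (muQ p) (h : GQ) (hn' hn h)).cont).post _
  · rw [cnj_mapZ2, jG_comm, h2, map_add, map_sub]
    congr 2
    · change repK S (h : GQ) (repK S ((h : GQ)⁻¹ * u * h) _) =
        repK S (u : GQ) (repK S (h : GQ) _)
      rw [← Module.End.mul_apply, ← Module.End.mul_apply, ← map_mul, ← map_mul, e1]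
    · congr 2
      apply Subtype.ext
      change (h : GQ)⁻¹ * u * h * ((h : GQ)⁻¹ * v * h) = (h : GQ)⁻¹ * (u * v) * h
      group
  · rw [← map_nsmul, h3, map_sub]
    congr 1
    change repK S (h : GQ) (repK S ((h : GQ)⁻¹ * u * h) _) = repK S (u : GQ) (repK S (h : GQ) _)
    rw [← Module.End.mul_apply, ← Module.End.mul_apply, ← map_mul, ← map_mul, e1]
  · rw [dk_comm, h4, map_sub]
    congr 1
    change repI S (h : GQ) (repI S ((h : GQ)⁻¹ * u * h) _) = repI S (u : GQ) (repI S (h : GQ) _)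
    rw [← Module.End.mul_apply, ← Module.End.mul_apply, ← map_mul, ← map_mul, e1]
  · rw [h5, map_sub, map_nsmul, dk_comm]

theorem SRel.zero : SRel (U := U) hpS (0 : U × U → ZMod p) (0 : IS S) :=
  ⟨0, 0, 0, rfl, Fam.Sm1.const _ _, fun u v => by
    change jG hpS (0 : ZMod p) = repK S u 0 - 0 + 0
    rw [map_zero, map_zero, sub_zero, add_zero], fun u => by
    change p • (0 : KS S) = repK S u 0 - 0
    rw [map_zero, smul_zero, sub_zero], fun u => by
    change dk S 0 = repI S u 0 - 0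
    rw [map_zero, map_zero, sub_zero], by
    rw [map_zero, smul_zero, sub_zero]⟩

/-- the relation between locally trivial classes and divisors, on classes -/
def ShR (a : M2 hn S p) (b : MI S H) : Prop :=
  ∃ z : ↥(Z2 ((famS S).res U) (rep (muQ p) U)),
    toV _ a = H2.mk ((famS S).res U) (rep (muQ p) U) z ∧
    SRel hpS (z : U × U → ZMod p) (toV _ b)

theorem ShR.zero : ShR hn hpS 0 0 := by
  refine ⟨0, ?_, ?_⟩
  · rw [map_zero, map_zero]
  · rw [map_zero]
    exact SRel.zero hpS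

theorem ShR.sub {a a' : M2 hn S p} {b b' : MI S H} (h : ShR hn hpS a b) (h' : ShR hn hpS a' b') :
    ShR hn hpS (a - a') (b - b') := by
  obtain ⟨z, h2, h3⟩ := h
  obtain ⟨z', h2', h3'⟩ := h'
  refine ⟨z - z', ?_, ?_⟩
  · rw [map_sub, map_sub, h2, h2']
  · rw [map_sub]
    exact h3.sub h3'

theorem ShR.neg {a : M2 hn S p} {b : MI S H} (h : ShR hn hpS a b) :
    ShR hn hpS (-a) (-b) := by
  have := (ShR.zero hn hpS).sub hn hpS h
  rwa [zero_sub, zero_sub] at this

theorem ShR.add {a a' : M2 hn S p} {b b' : MI S H} (h : ShR hn hpS a b) (h' : ShR hn hpS a' b') :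
    ShR hn hpS (a + a') (b + b') := by
  have := h.sub hn hpS (h'.neg hn hpS)
  rwa [sub_neg_eq_add, sub_neg_eq_add] at this

theorem ShR.smul {a : M2 hn S p} {b : MI S H} (hk : ShR hn hpS a b) (h : H) :
    ShR hn hpS (MonoidAlgebra.of ℤ H h • a) (MonoidAlgebra.of ℤ H h • b) := by
  obtain ⟨z, h2, h3⟩ := hk
  refine ⟨(cnj (famS S) (muQ p) (h : GQ) (hn' hn h)).mapZ2 z, ?_, ?_⟩
  · rw [toV_smul, h2, h2Rep_mk]
  · rw [toV_smul]
    exact SRel.conj hn hpS h3 h

theorem ShR.exists_right (hp2 : p ≠ 2) (hU : (famS S).IsOpen U) {a : M2 hn S p}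
    (ha : toV _ a ∈ sha2U p S U) : ∃ b ∈ DI S hn, ShR hn hpS a b := by
  obtain ⟨f, hf⟩ := H2.mk_surjective (toV _ a)
  obtain ⟨D, hD1, hD2⟩ := SRel.exists (hpS := hpS) hp2 hU f (by
    rw [hf]
    exact ha)
  exact ⟨ofG _ D, hD1, f, hf.symm, hD2⟩

theorem ShR.eq_zero {a : M2 hn S p} {b : MI S H} (hk : ShR hn hpS a b)
    (hb : b ∈ (FK S hn).map (dkm S H) ⊔ (DI S hn).map (mp p (MI S H))) : a = 0 := by
  obtain ⟨z, h2, h3⟩ := hk
  obtain ⟨_, ⟨c, hc, rfl⟩, _, ⟨D', -, rfl⟩, hck⟩ := Submodule.mem_sup.mp hb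
  have h5 := SRel.eq_zero (hpS := hpS) h3 (D' := toV _ D') (k := toV _ c) hc (by
    rw [← hck, map_add, toV_dkm, add_comm]
    rfl)
  apply toV_injective
  rw [h2, h5, map_zero]

set_option maxHeartbeats 1600000 in
/-- **The locally trivial part of `H²`, equivariantly.** -/
theorem nh_sha {N : Subgroup H} [N.Normal] (hN : N = U.subgroupOf H)
    (hP : GoodP (R := MonoidAlgebra ℤ H) p (JN N) P)
    (hPN : ∀ n ∈ N, ∀ x : P, MonoidAlgebra.of ℤ H n • x = x) (hp2 : p ≠ 2)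
    (hU : (famS S).IsOpen U) (hpS : pPrime p ∈ S) (hfinC : Finite (ClK S hn))
    (Sh : Submodule (MonoidAlgebra ℤ H) (M2 hn S p)) (hSh : ∀ y ∈ Sh, toV _ y ∈ sha2U p S U) :
    nh (MonoidAlgebra ℤ H) P Sh ≤ nq (MonoidAlgebra ℤ H) p P (ClK S hn) := by
  have hle : (FK S hn).map (dkm S H) ≤ DI S hn := by
    rintro _ ⟨x, hx, rfl⟩
    exact dkm_mem S hn hx
  rw [nh_invN N P hPN, nq_SQ _ _ hle]
  set W := (FK S hn).map (dkm S H) ⊔ (DI S hn).map (mp p (MI S H)) with hW
  have hfin : Finite (SQ (DI S hn) W) := by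
    have h1 : (FK S hn).map (dkm S H) ≤ W := le_sup_left
    let g : ClK S hn →ₗ[MonoidAlgebra ℤ H] SQ (DI S hn) W :=
      Submodule.mapQ _ _ LinearMap.id (fun y hy => h1 hy)
    refine Finite.of_surjective g ?_
    intro y
    obtain ⟨y, rfl⟩ := Submodule.Quotient.mk_surjective _ y
    exact ⟨Submodule.Quotient.mk y, rfl⟩
  refine nh_le_of_rel' hP
    (fun (a : ↥(invN N Sh)) (b : SQ (DI S hn) W) => ∃ k : DI S hn, b = Submodule.Quotient.mk k ∧
      ShR hn hpS ((a : Sh) : M2 hn S p) k) ?_ ?_ ?_ ?_ ?_ ?_ ?_ ?_ ?_ ?_ (finite_hom hP)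
  · exact ⟨0, (Submodule.Quotient.mk_zero _).symm, ShR.zero hn hpS⟩
  · rintro a b a' b' ⟨k, rfl, h3⟩ ⟨k', rfl, h3'⟩
    exact ⟨k + k', (Submodule.Quotient.mk_add _).symm, h3.add hn hpS h3'⟩
  · rintro a b ⟨k, rfl, h3⟩
    exact ⟨-k, (Submodule.Quotient.mk_neg _).symm, h3.neg hn hpS⟩
  · rintro h a b ⟨k, rfl, h3⟩
    exact ⟨MonoidAlgebra.of ℤ H h • k, (Submodule.Quotient.mk_smul _ _ _).symm, h3.smul hn hpS h⟩
  · intro x
    obtain ⟨b, hb, h3⟩ := ShR.exists_right hn hpS hp2 hU (hSh _ (x : Sh).2)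
    exact ⟨Submodule.Quotient.mk ⟨b, hb⟩, ⟨b, hb⟩, rfl, h3⟩
  · rintro x ⟨k, h1, h3⟩
    have h4 := SQ.mk_eq_zero.mp h1.symm
    have h5 := h3.eq_zero hn hpS h4
    exact Subtype.ext (Subtype.ext h5)
  · intro x
    exact Subtype.ext (Subtype.ext (tor_GM _ _))
  · exact JN_smul fun n hn1 x => Subtype.ext (x.2 n hn1)
  · intro x
    obtain ⟨k, rfl⟩ := Submodule.Quotient.mk_surjective _ x
    rw [← Submodule.Quotient.mk_smul, SQ.mk_eq_zero]
    exact Submodule.mem_sup_right ⟨k, k.2, rfl⟩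
  · intro j hj x
    obtain ⟨k, rfl⟩ := Submodule.Quotient.mk_surjective _ x
    subst hN
    rw [← Submodule.Quotient.mk_smul, SQ.mk_eq_zero, Submodule.coe_smul,
      smul_DI S hn k.2 j hj]
    exact zero_mem _

/-- the class group is finite -/
theorem finite_ClK (hU : (famS S).IsOpen U) : Finite (ClK S hn) := by
  have h1 := finite_cl hU
  set A := AddSubgroup.toSubgroup (FKU S U) with hA
  set D := AddSubgroup.toSubgroup (DVU S U) with hD
  have h2 : Finite (D ⧸ (A.map (AddMonoidHom.toMultiplicative (dk S))).subgroupOf D) :=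
    Nat.finite_of_card_ne_zero h1
  refine Finite.of_injective (fun c : ClK S hn =>
    (QuotientGroup.mk (⟨Multiplicative.ofAdd (toV _ ((Quotient.out c : DI S hn) : MI S H)),
      (Quotient.out c : DI S hn).2⟩ : D) :
      D ⧸ (A.map (AddMonoidHom.toMultiplicative (dk S))).subgroupOf D)) ?_
  intro c c' hcc
  simp only at hcc
  rw [QuotientGroup.eq] at hcc
  obtain ⟨z, hz1, hz2⟩ := Subgroup.mem_subgroupOf.mp hcc
  have e1 : (Submodule.Quotient.mk (Quotient.out c : DI S hn) : ClK S hn) = c := Quotient.out_eq c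
  have e2 : (Submodule.Quotient.mk (Quotient.out c' : DI S hn) : ClK S hn) = c' :=
    Quotient.out_eq c'
  rw [← e1, ← e2, eq_comm, ← sub_eq_zero, ← Submodule.Quotient.mk_sub, SQ.mk_eq_zero]
  refine ⟨ofG _ (Multiplicative.toAdd z), hz1, ?_⟩
  apply toV_injective
  have h3 := congrArg Multiplicative.toAdd hz2
  rw [toV_dkm, toV_ofG]
  refine Eq.trans h3 ?_
  change -(toV _ ((Quotient.out c : DI S hn) : MI S H)) +
    toV _ ((Quotient.out c' : DI S hn) : MI S H) = _
  rw [neg_add_eq_sub]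
  rfl

end Fermat.Agent.EqEu
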