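import Fermat.Agent.EqEu.Units

/-!
# The inequality for the group of `S`-units
-/

set_option autoImplicit false
set_option linter.unusedSectionVars false

namespace Fermat.Agent.EqEu

open Fermat.Agent.Coh Fermat.Agent.GCFT Fermat.Agent.GlobalCFT Fermat.Agent.PT Fermat.Agent.GalD
  Fermat.Agent.LocalCFT Module ExtCitation NumberField IsDedekindDomain

/-- The field of algebraic numbers. -/
local notation "Qb" => AlgebraicClosure ℚ
/-- The absolute Galois group. -/
local notation "GQ" => (AlgebraicClosure ℚ ≃ₐ[ℚ] AlgebraicClosure ℚ)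

section fg

variable {K : Type*} [Field K] [NumberField K] (T : Finset (HeightOneSpectrum (𝓞 K)))

theorem finite_ET : Module.Finite ℤ (Additive ↥(ET T)) := by
  let f : Additive ↥(ET T) →ₗ[ℤ] (T → ℤ) :=
    AddMonoidHom.toIntLinearMap
      { toFun := fun x v => Multiplicative.toAdd (valT T (x.toMul : Kˣ) v)
        map_zero' := by
          funext v
          change Multiplicative.toAdd (valT T 1 v) = 0
          rw [map_one]
          rfl
        map_add' := fun x y => by
          funext v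
          change Multiplicative.toAdd (valT T ((x.toMul : Kˣ) * (y.toMul : Kˣ)) v) = _
          rw [map_mul]
          rfl }
  have hker : Module.Finite ℤ (LinearMap.ker f) := by
    have h1 : ∀ u : (𝓞 K)ˣ, Units.map (algebraMap (𝓞 K) K : 𝓞 K →* K) u ∈ ET T ∧
        valT T (Units.map (algebraMap (𝓞 K) K : 𝓞 K →* K) u) = 1 := by
      intro u
      have h2 : Units.map (algebraMap (𝓞 K) K : 𝓞 K →* K) u ∈ ET T ⊓ (valT T).ker := by
        rw [ET_inf_ker]
        exact ⟨u, trivial, rfl⟩
      exact ⟨h2.1, h2.2⟩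
    let g : Additive (𝓞 K)ˣ →+ LinearMap.ker f :=
      { toFun := fun u => ⟨Additive.ofMul ⟨_, (h1 u.toMul).1⟩, by
          rw [LinearMap.mem_ker]
          funext v
          change Multiplicative.toAdd (valT T (Units.map _ u.toMul) v) = 0
          rw [(h1 u.toMul).2]
          rfl⟩
        map_zero' := by
          apply Subtype.ext
          apply Additive.toMul.injective
          apply Subtype.ext
          exact map_one _
        map_add' := fun u v => by
          apply Subtype.ext
          apply Additive.toMul.injective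
          apply Subtype.ext
          exact map_mul _ _ _ }
    refine Module.Finite.of_surjective g.toIntLinearMap fun x => ?_
    have h2 : ((x : Additive ↥(ET T)).toMul : Kˣ) ∈ ET T ⊓ (valT T).ker := by
      refine ⟨((x : Additive ↥(ET T)).toMul).2, ?_⟩
      change valT T ((x : Additive ↥(ET T)).toMul : Kˣ) = 1
      funext v
      have h3 := congrFun (LinearMap.mem_ker.mp x.2) v
      exact congrArg Multiplicative.ofAdd h3
    rw [ET_inf_ker] at h2
    obtain ⟨u, -, hu⟩ := h2
    refine ⟨Additive.ofMul u, ?_⟩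
    apply Subtype.ext
    apply Additive.toMul.injective
    apply Subtype.ext
    exact hu
  have hq : Module.Finite ℤ (Additive ↥(ET T) ⧸ LinearMap.ker f) :=
    Module.Finite.equiv f.quotKerEquivRange.symm
  exact Module.Finite.of_submodule_quotient (LinearMap.ker f)

end fg

variable {S : Finset Nat.Primes} {U H : Subgroup (AlgebraicClosure ℚ ≃ₐ[ℚ] AlgebraicClosure ℚ)}
variable {p : ℕ} [hp : Fact p.Prime] (hn : ∀ h ∈ H, ∀ u ∈ U, h * u * h⁻¹ ∈ U)
variable {P : Type} [AddCommGroup P] [Module (MonoidAlgebra ℤ H) P]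

theorem finite_EK (hS : S.Nonempty) (hU : (famS S).IsOpen U) : Module.Finite ℤ (EK S hn) := by
  have hUo := isOpen_of_famS hU
  haveI := numberField_FFd hUo
  haveI := finite_ET (TW S U hUo)
  have h1 := map_ET_toKS hS hU
  have h2 : ∀ x : ↥(ET (TW S U hUo)), (toKS hU x.1) ∈ AddSubgroup.toSubgroup (FKU S U) ⊓
      (AddMonoidHom.toMultiplicative (dk S)).ker := by
    intro x
    rw [← h1]
    exact ⟨x.1, x.2, rfl⟩
  let g : Additive ↥(ET (TW S U hUo)) →+ EK S hn :=
    { toFun := fun x => ⟨ofG _ (toKS hU (x.toMul : (FFd U)ˣ)).toAdd, (h2 x.toMul).1,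
        congrArg Multiplicative.toAdd (h2 x.toMul).2⟩
      map_zero' := by
        apply Subtype.ext
        change ofG _ (toKS hU 1).toAdd = 0
        rw [map_one]
        rfl
      map_add' := fun x y => by
        apply Subtype.ext
        change ofG _ (toKS hU (((x.toMul : ↥(ET _)) : (FFd U)ˣ) *
          ((y.toMul : ↥(ET _)) : (FFd U)ˣ))).toAdd = _
        rw [map_mul]
        rfl }
  refine Module.Finite.of_surjective g.toIntLinearMap fun x => ?_
  have h3 : Multiplicative.ofAdd (toV _ (x : MK S H)) ∈ AddSubgroup.toSubgroup (FKU S U) ⊓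
      (AddMonoidHom.toMultiplicative (dk S)).ker :=
    ⟨x.2.1, congrArg Multiplicative.ofAdd x.2.2⟩
  rw [← h1] at h3
  obtain ⟨y, hy, hyx⟩ := h3
  refine ⟨Additive.ofMul ⟨y, hy⟩, ?_⟩
  apply Subtype.ext
  exact congrArg Multiplicative.toAdd hyx

/-- the `p`-torsion of the `S`-units -/
theorem nt_EK (hUp : ∀ u ∈ U, cycloChar p u = 1) (hpS : pPrime p ∈ S) :
    nt (MonoidAlgebra ℤ H) p P (EK S hn) = nh (MonoidAlgebra ℤ H) P (GM (rep (muQ p) H)) := by
  rw [← nt_eq_nh (R := MonoidAlgebra ℤ H) (p := p) (tor_GM (rep (muQ p) H))]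
  let f : GM (rep (muQ p) H) →ₗ[MonoidAlgebra ℤ H] EK S hn :=
    (mkHom (((ofG (rep (repK S) H)).comp (jG hpS)).comp (toV (rep (muQ p) H))) fun h x => by
      rw [AddMonoidHom.comp_apply, AddMonoidHom.comp_apply, AddMonoidHom.comp_apply,
        AddMonoidHom.comp_apply, toV_smul, smul_ofG]
      exact congrArg (ofG _) (jG_comm hpS (h : GQ) _)).codRestrict (EK S hn) fun x =>
        ⟨fun u hu => repK_jG hUp hu _, dk_jG hpS _⟩
  have hf : ∀ x, toV _ (f x : MK S H) = jG hpS (toV _ x) := fun x => rfl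
  symm
  refine nh_SQ_congr f (fun y hy => ?_) (fun y hy => ?_) (fun y _ => ?_)
  · rw [LinearMap.mem_ker, mp_apply, ← map_nsmul, tor_GM, map_zero]
  · rw [LinearMap.mem_ker, mp_apply] at hy
    obtain ⟨a, ha⟩ := exists_jG hpS (toV _ (y : MK S H)) (by
      have := congrArg (fun z : EK S hn => toV _ (z : MK S H)) hy
      exact this)
    refine ⟨ofG _ a, tor_GM _ _, ?_⟩
    rw [Submodule.mem_bot, sub_eq_zero]
    apply Subtype.ext
    apply toV_injective
    rw [hf, toV_ofG, ha]
  · rw [Submodule.mem_bot, Submodule.mem_bot]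
    constructor
    · intro h
      apply toV_injective
      apply jG_injective hpS
      rw [← hf, h, map_zero, map_zero]
      rfl
    · rintro rfl
      exact map_zero f

/-- **The inequality for the group of `S`-units.** -/
theorem units_ineq (hP : GoodP (R := MonoidAlgebra ℤ H) p (JN (U.subgroupOf H)) P)
    (hU : (famS S).IsOpen U) (hUp : ∀ u ∈ U, cycloChar p u = 1) (hpS : pPrime p ∈ S) :
    (∏ i : Option ↥S, nh (MonoidAlgebra ℤ H) P (XM hn (ZMod p) (DS S i))) *
      nh (MonoidAlgebra ℤ H) P (GM (rep (muQ p) H)) ≤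
    nq (MonoidAlgebra ℤ H) p P (EK S hn) * nh (MonoidAlgebra ℤ H) P (Fp p H) := by
  have hS : S.Nonempty := ⟨_, hpS⟩
  obtain ⟨U₀, hU₀, hU₀U⟩ := hU
  haveI : U₀.Normal := hU₀.1
  have hU₀o : IsOpen (U₀ : Set GQ) := hU₀.2.1
  haveI : Finite (GQ ⧸ U₀) := Subgroup.quotient_finite_of_isOpen U₀ hU₀o
  haveI : Fintype (GQ ⧸ U₀) := Fintype.ofFinite _
  have hUfin : Finite (GQ ⧸ U) :=
    Subgroup.quotient_finite_of_isOpen U (Subgroup.isOpen_mono hU₀U hU₀o)
  have hW : (famS S).IsOpen U₀ := ⟨U₀, hU₀, le_rfl⟩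
  choose uf hf1 hf2 hf3 hf4 hf5 using fun l : ↥S => exists_unit_fin hW hS l
  obtain ⟨ui, hi1, hi2, hi3, hi4, hi5⟩ := exists_unit_inf hW hS
  let u : Option ↥S → KS S := fun i => i.elim ui uf
  have hu : ∀ i, ∀ n ∈ U₀, repK S n (u i) = u i := by
    intro i
    cases i with
    | none => exact hi1
    | some l => exact hf1 l
  have hdu : ∀ i, dk S (u i) = 0 := by
    intro i
    cases i with
    | none => exact hi2
    | some l => exact hf2 l
  have hdth : ∀ i (f : XM hn ℤ (DS S i)), dk S (th hn (repK S) U₀ (u i) f) = 0 := by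
    intro i f
    rw [th_apply, map_sum]
    refine Finset.sum_eq_zero fun x _ => ?_
    rw [map_zsmul, dk_comm, hdu, map_zero, smul_zero]
  have hmem : ∀ x : XA hn ℤ (DS S), Th hn hU₀U (repK S) (DS S) u hu x ∈ EK S hn := by
    intro x
    refine ⟨fun w hw => Th_fixed hn hU₀U (repK S) (DS S) u hu x hw, ?_⟩
    change dk S (toV _ (Th hn hU₀U (repK S) (DS S) u hu x)) = 0
    rw [toV_Th, map_sum]
    exact Finset.sum_eq_zero fun i _ => hdth i _
  let Θ : XA hn ℤ (DS S) →ₗ[MonoidAlgebra ℤ H] EK S hn :=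
    (Th hn hU₀U (repK S) (DS S) u hu).codRestrict (EK S hn) hmem
  have hΘ : ∀ x, (Θ x : MK S H) = Th hn hU₀U (repK S) (DS S) u hu x := fun x => rfl
  have hker : ∀ x, Θ x = 0 → (∀ l, prX hn (DS S) (some l) x = 0) ∧
      ∃ c, ∀ g, fn hn (prX hn (DS S) none x) g = c := by
    intro x hx
    refine Th_kernel hn hU₀U (repK S) (DS S) u hu (LS S) LS_one LS_two ?_ ?_ ?_ ?_ ?_ x ?_
    · intro l j hj g
      cases j with
      | none => exact hi3 l g
      | some j => exact hf3 j l (fun h => hj (by rw [h])) g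
    · intro l g hg
      exact hf4 l g hg
    · intro l
      exact hf5 l
    · exact hi4
    · exact hi5
    · rw [← hΘ, hx]
      rfl
  haveI := finite_XA hn (DS S)
  haveI := finite_EK (S := S) hn hS ⟨U₀, hU₀, hU₀U⟩
  have main := nq_map_le hP hp.out.ne_zero (XA_J hn) (fun j hj x => Subtype.ext
    (smul_FK S hn x.2.1 j hj)) Θ
  have hntk : nt (MonoidAlgebra ℤ H) p P (LinearMap.ker Θ) = 1 := by
    refine nt_eq_one fun x hx => ?_
    apply Subtype.ext
    refine XA_ext hn fun i => fn_ext hn fun g => ?_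
    have h2 := congrArg (fun y : LinearMap.ker Θ => fn hn (prX hn (DS S) i (y : XA hn ℤ (DS S))) g) hx
    simp only [Submodule.coe_smul_of_tower, map_nsmul, fn_nsmul, ZeroMemClass.coe_zero, map_zero,
      fn_zero, nsmul_eq_mul] at h2
    have hp' : (p : ℤ) ≠ 0 := by exact_mod_cast hp.out.ne_zero
    exact (mul_eq_zero.mp h2).resolve_left hp'
  have hnqk : nq (MonoidAlgebra ℤ H) p P (LinearMap.ker Θ) ≤ nh (MonoidAlgebra ℤ H) P (Fp p H) := by
    refine nq_le_Fp hP
      { toFun := fun x : LinearMap.ker Θ => fn hn (prX hn (DS S) none (x : XA hn ℤ (DS S))) 1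
        map_zero' := rfl
        map_add' := fun _ _ => rfl } ?_ ?_
    · rw [injective_iff_map_eq_zero]
      intro x hx
      obtain ⟨h1, c, hc⟩ := hker x (LinearMap.mem_ker.mp x.2)
      have hc0 : c = 0 := by
        rw [← hc 1]
        exact hx
      apply Subtype.ext
      refine XA_ext hn fun i => ?_
      cases i with
      | none => exact fn_ext hn fun g => by rw [hc g, hc0]; rfl
      | some l => exact h1 l
    · intro h x
      obtain ⟨h1, c, hc⟩ := hker x (LinearMap.mem_ker.mp x.2)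
      change fn hn (prX hn (DS S) none (MonoidAlgebra.of ℤ H h • (x : XA hn ℤ (DS S)))) 1 =
        fn hn (prX hn (DS S) none (x : XA hn ℤ (DS S))) 1
      rw [map_smul, fn_of_smul, hc, hc]
  rw [hntk, nt_XA hn hp.out.ne_zero, nq_XA hn hp.out.ne_zero, nh_XA, nt_EK hn hUp hpS, mul_one,
    mul_one] at main
  exact main.trans (Nat.mul_le_mul_left _ hnqk)

end Fermat.Agent.EqEu
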