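import Fermat.Agent.EqEu.SumX
import Fermat.Agent.EqEu.Sha
import Fermat.Agent.EqEu.UIneq

/-!
# The equivariant Euler characteristic inequality
-/

set_option autoImplicit false
set_option linter.unusedSectionVars false
set_option linter.style.haveILetI false

namespace Fermat.Agent.EqEu

open Fermat.Agent.Coh Fermat.Agent.GCFT Fermat.Agent.GlobalCFT Fermat.Agent.PT Fermat.Agent.GalD
  Fermat.Agent.LocalCFT Module ExtCitation

/-- The field of algebraic numbers. -/
local notation "Qb" => AlgebraicClosure ℚ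
/-- The absolute Galois group. -/
local notation "GQ" => (AlgebraicClosure ℚ ≃ₐ[ℚ] AlgebraicClosure ℚ)

section gen

variable {R : Type} [Ring R] {p : ℕ} {J : Set R} {P : Type} [AddCommGroup P] [Module R P]
  {Y Z : Type} [AddCommGroup Y] [Module R Y] [AddCommGroup Z] [Module R Z]

theorem nh_le_mul (hP : GoodP p J P) [Finite Y] [Finite Z] (g : Y →ₗ[R] Z) :
    nh R P Y ≤ nh R P (LinearMap.ker g) * nh R P Z := by
  haveI := finite_hom (X := Y) hP
  haveI := finite_hom (X := Z) hP
  let G : (P →ₗ[R] Y) →+ (P →ₗ[R] Z) :=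
    { toFun := fun u => g ∘ₗ u
      map_zero' := LinearMap.comp_zero g
      map_add' := fun u v => LinearMap.comp_add u v g }
  have h1 : Nat.card (P →ₗ[R] Y) = Nat.card G.ker * Nat.card G.range := by
    rw [← AddSubgroup.card_mul_index G.ker, AddSubgroup.index_ker]
  have h2 : Nat.card G.ker = Nat.card (P →ₗ[R] LinearMap.ker g) :=
    Nat.card_congr
      { toFun := fun u => LinearMap.codRestrict (LinearMap.ker g) (u : P →ₗ[R] Y)
          (fun x => LinearMap.congr_fun (AddMonoidHom.mem_ker.mp u.2) x)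
        invFun := fun u => ⟨(LinearMap.ker g).subtype ∘ₗ u, by
          rw [AddMonoidHom.mem_ker]
          ext x
          exact (u x).2⟩
        left_inv := fun u => rfl
        right_inv := fun u => rfl }
  rw [nh, h1, h2]
  refine Nat.mul_le_mul_left _ ?_
  exact Nat.card_le_card_of_injective (fun x : G.range => (x : P →ₗ[R] Z)) Subtype.val_injective

theorem finite_of_ker (g : Y →ₗ[R] Z) [Finite Z] [Finite (LinearMap.ker g)] : Finite Y := by
  let s : LinearMap.range g → Y := fun z => z.2.choose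
  have hs : ∀ z, g (s z) = z := fun z => z.2.choose_spec
  refine Finite.of_injective (fun y : Y => ((⟨y - s ⟨g y, y, rfl⟩, by
    rw [LinearMap.mem_ker, map_sub, hs, sub_self]⟩ : LinearMap.ker g), g y)) ?_
  intro y y' h
  have h1 := congrArg Prod.snd h
  have h2 := congrArg (fun q : LinearMap.ker g × Z => (q.1 : Y)) h
  simp only at h1 h2
  have h3 : s ⟨g y, y, rfl⟩ = s ⟨g y', y', rfl⟩ := congrArg s (Subtype.ext h1)
  rw [h3] at h2
  exact sub_left_injective h2

end gen

variable {p : ℕ} [hp : Fact p.Prime] {S : Finset Nat.Primes}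
  {U H : Subgroup (AlgebraicClosure ℚ ≃ₐ[ℚ] AlgebraicClosure ℚ)}
variable (hn : ∀ h ∈ H, ∀ u ∈ U, h * u * h⁻¹ ∈ U)
variable {P : Type} [AddCommGroup P] [Module (MonoidAlgebra ℤ H) P]

set_option maxHeartbeats 2000000 in
/-- **The equivariant Euler characteristic inequality**, in terms of numbers of maps. -/
theorem main_ineq {N : Subgroup H} [hNn : N.Normal] (hN : N = U.subgroupOf H)
    (hP : GoodP (R := MonoidAlgebra ℤ H) p (JN N) P)
    (hPN : ∀ n ∈ N, ∀ x : P, MonoidAlgebra.of ℤ H n • x = x) (hp2 : p ≠ 2)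
    (hU : (famS S).IsOpen U) (hUp : ∀ u ∈ U, cycloChar p u = 1) (hpS : pPrime p ∈ S) :
    Finite (M2 hn S p) ∧
    nh (MonoidAlgebra ℤ H) P (M2 hn S p) * nh (MonoidAlgebra ℤ H) P (GM (rep (muQ p) H)) *
      nh (MonoidAlgebra ℤ H) P (XM hn (ZMod p) (Subgroup.zpowers complexConjugation)) ≤
    nh (MonoidAlgebra ℤ H) P (M1 hn S p) := by
  have hS : S.Nonempty := ⟨_, hpS⟩
  haveI hfinq : Finite (GQ ⧸ U) := Subgroup.quotient_finite_of_isOpen U (isOpen_of_famS hU)
  haveI : NeZero p := ⟨hp.out.ne_zero⟩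
  haveI : ∀ l : Nat.Primes, Finite (Pl (rl l) U) := fun l =>
    Fermat.Agent.GlobalCFT.finite_Pl l (isOpen_of_famS hU)
  letI : ∀ l : Nat.Primes, Fintype (Pl (rl l) U) := fun l => Fintype.ofFinite _
  haveI hfF : Finite (Fp p H) := inferInstanceAs (Finite (ZMod p))
  -- finiteness
  haveI hfX : Finite (XA hn (ZMod p) (DF S)) := by
    haveI : ∀ l : ↥S, Finite (XM hn (ZMod p) (DF S l)) := fun l => finite_XM hn _
    exact inferInstanceAs (Finite ((l : ↥S) → XM hn (ZMod p) (DF S l)))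
  have hsha : Finite (sha2U p S U) := (finite_H1_sha hp2 hU hUp hpS).2
  set Sh := LinearMap.ker (lM hp2 hU hn) with hSh
  have hShm : ∀ y ∈ Sh, toV _ y ∈ sha2U p S U := fun y hy =>
    lM_eq_zero hp2 hU hn (LinearMap.mem_ker.mp hy)
  haveI hfSh : Finite Sh := Finite.of_injective
    (fun y : Sh => (⟨toV _ (y : M2 hn S p), hShm y y.2⟩ : sha2U p S U)) (by
      intro a b h
      have h1 := congrArg Subtype.val h
      exact Subtype.ext (toV_injective _ h1))
  haveI hf2 : Finite (M2 hn S p) := finite_of_ker (lM hp2 hU hn)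
  refine ⟨hf2, ?_⟩
  -- the local part
  let g0 : M2 hn S p →ₗ[MonoidAlgebra ℤ H] LinearMap.ker (sX (p := p) (S := S) hn) :=
    (lM hp2 hU hn).codRestrict _ fun y => sX_lM hn hp2 hU hpS y
  have hker : LinearMap.ker g0 = Sh := LinearMap.ker_codRestrict _ _ _
  have a1 : nh (MonoidAlgebra ℤ H) P (M2 hn S p) ≤ nh (MonoidAlgebra ℤ H) P Sh *
      nh (MonoidAlgebra ℤ H) P (LinearMap.ker (sX (p := p) (S := S) hn)) := by
    have := nh_le_mul hP g0
    rwa [hker] at this
  have a2 : nh (MonoidAlgebra ℤ H) P (XA hn (ZMod p) (DF S)) =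
      nh (MonoidAlgebra ℤ H) P (LinearMap.ker (sX (p := p) (S := S) hn)) *
        nh (MonoidAlgebra ℤ H) P (Fp p H) := by
    refine nh_exact hP (LinearMap.ker (sX (p := p) (S := S) hn)).subtype (sX hn)
      Subtype.val_injective (sX_surjective hn hS) (fun y => ?_) (fun x => ?_) ?_
    · constructor
      · intro h
        exact ⟨⟨y, h⟩, rfl⟩
      · rintro ⟨x, rfl⟩
        exact x.2
    · refine XA_ext hn fun i => ?_
      rw [map_nsmul, tor_GM, map_zero]
    · subst hN
      exact XA_J hn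
  have a3 := nh_sha hn hN hP hPN hp2 hU hpS (finite_ClK hn hU) Sh hShm
  have a4 : nq (MonoidAlgebra ℤ H) p P (ClK S hn) = nt (MonoidAlgebra ℤ H) p P (ClK S hn) := by
    haveI := finite_ClK (S := S) hn hU
    refine nq_eq_nt_of_finite hP _ (ClK S hn) rfl fun j hj x => ?_
    obtain ⟨x, rfl⟩ := Submodule.Quotient.mk_surjective _ x
    subst hN
    rw [← Submodule.Quotient.mk_smul, SQ.mk_eq_zero, Submodule.coe_smul,
      smul_DI S hn x.2 j hj]
    exact zero_mem _
  have a5 := kummer_nh hP (dkm S H) (FK S hn) (DI S hn) (fun x hx => dkm_mem S hn hx)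
    (fun c hc h => toV_injective _ (DVU_torsionFree hp.out.ne_zero hc.1 (by
      rw [← map_nsmul, h, map_zero]))) (fun j hj x hx => by
      subst hN
      exact smul_FK S hn hx j hj)
  have a6 := nh_kummer hn hN hP hp2 hU hUp hpS
  rw [a5] at a6
  have a7 : (∏ i : Option ↥S, nh (MonoidAlgebra ℤ H) P (XM hn (ZMod p) (DS S i))) *
      nh (MonoidAlgebra ℤ H) P (GM (rep (muQ p) H)) ≤
      nq (MonoidAlgebra ℤ H) p P (EK S hn) * nh (MonoidAlgebra ℤ H) P (Fp p H) := by
    subst hN
    exact units_ineq hn hP hU hUp hpS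
  rw [Fintype.prod_option] at a7
  rw [nh_XA] at a2
  have hF : 0 < nh (MonoidAlgebra ℤ H) P (Fp p H) := nh_pos hP
  set F := nh (MonoidAlgebra ℤ H) P (Fp p H) with hFdef
  set X0 := nh (MonoidAlgebra ℤ H) P (LinearMap.ker (sX (p := p) (S := S) hn)) with hX0
  set mu := nh (MonoidAlgebra ℤ H) P (GM (rep (muQ p) H)) with hmu
  set sh := nh (MonoidAlgebra ℤ H) P Sh with hsh
  set cl' := nq (MonoidAlgebra ℤ H) p P (ClK S hn) with hcl
  rw [← a4] at a6
  change nq (MonoidAlgebra ℤ H) p P (EK S hn) * cl' ≤ _ at a6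
  set E := nq (MonoidAlgebra ℤ H) p P (EK S hn) with hE
  have a8 : (∏ l : ↥S, nh (MonoidAlgebra ℤ H) P (XM hn (ZMod p) (DS S (some l)))) = X0 * F := a2
  rw [a8] at a7
  change nh (MonoidAlgebra ℤ H) P (XM hn (ZMod p) (Subgroup.zpowers complexConjugation)) *
    (X0 * F) * mu ≤ E * F at a7
  set Xi := nh (MonoidAlgebra ℤ H) P (XM hn (ZMod p) (Subgroup.zpowers complexConjugation))
    with hXi
  have a9 : Xi * X0 * mu ≤ E := by
    refine Nat.le_of_mul_le_mul_right ?_ hF
    calc Xi * X0 * mu * F = Xi * (X0 * F) * mu := by ring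
      _ ≤ E * F := a7
  calc nh (MonoidAlgebra ℤ H) P (M2 hn S p) * mu * Xi
      ≤ (sh * X0) * mu * Xi := by gcongr
    _ ≤ (cl' * X0) * mu * Xi := by gcongr
    _ = (Xi * X0 * mu) * cl' := by ring
    _ ≤ E * cl' := by gcongr
    _ ≤ _ := a6

set_option maxHeartbeats 2000000 in
/-- **The equivariant Euler characteristic inequality.** -/
theorem xprop (hp2 : p ≠ 2) (hU : (famS S).IsOpen U) (hUp : ∀ u ∈ U, cycloChar p u = 1)
    (hpS : pPrime p ∈ S) : XProp p S H U hn := by
  intro P _ _ _ σ hσ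
  haveI hfinq : Finite (GQ ⧸ U) := Subgroup.quotient_finite_of_isOpen U (isOpen_of_famS hU)
  haveI : (U.subgroupOf H).Normal := ⟨fun u hu h => by
    rw [Subgroup.mem_subgroupOf] at hu ⊢
    exact hn h h.2 u hu⟩
  haveI : Finite (H ⧸ U.subgroupOf H) := by
    haveI := hU.finiteIndex
    exact Subgroup.finite_quotient_of_finiteIndex
  have hP := goodP_of_relProj σ hσ
  have hfP : Finite P := Module.finite_of_finite (ZMod p)
  haveI hf1 : Finite (H1 ((famS S).res U) (rep (muQ p) U)) := (finite_H1_sha hp2 hU hUp hpS).1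
  obtain ⟨hf2, h1⟩ := main_ineq hn rfl hP (fun n hn1 x => by
    apply toV_injective
    rw [toV_smul, hσ.1 n hn1]
    rfl) hp2 hU hUp hpS
  haveI hf2' : Finite (H2 ((famS S).res U) (rep (muQ p) U)) := hf2
  haveI : NeZero p := ⟨hp.out.ne_zero⟩
  haveI hfX : Finite (plSub (ZMod p) (Subgroup.zpowers complexConjugation) U) :=
    finite_XM hn (Subgroup.zpowers complexConjugation)
  rw [nh_eq_pow, nh_eq_pow, nh_eq_pow, nh_eq_pow, ← pow_add, ← pow_add,
    Nat.pow_le_pow_iff_right hp.out.one_lt] at h1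
  exact h1

end Fermat.Agent.EqEu
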