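import Fermat.Agent.EqEu.Mod

/-!
# Relatively projective representations; equivariant maps
-/

set_option autoImplicit false
set_option linter.unusedSectionVars false

namespace Fermat.Agent.EqEu

open Fermat.Agent.PT Module

variable {p : ℕ} [Fact p.Prime] {G : Type} [Group G] {P : Type} [AddCommGroup P]
  [Module (ZMod p) P] (σ : Representation (ZMod p) G P)

theorem exists_lift_zmod {P X Y : Type} [AddCommGroup P] [Module (ZMod p) P] [AddCommGroup X]
    [AddCommGroup Y] (g : X →+ Y) (hg : Function.Surjective g) (hpX : ∀ x : X, p • x = 0)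
    (f : P →+ Y) : ∃ f0 : P →+ X, ∀ v, g (f0 v) = f v := by
  letI : Module (ZMod p) X := AddCommGroup.zmodModule hpX
  have hpY : ∀ y : Y, p • y = 0 := by
    intro y
    obtain ⟨x, rfl⟩ := hg y
    rw [← map_nsmul, hpX, map_zero]
  letI : Module (ZMod p) Y := AddCommGroup.zmodModule hpY
  obtain ⟨f0, hf0⟩ := Module.projective_lifting_property (g.toZModLinearMap p)
    (f.toZModLinearMap p) hg
  exact ⟨f0.toAddMonoidHom, fun v => LinearMap.congr_fun hf0 v⟩

theorem tor_GM {V : Type} [AddCommGroup V] [Module (ZMod p) V] (ρ : Representation (ZMod p) G V)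
    (x : GM ρ) : p • x = 0 := by
  apply toV_injective ρ
  rw [map_nsmul, map_zero, ← Nat.cast_smul_eq_nsmul (ZMod p), ZMod.natCast_self, zero_smul]

theorem goodP_of_relProj [FiniteDimensional (ZMod p) P] {N : Subgroup G} [Finite (G ⧸ N)]
    (h : RelProj N σ) :
    GoodP (R := MonoidAlgebra ℤ G) p (JN N) (GM σ) := by
  classical
  obtain ⟨hN, T, hT⟩ := h
  have : Fintype (G ⧸ N) := Fintype.ofFinite _
  rw [finsum_eq_sum_of_fintype] at hT
  refine ⟨?_, tor_GM σ, ?_⟩
  · have : Finite P := Module.finite_of_finite (ZMod p)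
    exact this
  · intro X Y _ _ _ _ g hg hpX hJX f
    obtain ⟨f0, hf0⟩ := exists_lift_zmod g.toAddMonoidHom hg hpX
      (f.toAddMonoidHom.comp (ofG σ))
    have hf0' : ∀ v : P, g (f0 v) = f (ofG σ v) := hf0
    let F : P → G → X := fun v y => MonoidAlgebra.of ℤ G y • f0 (T (σ y⁻¹ v))
    have hF : ∀ v y, F v y = MonoidAlgebra.of ℤ G y • f0 (T (σ y⁻¹ v)) := fun v y => rfl
    have hF1 : ∀ v y n, n ∈ N → F v (y * n) = F v y := by
      intro v y n hn
      have h1 : σ (y * n)⁻¹ v = σ y⁻¹ v := by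
        rw [mul_inv_rev, map_mul, hN _ (N.inv_mem hn), one_mul]
      rw [hF, hF, h1, map_mul, mul_smul, of_JN hJX hn]
    have hF2 : ∀ v (y y' : G), (y : G ⧸ N) = y' → F v y = F v y' := by
      intro v y y' hy
      have h1 : y' = y * (y⁻¹ * y') := by group
      rw [h1, hF1 v y _ (QuotientGroup.eq.mp hy)]
    let f' : P →+ X :=
      { toFun := fun v => ∑ x : G ⧸ N, F v x.out
        map_zero' := by
          refine Finset.sum_eq_zero fun x _ => ?_
          rw [hF, map_zero, map_zero, map_zero, smul_zero]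
        map_add' := fun v w => by
          rw [← Finset.sum_add_distrib]
          refine Finset.sum_congr rfl fun x _ => ?_
          rw [hF, hF, hF, map_add, map_add, map_add, smul_add] }
    have hf' : ∀ v, f' v = ∑ x : G ⧸ N, F v x.out := fun v => rfl
    refine ⟨mkHom (f'.comp (toV σ)) fun h v => ?_, ?_⟩
    · rw [AddMonoidHom.comp_apply, AddMonoidHom.comp_apply, toV_smul, hf', hf']
      generalize toV σ v = v
      have h1 : ∀ x : G ⧸ N, F (σ h v) x.out =
          MonoidAlgebra.of ℤ G h • F v ((MulAction.toPerm h⁻¹ : Equiv.Perm (G ⧸ N)) x).out := by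
        intro x
        have h2 : F v ((MulAction.toPerm h⁻¹ : Equiv.Perm (G ⧸ N)) x).out = F v (h⁻¹ * x.out) := by
          apply hF2
          rw [QuotientGroup.out_eq', MulAction.toPerm_apply]
          conv_lhs => rw [← QuotientGroup.out_eq' x]
          rfl
        rw [h2, hF, hF, ← mul_smul, ← map_mul, mul_inv_cancel_left, mul_inv_rev, inv_inv, map_mul,
          Module.End.mul_apply]
      rw [Finset.sum_congr rfl fun x _ => h1 x, ← Finset.smul_sum,
        Equiv.sum_comp (MulAction.toPerm h⁻¹ : Equiv.Perm (G ⧸ N)) (fun x => F v x.out)]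
    · ext v
      change g (f' (toV σ v)) = f v
      rw [hf']
      have h1 : ∀ x : G ⧸ N, g (F (toV σ v) x.out) =
          f (ofG σ ((σ x.out ∘ₗ T ∘ₗ σ (x.out)⁻¹) (toV σ v))) := by
        intro x
        rw [hF, map_smul, hf0', ← map_smul, smul_ofG]
        rfl
      rw [map_sum, Finset.sum_congr rfl fun x _ => h1 x]
      have h2 : ∑ x : G ⧸ N, (σ x.out ∘ₗ T ∘ₗ σ (x.out)⁻¹) (toV σ v) = toV σ v := by
        rw [← LinearMap.sum_apply, hT, LinearMap.id_apply]
      rw [← map_sum, ← map_sum, h2, ofG_toV]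

/-- equivariant maps -/
noncomputable def eqEquiv {V : Type} [AddCommGroup V] [Module (ZMod p) V]
    (τ : Representation (ZMod p) G V) : EqHom σ τ ≃ (GM σ →ₗ[MonoidAlgebra ℤ G] GM τ) where
  toFun f := mkHom (((ofG τ).comp (f : P →ₗ[ZMod p] V).toAddMonoidHom).comp (toV σ)) fun g x => by
    rw [AddMonoidHom.comp_apply, AddMonoidHom.comp_apply, toV_smul]
    have := f.2 g (toV σ x)
    change ofG τ ((f : P →ₗ[ZMod p] V) (σ g (toV σ x))) = _
    rw [this, ← smul_ofG]
    rfl
  invFun f := ⟨(((toV τ).comp f.toAddMonoidHom).comp (ofG σ)).toZModLinearMap p, fun g x => by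
    change toV τ (f (ofG σ (σ g x))) = τ g (toV τ (f (ofG σ x)))
    rw [← smul_ofG, map_smul, toV_smul]⟩
  left_inv f := rfl
  right_inv f := rfl

theorem nh_eq_pow {V : Type} [AddCommGroup V] [Module (ZMod p) V] [Finite V]
    [FiniteDimensional (ZMod p) P]
    (τ : Representation (ZMod p) G V) :
    nh (MonoidAlgebra ℤ G) (GM σ) (GM τ) = p ^ finrank (ZMod p) (EqHom σ τ) := by
  have hfP : Finite P := Module.finite_of_finite (ZMod p)
  have : Finite (P →ₗ[ZMod p] V) := Finite.of_injective (fun f : P →ₗ[ZMod p] V => (f : P → V))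
    DFunLike.coe_injective
  have : Module.Finite (ZMod p) (EqHom σ τ) := Module.Finite.of_finite
  rw [nh, ← Nat.card_congr (eqEquiv σ τ), Module.natCard_eq_pow_finrank (K := ZMod p)
    (V := EqHom σ τ), Nat.card_zmod]

end Fermat.Agent.EqEu
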