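import Fermat.Agent.EqEu.KumA
import Fermat.Agent.EqEu.Good
import Fermat.Agent.GlobalCFT.KumSha

/-!
# Equivariant Kummer theory in degree one
-/

set_option autoImplicit false
set_option linter.unusedSectionVars false

namespace Fermat.Agent.EqEu

open Fermat.Agent.Coh Fermat.Agent.GCFT Fermat.Agent.GlobalCFT Fermat.Agent.PT Fermat.Agent.GalD
  Fermat.Agent.LocalCFT Module ExtCitation

/-- The field of algebraic numbers. -/
local notation "Qb" => AlgebraicClosure ℚ
/-- The absolute Galois group. -/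
local notation "GQ" => (AlgebraicClosure ℚ ≃ₐ[ℚ] AlgebraicClosure ℚ)

variable (S : Finset Nat.Primes) {U H : Subgroup (AlgebraicClosure ℚ ≃ₐ[ℚ] AlgebraicClosure ℚ)}

/-- `KS` as a module over the group ring -/
abbrev MK (H : Subgroup (AlgebraicClosure ℚ ≃ₐ[ℚ] AlgebraicClosure ℚ)) : Type :=
  GM (rep (repK S) H)

/-- the ideles as a module over the group ring -/
abbrev MI (H : Subgroup (AlgebraicClosure ℚ ≃ₐ[ℚ] AlgebraicClosure ℚ)) : Type :=
  GM (rep (repI S) H)

variable (hn : ∀ h ∈ H, ∀ u ∈ U, h * u * h⁻¹ ∈ U)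

/-- the multiplicative group of the fixed field of `U` -/
noncomputable def FK : Submodule (MonoidAlgebra ℤ H) (MK S H) :=
  mkSub ((FKU S U).comap (toV (rep (repK S) H))) fun h x hx => by
    rw [AddSubgroup.mem_comap, toV_smul]
    intro u hu
    have h1 := hx _ (hn' hn h u hu)
    change repK S u (repK S (h : GQ) _) = repK S (h : GQ) _
    rw [← Module.End.mul_apply, ← map_mul]
    have h2 : u * (h : GQ) = (h : GQ) * ((h : GQ)⁻¹ * u * h) := by group
    rw [h2, map_mul, Module.End.mul_apply, h1]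

/-- the divisors invariant under `U` -/
noncomputable def DI : Submodule (MonoidAlgebra ℤ H) (MI S H) :=
  mkSub ((DVU S U).comap (toV (rep (repI S) H))) fun h x hx => by
    rw [AddSubgroup.mem_comap, toV_smul]
    refine ⟨?_, fun u hu => ?_⟩
    · have h0 : ∀ (g : GQ) (a : IS S), (a : AA).1 = 0 → (repI S g a : AA).1 = 0 := by
        intro g a ha
        funext l x
        change (a : AA).1 l _ = 0
        rw [ha]
        rfl
      exact h0 _ _ hx.1
    have h1 := hx.2 _ (hn' hn h u hu)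
    change repI S u (repI S (h : GQ) _) = repI S (h : GQ) _
    rw [← Module.End.mul_apply, ← map_mul]
    have h2 : u * (h : GQ) = (h : GQ) * ((h : GQ)⁻¹ * u * h) := by group
    rw [h2, map_mul, Module.End.mul_apply, h1]

theorem mem_FK {x : MK S H} : x ∈ FK S hn ↔ toV _ x ∈ FKU S U := Iff.rfl

theorem mem_DI {x : MI S H} : x ∈ DI S hn ↔ toV _ x ∈ DVU S U := Iff.rfl

/-- the divisor map -/
noncomputable def dkm (H : Subgroup (AlgebraicClosure ℚ ≃ₐ[ℚ] AlgebraicClosure ℚ)) :
    MK S H →ₗ[MonoidAlgebra ℤ H] MI S H :=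
  mkHom (((ofG _).comp (dk S)).comp (toV _)) fun h x => by
    rw [AddMonoidHom.comp_apply, AddMonoidHom.comp_apply, toV_smul, AddMonoidHom.comp_apply,
      AddMonoidHom.comp_apply, smul_ofG]
    exact congrArg (ofG _) (dk_comm (h : GQ) _)

theorem toV_dkm (x : MK S H) : toV _ (dkm S H x) = dk S (toV _ x) := rfl

theorem dkm_mem {x : MK S H} (hx : x ∈ FK S hn) : dkm S H x ∈ DI S hn := dk_mem_DVU hx

include hn in
theorem smul_FK {x : MK S H} (hx : x ∈ FK S hn) : ∀ j ∈ JN (U.subgroupOf H), j • x = 0 := by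
  rintro _ ⟨n, hn', rfl⟩
  rw [sub_smul, one_smul, sub_eq_zero]
  apply toV_injective
  rw [toV_smul]
  exact hx _ (Subgroup.mem_subgroupOf.mp hn')

include hn in
theorem smul_DI {x : MI S H} (hx : x ∈ DI S hn) : ∀ j ∈ JN (U.subgroupOf H), j • x = 0 := by
  rintro _ ⟨n, hn', rfl⟩
  rw [sub_smul, one_smul, sub_eq_zero]
  apply toV_injective
  rw [toV_smul]
  exact hx.2 _ (Subgroup.mem_subgroupOf.mp hn')

/-- the `S`-units -/
noncomputable def EK : Submodule (MonoidAlgebra ℤ H) (MK S H) := FK S hn ⊓ LinearMap.ker (dkm S H)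

/-- the class group -/
abbrev ClK : Type := SQ (DI S hn) ((FK S hn).map (dkm S H))

variable {S}
variable {p : ℕ} [hp : Fact p.Prime] (hpS : pPrime p ∈ S)

variable {P : Type} [AddCommGroup P] [Module (MonoidAlgebra ℤ H) P]

/-- finiteness of `H¹` and of the locally trivial part of `H²` -/
theorem finite_H1_sha (hp2 : p ≠ 2) (hUo : (famS S).IsOpen U) (hUp : ∀ u ∈ U, cycloChar p u = 1)
    (hpS : pPrime p ∈ S) :
    Finite (H1 ((famS S).res U) (rep (muQ p) U)) ∧ Finite (sha2U p S U) := by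
  set E := AddSubgroup.toSubgroup (FKU S U) with hE
  set D := AddSubgroup.toSubgroup (DVU S U) with hD
  have hcl := finite_cl (S := S) hUo
  have hED : E.map (AddMonoidHom.toMultiplicative (dk S)) ≤ D := by
    rintro _ ⟨x, hx, rfl⟩
    exact dk_mem_DVU hx
  have htf : ∀ c ∈ D, c ^ p = 1 → c = 1 := by
    intro c hc h
    exact congrArg Multiplicative.ofAdd (DVU_torsionFree hp.out.ne_zero
      (a := Multiplicative.toAdd c) hc.1 (congrArg Multiplicative.toAdd h))
  have hki := kummer_index (AddMonoidHom.toMultiplicative (dk S)) (p := p) E D htf hED hcl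
  have hiu := index_units hpS hp2 hUo hUp
  have hcH := card_H1 hpS hUo hUp
  set q := (D.map (pw (Multiplicative (IS S)) p) ⊔
    E.map (AddMonoidHom.toMultiplicative (dk S))).relIndex D with hq
  have hq0 : q ≠ 0 := by
    intro h0
    exact hcl (Subgroup.relIndex_eq_zero_of_le_left le_sup_right h0)
  obtain ⟨hsf, hsc⟩ := card_sha hpS hp2 hUo hq0
  set e := ((E ⊓ (AddMonoidHom.toMultiplicative (dk S)).ker).map
      (pw (Multiplicative (KS S)) p)).relIndex
      (E ⊓ (AddMonoidHom.toMultiplicative (dk S)).ker) with he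
  have hcard : Nat.card (H1 ((famS S).res U) (rep (muQ p) U)) = e * q := hcH.trans hki
  have hp0 := hp.out.pos
  have he0 : e ≠ 0 := by
    intro h0
    rw [h0] at hiu
    have := pow_pos hp0 (U.index + 2 * ∑ l ∈ S, Nat.card (Pl (rl l) U))
    rw [← hiu] at this
    simp at this
  exact ⟨Nat.finite_of_card_ne_zero (by rw [hcard]; exact mul_ne_zero he0 hq0), hsf⟩

/-- `H¹` as a module -/
abbrev M1 (S : Finset Nat.Primes) (p : ℕ) [Fact p.Prime] : Type :=
  GM (h1Rep (famS S) (muQ p) hn)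

/-- `H²` as a module -/
abbrev M2 (S : Finset Nat.Primes) (p : ℕ) [Fact p.Prime] : Type :=
  GM (h2Rep (famS S) (muQ p) hn)

theorem KRel.conj {z : ↥(Z1 ((famS S).res U) (rep (muQ p) U))} {x : KS S}
    (hk : KRel hpS (z : U → ZMod p) x) (h : H) :
    KRel hpS (((cnj (famS S) (muQ p) (h : GQ) (hn' hn h)).mapZ1 z : U → ZMod p))
      (repK S (h : GQ) x) := by
  obtain ⟨y, h1, h2⟩ := hk
  refine ⟨repK S (h : GQ) y, by rw [← map_nsmul, h1], fun u => ?_⟩
  rw [cnj_mapZ1]
  have h3 := h2 ⟨(h : GQ)⁻¹ * u * h, hn' hn h u u.2⟩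
  have h4 : jG hpS (muQ p (h : GQ) ((z : U → ZMod p) ⟨(h : GQ)⁻¹ * u * h, hn' hn h u u.2⟩)) =
      repK S (h : GQ) (jG hpS ((z : U → ZMod p) ⟨(h : GQ)⁻¹ * u * h, hn' hn h u u.2⟩)) :=
    jG_comm hpS _ _
  rw [h4, h3, map_sub, ← Module.End.mul_apply, ← Module.End.mul_apply, ← map_mul, ← map_mul]
  congr 3
  simp only
  group

set_option maxHeartbeats 1000000 in
/-- **Kummer theory in degree one, equivariantly.** -/
theorem nh_kummer {N : Subgroup H} (hN : N = U.subgroupOf H)
    (hP : GoodP (R := MonoidAlgebra ℤ H) p (JN N) P) (hp2 : p ≠ 2)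
    (hU : (famS S).IsOpen U) (hUp : ∀ u ∈ U, cycloChar p u = 1) (hpS : pPrime p ∈ S) :
    nh (MonoidAlgebra ℤ H) P (SQ (FK S hn ⊓ ((DI S hn).map (mp p (MI S H))).comap (dkm S H))
      ((FK S hn).map (mp p (MK S H)))) ≤ nh (MonoidAlgebra ℤ H) P (M1 hn S p) := by
  subst hN
  set K := FK S hn ⊓ ((DI S hn).map (mp p (MI S H))).comap (dkm S H) with hK
  set pF := (FK S hn).map (mp p (MK S H)) with hpF
  have hfin : Finite (M1 hn S p) := (finite_H1_sha hp2 hU hUp hpS).1
  let Z₀ : AddSubgroup (SQ K pF × M1 hn S p) :=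
    { carrier := {q | ∃ (k : K) (z : ↥(Z1 ((famS S).res U) (rep (muQ p) U))),
        q.1 = Submodule.Quotient.mk k ∧
        toV _ q.2 = H1.mk ((famS S).res U) (rep (muQ p) U) z ∧
        KRel hpS (z : U → ZMod p) (toV _ (k : MK S H))}
      zero_mem' := ⟨0, 0, rfl, (map_zero _).symm, 0, smul_zero _, fun u => by
        change jG hpS (0 : ZMod p) = repK S u 0 - 0
        rw [map_zero, map_zero, sub_zero]⟩
      add_mem' := by
        rintro ⟨a, b⟩ ⟨a', b'⟩ ⟨k, z, h1, h2, h3⟩ ⟨k', z', h1', h2', h3'⟩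
        refine ⟨k + k', z + z', ?_, ?_, ?_⟩
        · change a + a' = _
          have e1 : a = Submodule.Quotient.mk k := h1
          have e2 : a' = Submodule.Quotient.mk k' := h1'
          rw [e1, e2]
          rfl
        · change toV _ (b + b') = _
          have e1 : toV _ b = _ := h2
          have e2 : toV _ b' = _ := h2'
          rw [map_add, e1, e2, map_add]
        · exact h3.add h3'
      neg_mem' := by
        rintro ⟨a, b⟩ ⟨k, z, h1, h2, h3⟩
        refine ⟨-k, -z, ?_, ?_, ?_⟩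
        · change -a = _
          have e1 : a = Submodule.Quotient.mk k := h1
          rw [e1]
          rfl
        · change toV _ (-b) = _
          have e1 : toV _ b = _ := h2
          rw [map_neg, e1, map_neg]
        · obtain ⟨y, h4, h5⟩ := h3
          refine ⟨-y, by rw [smul_neg, h4]; rfl, fun u => ?_⟩
          change jG hpS (-((z : U → ZMod p) u)) = _
          rw [map_neg, h5, map_neg]
          abel }
  have hZ₀ : ∀ (h : H) (q : SQ K pF × M1 hn S p), q ∈ Z₀ → MonoidAlgebra.of ℤ H h • q ∈ Z₀ := by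
    rintro h ⟨a, b⟩ ⟨k, z, h1, h2, h3⟩
    refine ⟨MonoidAlgebra.of ℤ H h • k, (cnj (famS S) (muQ p) (h : GQ) (hn' hn h)).mapZ1 z,
      ?_, ?_, ?_⟩
    · change MonoidAlgebra.of ℤ H h • a = _
      have e1 : a = Submodule.Quotient.mk k := h1
      rw [e1]
      rfl
    · change toV _ (MonoidAlgebra.of ℤ H h • b) = _
      have e1 : toV _ b = _ := h2
      rw [toV_smul, e1]
      rfl
    · have h4 := KRel.conj hn hpS h3 h
      rw [Submodule.coe_smul, toV_smul]
      exact h4
  refine nh_le_of_rel hP (mkSub Z₀ hZ₀) ?_ ?_ ?_ ?_ ?_ ?_ (finite_hom hP)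
  · intro x
    obtain ⟨k, rfl⟩ := Submodule.Quotient.mk_surjective _ x
    obtain ⟨h1, D, hD, hD2⟩ := k.2
    obtain ⟨z, hz⟩ := KRel.exists_right (hpS := hpS) h1 (D := toV _ D) (by
      have := congrArg (toV _) hD2
      rw [toV_dkm] at this
      exact this)
    exact ⟨ofG _ (H1.mk ((famS S).res U) (rep (muQ p) U) z), k, z, rfl, rfl, hz⟩
  · rintro x ⟨k, z, h1, h2, h3⟩
    have h1' : x = Submodule.Quotient.mk k := h1
    have h2' : H1.mk ((famS S).res U) (rep (muQ p) U) z = 0 := h2.symm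
    rw [H1.mk_eq_zero] at h2'
    obtain ⟨v, hv⟩ := h2'
    have hz : (z : U → ZMod p) = 0 := by
      funext g
      rw [hv g, Pi.zero_apply, sub_eq_zero]
      exact muQ_eq_self hUp g.2 v
    rw [hz] at h3
    obtain ⟨y, hy, hyk⟩ := h3.of_zero
    rw [h1', SQ.mk_eq_zero]
    exact ⟨ofG _ y, hy, hyk⟩
  · intro x
    obtain ⟨k, rfl⟩ := Submodule.Quotient.mk_surjective _ x
    rw [← Submodule.Quotient.mk_smul, SQ.mk_eq_zero]
    exact ⟨k, k.2.1, rfl⟩
  · intro j hj x
    obtain ⟨k, rfl⟩ := Submodule.Quotient.mk_surjective _ x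
    rw [← Submodule.Quotient.mk_smul, SQ.mk_eq_zero, Submodule.coe_smul,
      smul_FK S hn k.2.1 j hj]
    exact zero_mem _
  · exact tor_GM _
  · apply JN_smul
    intro n hn1 x
    apply toV_injective
    rw [toV_smul]
    obtain ⟨z, hz⟩ := H1.mk_surjective (toV _ x)
    rw [← hz, h1Rep_mk]
    congr 1
    apply Subtype.ext
    funext v
    rw [cnj_mapZ1]
    have hnU : (n : GQ) ∈ U := Subgroup.mem_subgroupOf.mp hn1
    have hmul : ∀ a b : U, (z : U → ZMod p) (a * b) = (z : U → ZMod p) b + (z : U → ZMod p) a := by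
      intro a b
      rw [z.2.2 a b]
      congr 1
      exact muQ_eq_self hUp a.2 _
    rw [muQ_eq_self hUp hnU]
    have e : (⟨(n : GQ)⁻¹ * v * n, hn' hn n v v.2⟩ : U) = (⟨n, hnU⟩ : U)⁻¹ * v * ⟨n, hnU⟩ :=
      Subtype.ext rfl
    rw [e, hmul, hmul]
    have h0 : (z : U → ZMod p) (1 : U) = 0 := by
      have := hmul 1 1
      rw [mul_one] at this
      exact left_eq_add.mp this
    have h3 : (z : U → ZMod p) (⟨n, hnU⟩ : U)⁻¹ + (z : U → ZMod p) (⟨n, hnU⟩ : U) = 0 := by
      rw [← hmul, mul_inv_cancel, h0]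
    linear_combination h3

end Fermat.Agent.EqEu
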