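import Fermat.Agent.EqEu.QFin

/-!
# Kummer theory, equivariant index formula: abstract part
-/

set_option autoImplicit false
set_option linter.unusedSectionVars false

namespace Fermat.Agent.EqEu

variable {R : Type} [Ring R] {p : ℕ} {J : Set R} {P : Type} [AddCommGroup P] [Module R P]
  {M N : Type} [AddCommGroup M] [Module R M] [AddCommGroup N] [Module R N]

/-- the equivariant index formula of Kummer theory -/
theorem kummer_nh (hP : GoodP p J P) (d : M →ₗ[R] N) (F : Submodule R M) (D : Submodule R N)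
    (hFD : ∀ x ∈ F, d x ∈ D) (htf : ∀ c ∈ D, p • c = 0 → c = 0)
    (hJF : ∀ j ∈ J, ∀ x ∈ F, j • x = 0) :
    nh R P (SQ (F ⊓ (D.map (mp p N)).comap d) (F.map (mp p M))) =
      nq R p P ↥(F ⊓ LinearMap.ker d) * nt R p P (SQ D (F.map d)) := by
  set K := F ⊓ (D.map (mp (R := R) p N)).comap d with hK
  set pF := F.map (mp (R := R) p M) with hpF
  set E := F ⊓ LinearMap.ker d with hE
  set dF := F.map d with hdF
  set T := D ⊓ dF.comap (mp (R := R) p N) with hT
  have hpFF : pF ≤ F := by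
    rintro _ ⟨x, hx, rfl⟩
    exact F.smul_of_tower_mem p hx
  have hEK : E ≤ K := by
    rintro x ⟨hx, hx2⟩
    refine ⟨hx, 0, D.zero_mem, ?_⟩
    rw [map_zero]
    exact (LinearMap.mem_ker.mp hx2).symm
  have hpFK : pF ≤ K := by
    rintro _ ⟨x, hx, rfl⟩
    exact ⟨hpFF ⟨x, hx, rfl⟩, d x, hFD x hx, (map_nsmul d p x).symm⟩
  have t1 : nh R P (SQ K pF) = nh R P (SQ (E ⊔ pF) pF) * nh R P (SQ K (E ⊔ pF)) :=
    nh_SQ_tower hP le_sup_right (sup_le hEK hpFK) (fun y hy => ⟨y, hy.1, rfl⟩)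
      (fun j hj y hy => by rw [hJF j hj y hy.1]; exact zero_mem _)
  have t2 : nq R p P E = nh R P (SQ (E ⊔ pF) pF) := by
    refine nh_SQ_congr E.subtype (fun y _ => Submodule.mem_sup_left y.2) (fun y hy => ?_)
      (fun y _ => ?_)
    · obtain ⟨a, ha, b, hb, rfl⟩ := Submodule.mem_sup.mp hy
      refine ⟨⟨a, ha⟩, trivial, ?_⟩
      rw [Submodule.subtype_apply, add_sub_cancel_left]
      exact hb
    · constructor
      · rintro ⟨x, hx, hxy⟩
        have h1 : p • x = (y : M) := hxy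
        refine ⟨⟨x, hx, ?_⟩, Subtype.ext h1⟩
        change d x = 0
        apply htf _ (hFD x hx)
        rw [← map_nsmul, h1]
        exact LinearMap.mem_ker.mp y.2.2
      · rintro ⟨x, rfl⟩
        exact ⟨x, x.2.1, rfl⟩
  have t3 : nh R P (SQ K (E ⊔ pF)) = nh R P (SQ (dF ⊓ D.map (mp (R := R) p N))
      (dF.map (mp (R := R) p N))) := by
    refine nh_SQ_congr d (fun y hy => ⟨⟨y, hy.1, rfl⟩, hy.2⟩) (fun y hy => ?_) (fun y hy => ?_)
    · obtain ⟨⟨x, hx, rfl⟩, h2⟩ := hy
      refine ⟨x, ⟨hx, h2⟩, ?_⟩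
      rw [sub_self]
      exact zero_mem _
    · constructor
      · rintro ⟨_, ⟨x, hx, rfl⟩, hxy⟩
        have h1 : p • d x = d y := hxy
        have h2 : y = (y - p • x) + p • x := by abel
        rw [h2]
        refine Submodule.add_mem_sup ⟨F.sub_mem hy.1 (F.smul_of_tower_mem p hx), ?_⟩ ⟨x, hx, rfl⟩
        change d (y - p • x) = 0
        rw [map_sub, map_nsmul, h1, sub_self]
      · intro h
        obtain ⟨a, ha, _, ⟨x, hx, rfl⟩, rfl⟩ := Submodule.mem_sup.mp h
        refine ⟨d x, ⟨x, hx, rfl⟩, ?_⟩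
        rw [map_add, LinearMap.mem_ker.mp ha.2, zero_add, mp_apply, mp_apply, map_nsmul]
  have t4 : nh R P (SQ T dF) = nh R P (SQ (dF ⊓ D.map (mp (R := R) p N))
      (dF.map (mp (R := R) p N))) := by
    refine nh_SQ_congr (mp p N) (fun y hy => ⟨hy.2, y, hy.1, rfl⟩) (fun y hy => ?_)
      (fun y hy => ?_)
    · obtain ⟨h1, x, hx, rfl⟩ := hy
      refine ⟨x, ⟨hx, h1⟩, ?_⟩
      rw [sub_self]
      exact zero_mem _
    · constructor
      · rintro ⟨c, hc, hcy⟩
        have h1 : p • c = p • y := hcy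
        have hcD : c ∈ D := by
          obtain ⟨x, hx, rfl⟩ := hc
          exact hFD x hx
        have h2 : c - y = 0 := htf _ (D.sub_mem hcD hy.1) (by rw [nsmul_sub, h1, sub_self])
        rw [← sub_eq_zero.mp h2]
        exact hc
      · intro h
        exact ⟨y, h, rfl⟩
  have t5 : nt R p P (SQ D dF) = nh R P (SQ (T.submoduleOf D) (dF.submoduleOf D)) := by
    symm
    refine nh_SQ_congr (Submodule.mkQ (dF.submoduleOf D)) (fun y hy => ?_) (fun y hy => ?_)
      (fun y _ => ?_)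
    · rw [LinearMap.mem_ker, mp_apply, Submodule.mkQ_apply, ← Submodule.Quotient.mk_smul,
        SQ.mk_eq_zero]
      exact hy.2
    · obtain ⟨x, rfl⟩ := Submodule.Quotient.mk_surjective _ y
      refine ⟨x, ⟨x.2, ?_⟩, ?_⟩
      · rw [LinearMap.mem_ker, mp_apply, ← Submodule.Quotient.mk_smul, SQ.mk_eq_zero] at hy
        exact hy
      · rw [Submodule.mkQ_apply, sub_self]
        exact zero_mem _
    · rw [Submodule.mem_bot, Submodule.mkQ_apply, SQ.mk_eq_zero]
      exact Iff.rfl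
  have t6 : nh R P (SQ (T.submoduleOf D) (dF.submoduleOf D)) = nh R P (SQ T dF) := by
    refine nh_SQ_congr D.subtype (fun y hy => hy) (fun y hy => ⟨⟨y, hy.1⟩, hy, ?_⟩)
      (fun y _ => Iff.rfl)
    rw [Submodule.subtype_apply, sub_self]
    exact zero_mem _
  rw [t1, t3, ← t4, ← t6, ← t5, t2]

/-- `nq` of a subquotient -/
theorem nq_SQ (A D : Submodule R N) (hAD : A ≤ D) :
    nq R p P (SQ D A) = nh R P (SQ D (A ⊔ D.map (mp p N))) := by
  have t1 : nq R p P (SQ D A) =
      nh R P (SQ (⊤ : Submodule R D) (A.submoduleOf D ⊔ LinearMap.range (mp (R := R) p D))) := by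
    symm
    refine nh_SQ_congr (Submodule.mkQ (A.submoduleOf D)) (fun y _ => trivial) (fun y _ => ?_)
      (fun y _ => ?_)
    · obtain ⟨x, rfl⟩ := Submodule.Quotient.mk_surjective _ y
      refine ⟨x, trivial, ?_⟩
      rw [Submodule.mkQ_apply, sub_self]
      exact zero_mem _
    · constructor
      · rintro ⟨z, hz⟩
        obtain ⟨x, rfl⟩ := Submodule.Quotient.mk_surjective _ z
        rw [mp_apply, ← Submodule.Quotient.mk_smul, Submodule.mkQ_apply, Submodule.Quotient.eq] at hz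
        have h3 : y = -(p • x - y) + p • x := by abel
        rw [h3]
        exact Submodule.add_mem_sup ((A.submoduleOf D).neg_mem hz) ⟨x, rfl⟩
      · intro hy
        obtain ⟨a, ha, _, ⟨x, rfl⟩, rfl⟩ := Submodule.mem_sup.mp hy
        refine ⟨Submodule.Quotient.mk x, ?_⟩
        rw [mp_apply, ← Submodule.Quotient.mk_smul, Submodule.mkQ_apply, Submodule.Quotient.eq,
          mp_apply]
        have h3 : p • x - (a + p • x) = -a := by abel
        rw [h3]
        exact (A.submoduleOf D).neg_mem ha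
  rw [t1]
  refine nh_SQ_congr D.subtype (fun y _ => y.2) (fun y hy => ⟨⟨y, hy⟩, trivial, ?_⟩) (fun y _ => ?_)
  · rw [Submodule.subtype_apply, sub_self]
    exact zero_mem _
  · constructor
    · intro h
      obtain ⟨a, ha, _, ⟨x, hx, rfl⟩, hax⟩ := Submodule.mem_sup.mp h
      have h1 : y = ⟨a, hAD ha⟩ + p • (⟨x, hx⟩ : D) := Subtype.ext hax.symm
      rw [h1]
      exact Submodule.add_mem_sup ha ⟨⟨x, hx⟩, rfl⟩
    · intro h
      obtain ⟨a, ha, _, ⟨x, rfl⟩, rfl⟩ := Submodule.mem_sup.mp h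
      exact Submodule.add_mem_sup ha ⟨x, x.2, rfl⟩

end Fermat.Agent.EqEu
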