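import Fermat.Agent.PT.LD6
import Fermat.Agent.PT.SemiL
import Fermat.Agent.PT.InvCor
import Fermat.Agent.GCFT.Rec2
import Fermat.Agent.PT.EqX

/-!
# Localisation of `H²(U, μ_p)`: the invariants as functions on double cosets
-/

set_option autoImplicit false
set_option linter.unusedSectionVars false
set_option linter.style.haveILetI false

namespace Fermat.Agent.EqEu

open Fermat.Agent.Coh Fermat.Agent.GCFT Fermat.Agent.GlobalCFT Fermat.Agent.PT Fermat.Agent.GalD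
  Fermat.Agent.LocalCFT Module ExtCitation

/-- The field of algebraic numbers. -/
local notation "Qb" => AlgebraicClosure ℚ
/-- The absolute Galois group. -/
local notation "GQ" => (AlgebraicClosure ℚ ≃ₐ[ℚ] AlgebraicClosure ℚ)

attribute [local instance] Frame.fq

variable {p : ℕ} [hp : Fact p.Prime] {S : Finset Nat.Primes}
  {U : Subgroup (AlgebraicClosure ℚ ≃ₐ[ℚ] AlgebraicClosure ℚ)}

theorem stabL_open (hU : (famS S).IsOpen U) (l : Nat.Primes) (x : GQ) :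
    (LF (l : ℕ)).IsOpen (stabL l x U) := by
  obtain ⟨W, hW, hWU⟩ := hU
  refine (rl_cont (l := l) (isOpen_of_famS (Fam.isOpen_of_mem hW))).mono fun δ hδ => ?_
  rw [mem_stabL]
  apply hWU
  have := (famS S).normal W hW |>.conj_mem _ hδ x⁻¹
  simpa using this

/-- the map on cosets -/
noncomputable def ox (U : Subgroup GQ) (l : Nat.Primes) (x : GQ) : Gl l ⧸ stabL l x U → GQ ⧸ U :=
  Quotient.map' (fun δ => rl l δ * x) (by
    intro a b h
    rw [QuotientGroup.leftRel_apply] at h ⊢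
    rw [mem_stabL] at h
    have h1 : (rl l a * x)⁻¹ * (rl l b * x) = x⁻¹ * rl l (a⁻¹ * b) * x := by
      rw [map_mul, map_inv]
      group
    rw [h1]
    exact h)

theorem ox_mk (l : Nat.Primes) (x : GQ) (δ : Gl l) :
    ox U l x (δ : Gl l ⧸ stabL l x U) = ((rl l δ * x : GQ) : GQ ⧸ U) := rfl

theorem ox_smul (l : Nat.Primes) (x : GQ) (δ : Gl l) (d : Gl l ⧸ stabL l x U) :
    ox U l x (δ • d) = rl l δ • ox U l x d := by
  obtain ⟨ε, rfl⟩ := QuotientGroup.mk_surjective d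
  rw [MulAction.Quotient.smul_coe, smul_eq_mul, ox_mk, ox_mk, MulAction.Quotient.smul_coe,
    smul_eq_mul, map_mul, mul_assoc]

theorem ox_injective (l : Nat.Primes) (x : GQ) : Function.Injective (ox U l x) := by
  intro a b h
  obtain ⟨a, rfl⟩ := QuotientGroup.mk_surjective a
  obtain ⟨b, rfl⟩ := QuotientGroup.mk_surjective b
  rw [ox_mk, ox_mk, QuotientGroup.eq] at h
  rw [QuotientGroup.eq, mem_stabL]
  have h1 : (rl l a * x)⁻¹ * (rl l b * x) = x⁻¹ * rl l (a⁻¹ * b) * x := by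
    rw [map_mul, map_inv]
    group
  rw [← h1]
  exact h

theorem cl_out_mk (l : Nat.Primes) (y : GQ) :
    cl (rl l) U ((y : GQ ⧸ U).out) = cl (rl l) U y := by
  symm
  rw [cl_eq_iff]
  obtain ⟨u, hu⟩ := QuotientGroup.mk_out_eq_mul U y
  exact ⟨1, u, u.2, by rw [map_one, one_mul]; exact hu⟩

theorem cl_ox (l : Nat.Primes) (x : GQ) (d : Gl l ⧸ stabL l x U) :
    cl (rl l) U (ox U l x d).out = cl (rl l) U x := by
  obtain ⟨ε, rfl⟩ := QuotientGroup.mk_surjective d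
  rw [ox_mk, cl_out_mk]
  symm
  rw [cl_eq_iff]
  exact ⟨ε, 1, U.one_mem, by rw [mul_one]⟩

theorem exists_ox (l : Nat.Primes) (x : GQ) {c : GQ ⧸ U}
    (hc : cl (rl l) U c.out = cl (rl l) U x) : ∃ d, ox U l x d = c := by
  obtain ⟨ε, u, hu, h⟩ := (cl_eq_iff (rl l) U).mp hc.symm
  refine ⟨ε, ?_⟩
  rw [ox_mk, ← QuotientGroup.out_eq' c, QuotientGroup.eq, h]
  have h1 : (rl l ε * x)⁻¹ * (rl l ε * x * u) = u := by group
  rw [h1]
  exact hu

theorem cont_rl (l : Nat.Primes) : ∀ W ∈ famS S, ∃ U' ∈ LF (l : ℕ), U' ≤ W.comap (rl l) :=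
  fun _ hW => rl_cont (isOpen_of_famS (Fam.isOpen_of_mem hW))

theorem Zx_mem {F : GQ × GQ → (GQ ⧸ U → ZMod p)} (hF : F ∈ Z2 (famS S) (indRep U (muQ p)))
    (l : Nat.Primes) (x : GQ) :
    (fun q : Gl l × Gl l => fun d : Gl l ⧸ stabL l x U => F (rl l q.1, rl l q.2) (ox U l x d)) ∈
      Z2 (LF (l : ℕ)) (indRep (stabL l x U) (muL p l)) := by
  refine ⟨(hF.1.comp (rl l) (cont_rl l)).post (fun φ => fun d => φ (ox U l x d)),
    fun g h j => ?_⟩
  funext d
  have h1 := congrFun (hF.2 (rl l g) (rl l h) (rl l j)) (ox U l x d)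
  rw [Pi.add_apply, Pi.add_apply, indRep_apply] at h1 ⊢
  have h2 : ox U l x (g⁻¹ • d) = (rl l g)⁻¹ • ox U l x d := by rw [ox_smul, map_inv]
  rw [← map_mul, ← map_mul, ← h2] at h1
  exact h1

/-- the restricted cocycle -/
noncomputable def Zx (F : ↥(Z2 (famS S) (indRep U (muQ p)))) (l : Nat.Primes) (x : GQ) :
    ↥(Z2 (LF (l : ℕ)) (indRep (stabL l x U) (muL p l))) := ⟨_, Zx_mem F.2 l x⟩

theorem Zx_apply (F : ↥(Z2 (famS S) (indRep U (muQ p)))) (l : Nat.Primes) (x : GQ)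
    (q : Gl l × Gl l) (d : Gl l ⧸ stabL l x U) :
    (Zx F l x : Gl l × Gl l → (Gl l ⧸ stabL l x U → ZMod p)) q d =
      (F : GQ × GQ → (GQ ⧸ U → ZMod p)) (rl l q.1, rl l q.2) (ox U l x d) := rfl

theorem loc_sh (F : ↥(Z2 (famS S) (indRep U (muQ p)))) (l : Nat.Primes) (x : GQ) :
    (locMor l x).mapH2 (H2.mk ((famS S).res U) (rep (muQ p) U) ((sh (famS S) U (muQ p)).mapZ2 F)) =
      H2.mk ((LF (l : ℕ)).res (stabL l x U)) (rep (muL p l) (stabL l x U)) (shZ (Zx F l x)) := by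
  rw [Mor.mapH2_mk, H2.mk_eq_mk]
  obtain ⟨φ, hφ, h⟩ := conj_cocycle F.2 x
  refine ⟨fun δ => φ (rl l (δ : Gl l)) (x : GQ ⧸ U), ?_, fun g h' => ?_⟩
  · have h1 : (LF (l : ℕ)).Sm1 (fun δ : Gl l => φ (rl l δ)) := hφ.comp (rl l) (cont_rl l)
    have h2 : ((LF (l : ℕ)).res (stabL l x U)).Sm1 (fun δ : stabL l x U => φ (rl l (δ : Gl l))) :=
      h1.comp (stabL l x U).subtype fun W hW => ⟨_, ⟨W, hW, rfl⟩, le_rfl⟩
    exact h2.post (fun ψ => ψ (x : GQ ⧸ U))
  · have h1 := congrFun (h (rl l (g : Gl l)) (rl l (h' : Gl l))) (x : GQ ⧸ U)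
    have hx : x⁻¹ • (x : GQ ⧸ U) = ((1 : GQ) : GQ ⧸ U) := by
      rw [MulAction.Quotient.smul_coe, smul_eq_mul, inv_mul_cancel]
    have hg : (rl l (g : Gl l))⁻¹ • (x : GQ ⧸ U) = (x : GQ ⧸ U) := by
      rw [inv_smul_eq_iff, MulAction.Quotient.smul_coe, smul_eq_mul, QuotientGroup.eq]
      have := mem_stabL.mp g.2
      rwa [← mul_assoc]
    rw [indRep_apply, hx] at h1
    refine Eq.trans ?_ (h1.trans ?_)
    · rfl
    · rw [Pi.add_apply, Pi.add_apply, Pi.sub_apply, indRep_apply, hg]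
      congr 1
      · change _ = (F : GQ × GQ → (GQ ⧸ U → ZMod p)) (rl l (g : Gl l), rl l (h' : Gl l))
          (ox U l x ((1 : Gl l) : Gl l ⧸ stabL l x U))
        rw [ox_mk, map_one, one_mul]
      · congr 2
        rw [← map_mul]
        rfl

variable [U.FiniteIndex]

open Classical in
/-- the partial trace -/
noncomputable def Tq (F : GQ × GQ → (GQ ⧸ U → ZMod p)) (l : Nat.Primes) (c₀ : Pl (rl l) U) :
    Gl l × Gl l → ZMod p :=
  fun q => ∑ c : GQ ⧸ U, if cl (rl l) U c.out = c₀ then F (rl l q.1, rl l q.2) c else 0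

theorem Tq_eq (hU : (famS S).IsOpen U) (F : ↥(Z2 (famS S) (indRep U (muQ p)))) (l : Nat.Primes)
    (x : GQ) [(stabL l x U).FiniteIndex] :
    Tq (F : GQ × GQ → (GQ ⧸ U → ZMod p)) l (cl (rl l) U x) =
      fun q => sumLin (k := ZMod p) (stabL l x U)
        ((Zx F l x : Gl l × Gl l → (Gl l ⧸ stabL l x U → ZMod p)) q) := by
  classical
  funext q
  rw [Tq, sumLin_apply, ← Finset.sum_filter]
  symm
  refine Finset.sum_bij (fun d _ => ox U l x d) (fun d _ => ?_) (fun a _ b _ h => ox_injective l x h)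
    (fun c hc => ?_) (fun d _ => Zx_apply F l x q d)
  · rw [Finset.mem_filter]
    exact ⟨Finset.mem_univ _, cl_ox l x d⟩
  · rw [Finset.mem_filter] at hc
    obtain ⟨d, hd⟩ := exists_ox l x hc.2
    exact ⟨d, Finset.mem_univ _, hd⟩

theorem Tq_mem (hU : (famS S).IsOpen U) (F : ↥(Z2 (famS S) (indRep U (muQ p)))) (l : Nat.Primes)
    (c₀ : Pl (rl l) U) :
    Tq (F : GQ × GQ → (GQ ⧸ U → ZMod p)) l c₀ ∈ Z2 (LF (l : ℕ)) (muL p l) := by
  obtain ⟨x, rfl⟩ : ∃ x, cl (rl l) U x = c₀ := ⟨c₀.out, Quotient.out_eq c₀⟩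
  haveI := (stabL_open hU l x).finiteIndex
  rw [Tq_eq hU]
  exact Frame.post_mem_Z2 (sumLin (k := ZMod p) (stabL l x U)) (sumLin_comm _ (muL p l))
    (Zx F l x).2

/-- **The key formula for the local invariants.** -/
theorem key_inv (hp2 : p ≠ 2) (hU : (famS S).IsOpen U) (F : ↥(Z2 (famS S) (indRep U (muQ p))))
    (l : Nat.Primes) (x : GQ) :
    invU hp2 (stabL_open hU l x) ((locMor l x).mapH2
      (H2.mk ((famS S).res U) (rep (muQ p) U) ((sh (famS S) U (muQ p)).mapZ2 F))) =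
    invL hp2 l (H2.mk (LF (l : ℕ)) (muL p l) ⟨_, Tq_mem hU F l (cl (rl l) U x)⟩) := by
  haveI := (stabL_open hU l x).finiteIndex
  rw [loc_sh]
  have h1 := Frame.post_mem_Z2 (sumLin (k := ZMod p) (stabL l x U)) (sumLin_comm _ (muL p l))
    (Zx F l x).2
  have h2 := invL_tr hp2 (stabL_open hU l x) (Zx F l x) h1
  rw [← h2]
  congr 2
  exact Subtype.ext (Tq_eq hU F l x).symm

end Fermat.Agent.EqEu
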