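import Fermat.Agent.EqEu.Good

/-!
# Functions on double cosets, as modules over the group ring
-/

set_option autoImplicit false
set_option linter.unusedSectionVars false

namespace Fermat.Agent.EqEu

open Fermat.Agent.PT Module

section prod

variable {R : Type} [Ring R] {P : Type} [AddCommGroup P] [Module R P]

theorem nh_pi {ι : Type} [Fintype ι] (M : ι → Type) [∀ i, AddCommGroup (M i)]
    [∀ i, Module R (M i)] : nh R P ((i : ι) → M i) = ∏ i, nh R P (M i) := by
  rw [show ∏ i, nh R P (M i) = ∏ i, Nat.card (P →ₗ[R] M i) from rfl, ← Nat.card_pi]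
  exact Nat.card_congr
    { toFun := fun f i => LinearMap.proj i ∘ₗ f
      invFun := fun f => LinearMap.pi f
      left_inv := fun f => rfl
      right_inv := fun f => rfl }

theorem nh_SQ_eq {M N : Type} [AddCommGroup M] [Module R M] [AddCommGroup N] [Module R N]
    {Y X : Submodule R M} (f : M →ₗ[R] N) (hf : ∀ n, ∃ y ∈ Y, f y = n)
    (hk : ∀ y ∈ Y, f y = 0 ↔ y ∈ X) : nh R P (SQ Y X) = nh R P N := by
  let g : SQ Y X →ₗ[R] N := Submodule.liftQ _ (f ∘ₗ Y.subtype) (by
    intro y hy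
    exact (hk y y.2).mpr hy)
  have hg : ∀ y : Y, g (Submodule.Quotient.mk y) = f y := fun y => rfl
  refine nh_congr (LinearEquiv.ofBijective g ⟨?_, ?_⟩)
  · rw [← LinearMap.ker_eq_bot, LinearMap.ker_eq_bot']
    intro z hz
    obtain ⟨y, rfl⟩ := Submodule.Quotient.mk_surjective _ z
    rw [hg] at hz
    exact SQ.mk_eq_zero.mpr ((hk y y.2).mp hz)
  · intro n
    obtain ⟨y, hy, h⟩ := hf n
    exact ⟨Submodule.Quotient.mk ⟨y, hy⟩, h⟩

end prod

section pl

variable {Γ : Type} [Group Γ] {U H : Subgroup Γ} (hn : ∀ h ∈ H, ∀ u ∈ U, h * u * h⁻¹ ∈ U)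

/-- functions on double cosets -/
abbrev XM (k : Type) [CommRing k] (D : Subgroup Γ) : Type := GM (plRep k D hn)

/-- families of functions on double cosets -/
def XA (k : Type) [CommRing k] {ι : Type} (D : ι → Subgroup Γ) : Type :=
  (i : ι) → XM hn k (D i)

instance {k : Type} [CommRing k] {ι : Type} (D : ι → Subgroup Γ) : AddCommGroup (XA hn k D) :=
  inferInstanceAs (AddCommGroup ((i : ι) → XM hn k (D i)))

noncomputable instance {k : Type} [CommRing k] {ι : Type} (D : ι → Subgroup Γ) :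
    Module (MonoidAlgebra ℤ H) (XA hn k D) :=
  inferInstanceAs (Module (MonoidAlgebra ℤ H) ((i : ι) → XM hn k (D i)))

/-- components -/
noncomputable def prX {k : Type} [CommRing k] {ι : Type} (D : ι → Subgroup Γ) (i : ι) :
    XA hn k D →ₗ[MonoidAlgebra ℤ H] XM hn k (D i) :=
  (LinearMap.proj i : ((i : ι) → XM hn k (D i)) →ₗ[MonoidAlgebra ℤ H] XM hn k (D i))

/-- the element with given components -/
def mkA {k : Type} [CommRing k] {ι : Type} {D : ι → Subgroup Γ} (x : (i : ι) → XM hn k (D i)) :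
    XA hn k D := x

@[simp] theorem prX_mkA {k : Type} [CommRing k] {ι : Type} {D : ι → Subgroup Γ}
    (x : (i : ι) → XM hn k (D i)) (i : ι) : prX hn D i (mkA hn x) = x i := rfl

theorem XA_ext {k : Type} [CommRing k] {ι : Type} {D : ι → Subgroup Γ} {x y : XA hn k D}
    (h : ∀ i, prX hn D i x = prX hn D i y) : x = y := funext h

theorem nh_XA {k : Type} [CommRing k] {ι : Type} [Fintype ι] (D : ι → Subgroup Γ) {P : Type}
    [AddCommGroup P] [Module (MonoidAlgebra ℤ H) P] :
    nh (MonoidAlgebra ℤ H) P (XA hn k D) = ∏ i, nh (MonoidAlgebra ℤ H) P (XM hn k (D i)) :=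
  nh_pi _

/-- the underlying function -/
def fn {k : Type} [CommRing k] {D : Subgroup Γ} (x : XM hn k D) (g : Γ) : k :=
  (toV (plRep k D hn) x : Γ → k) g

variable {k : Type} [CommRing k] {D : Subgroup Γ}

theorem fn_add (x y : XM hn k D) (g : Γ) : fn hn (x + y) g = fn hn x g + fn hn y g := rfl

theorem fn_zero (g : Γ) : fn hn (0 : XM hn k D) g = 0 := rfl

theorem fn_sub (x y : XM hn k D) (g : Γ) : fn hn (x - y) g = fn hn x g - fn hn y g := rfl

theorem fn_zsmul (n : ℤ) (x : XM hn k D) (g : Γ) : fn hn (n • x) g = n • fn hn x g := rfl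

theorem fn_nsmul (n : ℕ) (x : XM hn k D) (g : Γ) : fn hn (n • x) g = n • fn hn x g := rfl

theorem fn_of_smul (h : H) (x : XM hn k D) (g : Γ) :
    fn hn (MonoidAlgebra.of ℤ H h • x) g = fn hn x (g * h) := by
  rw [fn, toV_smul]
  rfl

theorem fn_ext {x y : XM hn k D} (h : ∀ g, fn hn x g = fn hn y g) : x = y :=
  toV_injective _ (Subtype.ext (funext h))

theorem fn_left (x : XM hn k D) {d : Γ} (hd : d ∈ D) (g : Γ) : fn hn x (d * g) = fn hn x g := by
  have := (toV _ x).2 d hd g 1 U.one_mem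
  rw [mul_one] at this
  exact this

theorem fn_right (x : XM hn k D) {u : Γ} (hu : u ∈ U) (g : Γ) : fn hn x (g * u) = fn hn x g := by
  have := (toV _ x).2 1 D.one_mem g u hu
  rw [one_mul] at this
  exact this

/-- construct an element -/
def mkX (φ : Γ → k) (h1 : ∀ d ∈ D, ∀ g, φ (d * g) = φ g) (h2 : ∀ g, ∀ u ∈ U, φ (g * u) = φ g) :
    XM hn k D :=
  ofG _ ⟨φ, fun d hd g u hu => by rw [h2 _ u hu, h1 d hd]⟩

@[simp] theorem fn_mkX (φ : Γ → k) (h1 : ∀ d ∈ D, ∀ g, φ (d * g) = φ g)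
    (h2 : ∀ g, ∀ u ∈ U, φ (g * u) = φ g) (g : Γ) : fn hn (mkX hn φ h1 h2) g = φ g := rfl

theorem XM_inv (x : XM hn k D) {n : H} (hnU : n ∈ U.subgroupOf H) :
    MonoidAlgebra.of ℤ H n • x = x := by
  apply fn_ext
  intro g
  rw [fn_of_smul, fn_right hn x (Subgroup.mem_subgroupOf.mp hnU)]

theorem XM_J (x : XM hn k D) : ∀ j ∈ JN (U.subgroupOf H), j • x = 0 := by
  intro j hj
  exact JN_smul (fun n hn1 y => XM_inv hn y hn1) j hj x

theorem XA_J {ι : Type} {D : ι → Subgroup Γ} : ∀ j ∈ JN (U.subgroupOf H), ∀ x : XA hn k D,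
    j • x = 0 := by
  intro j hj x
  apply XA_ext
  intro i
  rw [map_smul, map_zero]
  exact XM_J hn _ j hj

/-- reduction modulo `p` -/
noncomputable def redX (p : ℕ) (D : Subgroup Γ) :
    XM hn ℤ D →ₗ[MonoidAlgebra ℤ H] XM hn (ZMod p) D :=
  mkHom
    { toFun := fun x => mkX hn (fun g => ((fn hn x g : ℤ) : ZMod p))
        (fun d hd g => by simp only [fn_left hn x hd])
        (fun g u hu => by simp only [fn_right hn x hu])
      map_zero' := fn_ext hn fun g => by
        rw [fn_mkX, fn_zero, fn_zero, Int.cast_zero]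
      map_add' := fun x y => fn_ext hn fun g => by
        rw [fn_mkX, fn_add, fn_add, fn_mkX, fn_mkX, Int.cast_add] } fun h x =>
    fn_ext hn fun g => by
      rw [fn_of_smul]
      change ((fn hn (MonoidAlgebra.of ℤ H h • x) g : ℤ) : ZMod p) = ((fn hn x (g * h) : ℤ) : ZMod p)
      rw [fn_of_smul]

theorem fn_redX (p : ℕ) (x : XM hn ℤ D) (g : Γ) : fn hn (redX hn p D x) g = ((fn hn x g : ℤ) : ZMod p) :=
  rfl

variable {p : ℕ} {P : Type} [AddCommGroup P] [Module (MonoidAlgebra ℤ H) P]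

/-- reduction modulo `p` -/
noncomputable def redA (p : ℕ) {ι : Type} (D : ι → Subgroup Γ) :
    XA hn ℤ D →ₗ[MonoidAlgebra ℤ H] XA hn (ZMod p) D :=
  (LinearMap.pi fun i => redX hn p (D i) ∘ₗ prX hn D i :
    XA hn ℤ D →ₗ[MonoidAlgebra ℤ H] ((i : ι) → XM hn (ZMod p) (D i)))

theorem prX_redA (p : ℕ) {ι : Type} (D : ι → Subgroup Γ) (x : XA hn ℤ D) (i : ι) :
    prX hn D i (redA hn p D x) = redX hn p (D i) (prX hn D i x) := rfl

theorem nq_XA (hp : p ≠ 0) {ι : Type} (D : ι → Subgroup Γ) :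
    nq (MonoidAlgebra ℤ H) p P (XA hn ℤ D) = nh (MonoidAlgebra ℤ H) P (XA hn (ZMod p) D) := by
  have : NeZero p := ⟨hp⟩
  refine nh_SQ_eq (redA hn p D) (fun y => ?_) (fun x _ => ?_)
  · refine ⟨mkA hn fun i => mkX hn (fun g => ((fn hn (prX hn D i y) g).val : ℤ))
      (fun d hd g => by simp only [fn_left hn (prX hn D i y) hd])
      (fun g u hu => by simp only [fn_right hn (prX hn D i y) hu]), trivial, ?_⟩
    refine XA_ext hn fun i => fn_ext hn fun g => ?_
    rw [prX_redA, fn_redX, prX_mkA, fn_mkX, Int.cast_natCast, ZMod.natCast_zmod_val]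
  · constructor
    · intro h
      have h1 : ∀ i g, ∃ c : ℤ, fn hn (prX hn D i x) g = p * c := by
        intro i g
        have h2 := congrArg (fun y : XA hn (ZMod p) D => fn hn (prX hn D i y) g) h
        simp only [prX_redA, fn_redX, map_zero, fn_zero] at h2
        exact (ZMod.intCast_zmod_eq_zero_iff_dvd _ p).mp h2
      have hp' : (p : ℤ) ≠ 0 := by exact_mod_cast hp
      refine ⟨mkA hn fun i => mkX hn (fun g => fn hn (prX hn D i x) g / p)
        (fun d hd g => by simp only [fn_left hn (prX hn D i x) hd])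
        (fun g u hu => by simp only [fn_right hn (prX hn D i x) hu]), ?_⟩
      refine XA_ext hn fun i => fn_ext hn fun g => ?_
      rw [mp_apply, map_nsmul, prX_mkA, fn_nsmul, fn_mkX]
      obtain ⟨c, hc⟩ := h1 i g
      rw [hc, Int.mul_ediv_cancel_left _ hp', nsmul_eq_mul]
    · rintro ⟨y, rfl⟩
      refine XA_ext hn fun i => fn_ext hn fun g => ?_
      rw [prX_redA, fn_redX, mp_apply, map_nsmul, fn_nsmul, nsmul_eq_mul, Int.cast_mul,
        Int.cast_natCast, ZMod.natCast_self, zero_mul, map_zero, fn_zero]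

theorem nt_XA (hp : p ≠ 0) {ι : Type} (D : ι → Subgroup Γ) :
    nt (MonoidAlgebra ℤ H) p P (XA hn ℤ D) = 1 := by
  refine nt_eq_one fun x hx => XA_ext hn fun i => fn_ext hn fun g => ?_
  have h2 := congrArg (fun y : XA hn ℤ D => fn hn (prX hn D i y) g) hx
  simp only [map_nsmul, fn_nsmul, map_zero, fn_zero, nsmul_eq_mul] at h2
  have hp' : (p : ℤ) ≠ 0 := by exact_mod_cast hp
  rw [map_zero, fn_zero]
  exact (mul_eq_zero.mp h2).resolve_left hp'

theorem fn_out (x : XM hn k D) (g : Γ) : fn hn x (g : Γ ⧸ U).out = fn hn x g := by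
  obtain ⟨u, hu⟩ := QuotientGroup.mk_out_eq_mul U g
  rw [hu, fn_right hn x u.2]

theorem finite_XA {ι : Type} [Finite ι] (D : ι → Subgroup Γ) [Finite (Γ ⧸ U)] :
    Module.Finite ℤ (XA hn ℤ D) := by
  let F : XA hn ℤ D →ₗ[ℤ] (ι × (Γ ⧸ U) → ℤ) :=
    { toFun := fun x c => fn hn (prX hn D c.1 x) c.2.out
      map_add' := fun x y => by
        funext c
        rw [map_add, fn_add]
        rfl
      map_smul' := fun n x => by
        funext c
        rw [map_zsmul, fn_zsmul]
        rfl }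
  refine Module.Finite.of_injective F fun x y hxy => XA_ext hn fun i => fn_ext hn fun g => ?_
  have h2 := congrFun hxy (i, (g : Γ ⧸ U))
  change fn hn (prX hn D i x) (g : Γ ⧸ U).out = fn hn (prX hn D i y) (g : Γ ⧸ U).out at h2
  rw [fn_out, fn_out] at h2
  exact h2

theorem finite_XM {k : Type} [CommRing k] [Finite k] (D : Subgroup Γ) [Finite (Γ ⧸ U)] :
    Finite (XM hn k D) := by
  refine Finite.of_injective (fun (x : XM hn k D) (c : Γ ⧸ U) => fn hn x c.out) fun x y hxy =>
    fn_ext hn fun g => ?_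
  have h2 := congrFun hxy (g : Γ ⧸ U)
  simp only [fn_out] at h2
  exact h2

end pl

end Fermat.Agent.EqEu
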