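import Fermat.Agent.EqEu.Loc
import Fermat.Agent.EqEu.PlM
import Fermat.Agent.EqEu.Kum

/-!
# The local invariants as a map of modules over the group ring
-/

set_option autoImplicit false
set_option linter.unusedSectionVars false
set_option linter.style.haveILetI false

namespace Fermat.Agent.EqEu

open Fermat.Agent.Coh Fermat.Agent.GCFT Fermat.Agent.GlobalCFT Fermat.Agent.PT Fermat.Agent.GalD
  Fermat.Agent.LocalCFT Module ExtCitation

/-- The field of algebraic numbers. -/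
local notation "Qb" => AlgebraicClosure ℚ
/-- The absolute Galois group. -/
local notation "GQ" => (AlgebraicClosure ℚ ≃ₐ[ℚ] AlgebraicClosure ℚ)

attribute [local instance] Frame.fq

variable {p : ℕ} [hp : Fact p.Prime] {S : Finset Nat.Primes}
  {U H : Subgroup (AlgebraicClosure ℚ ≃ₐ[ℚ] AlgebraicClosure ℚ)}
variable (hp2 : p ≠ 2) (hU : (famS S).IsOpen U)

/-- the invariant of the localisation -/
noncomputable def lx (l : Nat.Primes) (x : GQ) :
    H2 ((famS S).res U) (rep (muQ p) U) →ₗ[ZMod p] ZMod p :=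
  invU hp2 (stabL_open hU l x) ∘ₗ (locMor l x).mapH2

theorem lx_apply (l : Nat.Primes) (x : GQ) (y : H2 ((famS S).res U) (rep (muQ p) U)) :
    lx hp2 hU l x y = invU hp2 (stabL_open hU l x) ((locMor l x).mapH2 y) := rfl

theorem exists_F [U.FiniteIndex] (y : H2 ((famS S).res U) (rep (muQ p) U)) :
    ∃ F : ↥(Z2 (famS S) (indRep U (muQ p))), ∀ l x, lx hp2 hU l x y =
      invL hp2 l (H2.mk (LF (l : ℕ)) (muL p l) ⟨_, Tq_mem hU F l (cl (rl l) U x)⟩) := by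
  obtain ⟨X, rfl⟩ := sh_H2_surjective hU (ρ := muQ p) y
  obtain ⟨F, rfl⟩ := H2.mk_surjective X
  exact ⟨F, fun l x => key_inv hp2 hU F l x⟩

theorem lx_cl [U.FiniteIndex] (y : H2 ((famS S).res U) (rep (muQ p) U)) (l : Nat.Primes)
    {x x' : GQ} (h : cl (rl l) U x = cl (rl l) U x') : lx hp2 hU l x y = lx hp2 hU l x' y := by
  obtain ⟨F, hF⟩ := exists_F hp2 hU y
  rw [hF, hF]
  exact congrArg (fun c => invL hp2 l (H2.mk (LF (l : ℕ)) (muL p l) ⟨_, Tq_mem hU F l c⟩)) h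

theorem invU_congr {l : Nat.Primes} {W W' : Subgroup (Gl l)} (h : W = W')
    (hW : (LF (l : ℕ)).IsOpen W) (hW' : (LF (l : ℕ)).IsOpen W')
    (z : ↥(Z2 ((LF (l : ℕ)).res W) (rep (muL p l) W)))
    (z' : ↥(Z2 ((LF (l : ℕ)).res W') (rep (muL p l) W')))
    (hz : ∀ a b (ha : a ∈ W) (hb : b ∈ W) (ha' : a ∈ W') (hb' : b ∈ W'),
      (z : W × W → ZMod p) (⟨a, ha⟩, ⟨b, hb⟩) = (z' : W' × W' → ZMod p) (⟨a, ha'⟩, ⟨b, hb'⟩)) :
    invU hp2 hW (H2.mk ((LF (l : ℕ)).res W) (rep (muL p l) W) z) =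
      invU hp2 hW' (H2.mk ((LF (l : ℕ)).res W') (rep (muL p l) W') z') := by
  subst h
  congr 2
  exact Subtype.ext (funext fun q => hz _ _ q.1.2 q.2.2 q.1.2 q.2.2)

variable (hn : ∀ h ∈ H, ∀ u ∈ U, h * u * h⁻¹ ∈ U)

theorem lx_equiv (l : Nat.Primes) (x : GQ) (h : H) (y : H2 ((famS S).res U) (rep (muQ p) U)) :
    lx hp2 hU l x (h2Rep (famS S) (muQ p) hn h y) = lx hp2 hU l (x * h) y := by
  obtain ⟨f, rfl⟩ := H2.mk_surjective y
  rw [h2Rep_mk, lx_apply, lx_apply, Mor.mapH2_mk, Mor.mapH2_mk]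
  refine invU_congr hp2 ?_ _ _ _ _ ?_
  · ext δ
    rw [mem_stabL, mem_stabL]
    have e1 : (x * (h : GQ))⁻¹ * rl l δ * (x * h) = (h : GQ)⁻¹ * (x⁻¹ * rl l δ * x) * h := by
      group
    rw [e1]
    constructor
    · intro h1
      exact hn' hn h _ h1
    · intro h1
      have h2 := hn _ h.2 _ h1
      have e2 : (h : GQ) * ((h : GQ)⁻¹ * (x⁻¹ * rl l δ * x) * h) * (h : GQ)⁻¹ =
          x⁻¹ * rl l δ * x := by group
      rwa [e2] at h2
  · intro a b ha hb ha' hb'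
    change muQ p x (muQ p (h : GQ) ((f : U × U → ZMod p) (⟨_, _⟩, ⟨_, _⟩))) =
      muQ p (x * h) ((f : U × U → ZMod p) (⟨_, _⟩, ⟨_, _⟩))
    rw [map_mul (muQ p), Module.End.mul_apply]
    congr 3

/-- **Reciprocity at level `U`.** -/
theorem sum_lx (hpS : pPrime p ∈ S) (y : H2 ((famS S).res U) (rep (muQ p) U))
    [∀ l : Nat.Primes, Fintype (Pl (rl l) U)] :
    ∑ l : ↥S, ∑ c : Pl (rl (l : Nat.Primes)) U, lx hp2 hU l c.out y = 0 := by
  haveI := hU.finiteIndex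
  obtain ⟨F, hF⟩ := exists_F hp2 hU y
  have hf : (fun q => sumLin (k := ZMod p) U ((F : GQ × GQ → (GQ ⧸ U → ZMod p)) q)) ∈
      Z2 (famS S) (muQ p) :=
    Frame.post_mem_Z2 (sumLin (k := ZMod p) U) (sumLin_comm U (muQ p)) F.2
  have h1 := rec_fr hp2 hpS _ hf
  refine Eq.trans (Finset.sum_congr rfl fun l _ => ?_) h1
  have h2 : (fr p hp2 S hpS).r2 l (fun q => sumLin (k := ZMod p) U
      ((F : GQ × GQ → (GQ ⧸ U → ZMod p)) q)) ∈ Z2 (LF ((l : Nat.Primes) : ℕ)) (muL p l.1) :=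
    (fr p hp2 S hpS).r2_mem hf
  refine Eq.trans ?_ (Frame.iv_eq (D := fr p hp2 S hpS) (v := l) h2).symm
  change _ = invL hp2 (l : Nat.Primes) (H2.mk (LF ((l : Nat.Primes) : ℕ)) (muL p l.1) ⟨_, h2⟩)
  have h3 : ∀ c : Pl (rl (l : Nat.Primes)) U, lx hp2 hU l c.out y =
      invL hp2 l (H2.mk (LF ((l : Nat.Primes) : ℕ)) (muL p l) ⟨_, Tq_mem hU F l c⟩) := by
    intro c
    rw [hF]
    have : cl (rl (l : Nat.Primes)) U c.out = c := Quotient.out_eq c
    exact congrArg (fun c => invL hp2 (l : Nat.Primes) (H2.mk (LF ((l : Nat.Primes) : ℕ))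
      (muL p l) ⟨_, Tq_mem hU F l c⟩)) this
  rw [Finset.sum_congr rfl fun c _ => h3 c, ← map_sum, ← map_sum]
  congr 2
  apply Subtype.ext
  funext q
  rw [AddSubmonoidClass.coe_finsetSum, Finset.sum_apply]
  change ∑ c : Pl (rl (l : Nat.Primes)) U, Tq (F : GQ × GQ → (GQ ⧸ U → ZMod p)) l c q =
    ∑ c : GQ ⧸ U, (F : GQ × GQ → (GQ ⧸ U → ZMod p)) (rl l q.1, rl l q.2) c
  classical
  simp only [Tq]
  rw [Finset.sum_comm]
  refine Finset.sum_congr rfl fun c _ => ?_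
  rw [Finset.sum_ite_eq]
  simp

/-- the finite decomposition groups -/
noncomputable abbrev DF (S : Finset Nat.Primes) (l : ↥S) :
    Subgroup (AlgebraicClosure ℚ ≃ₐ[ℚ] AlgebraicClosure ℚ) := (rl (l : Nat.Primes)).range

/-- the invariants at the places above `l` -/
noncomputable def lX (l : Nat.Primes) (y : H2 ((famS S).res U) (rep (muQ p) U)) :
    XM hn (ZMod p) (rl l).range :=
  mkX hn (fun x => lx hp2 hU l x y)
    (fun d hd g => by
      haveI := hU.finiteIndex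
      obtain ⟨δ, rfl⟩ := hd
      exact (lx_cl hp2 hU _ l ((cl_eq_iff _ _).mpr ⟨δ, 1, U.one_mem, by rw [mul_one]⟩)).symm)
    (fun g u hu => by
      haveI := hU.finiteIndex
      exact (lx_cl hp2 hU _ l ((cl_eq_iff _ _).mpr ⟨1, u, hu, by rw [map_one, one_mul]⟩)).symm)

theorem fn_lX (l : Nat.Primes) (y : H2 ((famS S).res U) (rep (muQ p) U)) (g : GQ) :
    fn hn (lX hp2 hU hn l y) g = lx hp2 hU l g y := rfl

theorem lX_add (l : Nat.Primes) (y y' : H2 ((famS S).res U) (rep (muQ p) U)) :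
    lX hp2 hU hn l (y + y') = lX hp2 hU hn l y + lX hp2 hU hn l y' :=
  fn_ext hn fun g => by
    rw [fn_lX, fn_add, fn_lX, fn_lX, map_add]

/-- the invariants, additive version -/
noncomputable def lA : M2 hn S p →+ XA hn (ZMod p) (DF S) :=
  AddMonoidHom.mk' (fun y => mkA hn fun l => lX hp2 hU hn l (toV _ y))
    (fun y y' => XA_ext hn fun l => by
      have h1 := lX_add hp2 hU hn l (toV _ y) (toV _ y')
      rw [← map_add] at h1
      exact h1)

theorem prX_lA (y : M2 hn S p) (l : ↥S) :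
    prX hn (DF S) l (lA hp2 hU hn y) = lX hp2 hU hn l (toV _ y) := rfl

theorem lA_smul (h : H) (y : M2 hn S p) :
    lA hp2 hU hn (MonoidAlgebra.of ℤ H h • y) = MonoidAlgebra.of ℤ H h • lA hp2 hU hn y := by
  refine XA_ext hn fun l => ?_
  rw [LinearMap.map_smul, prX_lA, prX_lA]
  refine fn_ext hn fun g => ?_
  refine Eq.trans ?_ (fn_of_smul hn h _ g).symm
  rw [toV_smul]
  exact lx_equiv hp2 hU hn l g h _

/-- **The local invariants.** -/
noncomputable def lM : M2 hn S p →ₗ[MonoidAlgebra ℤ H] XA hn (ZMod p) (DF S) :=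
  mkHom (lA hp2 hU hn) (lA_smul hp2 hU hn)

theorem fn_lM (y : M2 hn S p) (l : ↥S) (g : GQ) :
    fn hn (prX hn (DF S) l (lM hp2 hU hn y)) g = lx hp2 hU l g (toV _ y) := rfl

theorem lM_eq_zero {y : M2 hn S p} (hy : lM hp2 hU hn y = 0) : toV _ y ∈ sha2U p S U := by
  rw [mem_sha2U]
  intro l hl x
  have h1 := fn_lM hp2 hU hn y ⟨l, hl⟩ x
  rw [hy, map_zero, fn_zero] at h1
  apply (LD.inv_bij hp2 (stabL_open hU l x)).1
  rw [map_zero]
  exact h1.symm

end Fermat.Agent.EqEu
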