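import Fermat.Agent.EqEu.QFin
import Fermat.Agent.PT.EqX

/-!
# Representations as modules over the integral group ring
-/

set_option autoImplicit false
set_option linter.unusedSectionVars false

namespace Fermat.Agent.EqEu

open Fermat.Agent.PT Module

section gm

variable {k : Type} [CommRing k] {G : Type} [Group G] {V : Type} [AddCommGroup V] [Module k V]

/-- the representation space, as a module over the group ring -/
def GM (_ρ : Representation k G V) : Type := V

variable (ρ : Representation k G V)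

instance : AddCommGroup (GM ρ) := inferInstanceAs (AddCommGroup V)

/-- the action by additive endomorphisms -/
def endHom : G →* AddMonoid.End V where
  toFun g := (ρ g).toAddMonoidHom
  map_one' := by
    rw [map_one]
    rfl
  map_mul' g h := by
    rw [map_mul]
    rfl

/-- the action of the group ring -/
noncomputable def ringHom : MonoidAlgebra ℤ G →+* AddMonoid.End V :=
  (MonoidAlgebra.lift ℤ (AddMonoid.End V) G (endHom ρ)).toRingHom

noncomputable instance : Module (MonoidAlgebra ℤ G) (GM ρ) :=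
  Module.compHom V (ringHom ρ)

/-- from vectors to the module -/
def ofG : V →+ GM ρ := AddMonoidHom.id V

/-- from the module to vectors -/
def toV : GM ρ →+ V := AddMonoidHom.id V

@[simp] theorem ofG_toV (x : GM ρ) : ofG ρ (toV ρ x) = x := rfl

@[simp] theorem toV_ofG (x : V) : toV ρ (ofG ρ x) = x := rfl

theorem toV_injective : Function.Injective (toV ρ) := fun _ _ h => h

theorem ofG_injective : Function.Injective (ofG ρ) := fun _ _ h => h

theorem of_smul (g : G) (x : GM ρ) : (MonoidAlgebra.of ℤ G g) • x = ofG ρ (ρ g (toV ρ x)) := by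
  change ringHom ρ (MonoidAlgebra.of ℤ G g) x = _
  have : ringHom ρ (MonoidAlgebra.of ℤ G g) = endHom ρ g := MonoidAlgebra.lift_of _ _
  rw [this]
  rfl

theorem toV_smul (g : G) (x : GM ρ) : toV ρ ((MonoidAlgebra.of ℤ G g) • x) = ρ g (toV ρ x) := by
  rw [of_smul, toV_ofG]

theorem smul_ofG (g : G) (x : V) : (MonoidAlgebra.of ℤ G g) • ofG ρ x = ofG ρ (ρ g x) := by
  rw [of_smul, toV_ofG]

end gm

section general

variable {G : Type} [Group G] {A B : Type} [AddCommGroup A] [Module (MonoidAlgebra ℤ G) A]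
  [AddCommGroup B] [Module (MonoidAlgebra ℤ G) B]

/-- a stable subgroup as a submodule -/
def mkSub (N : AddSubgroup A) (h : ∀ g : G, ∀ x ∈ N, (MonoidAlgebra.of ℤ G g) • x ∈ N) :
    Submodule (MonoidAlgebra ℤ G) A where
  carrier := N
  zero_mem' := N.zero_mem
  add_mem' := N.add_mem
  smul_mem' := by
    intro r x hx
    induction r using MonoidAlgebra.induction_on with
    | of g => exact h g x hx
    | add a b ha hb => rw [add_smul]; exact N.add_mem ha hb
    | smul n a ha =>
      rw [smul_assoc]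
      exact N.zsmul_mem ha n

theorem mem_mkSub {N : AddSubgroup A} {h : ∀ g : G, ∀ x ∈ N, (MonoidAlgebra.of ℤ G g) • x ∈ N}
    {x : A} : x ∈ mkSub N h ↔ x ∈ N := Iff.rfl

/-- an additive map commuting with the group -/
def mkHom (f : A →+ B) (h : ∀ (g : G) (x : A), f ((MonoidAlgebra.of ℤ G g) • x) =
    (MonoidAlgebra.of ℤ G g) • f x) : A →ₗ[MonoidAlgebra ℤ G] B where
  toFun := f
  map_add' := f.map_add
  map_smul' := by
    intro r x
    rw [RingHom.id_apply]
    induction r using MonoidAlgebra.induction_on with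
    | of g => exact h g x
    | add a b ha hb => rw [add_smul, add_smul, map_add, ha, hb]
    | smul n a ha => rw [smul_assoc, smul_assoc, map_zsmul, ha]

@[simp] theorem mkHom_apply (f : A →+ B) (h : ∀ (g : G) (x : A), f ((MonoidAlgebra.of ℤ G g) • x) =
    (MonoidAlgebra.of ℤ G g) • f x) (x : A) : mkHom f h x = f x := rfl

/-- the augmentation elements of a subgroup -/
def JN (N : Subgroup G) : Set (MonoidAlgebra ℤ G) := {r | ∃ n ∈ N, r = MonoidAlgebra.of ℤ G n - 1}

theorem JN_smul {N : Subgroup G} (h : ∀ n ∈ N, ∀ x : A, (MonoidAlgebra.of ℤ G n) • x = x) :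
    ∀ j ∈ JN N, ∀ x : A, j • x = 0 := by
  rintro _ ⟨n, hn, rfl⟩ x
  rw [sub_smul, one_smul, h n hn x, sub_self]

theorem of_JN {N : Subgroup G} (h : ∀ j ∈ JN N, ∀ x : A, j • x = 0) {n : G} (hn : n ∈ N) (x : A) :
    (MonoidAlgebra.of ℤ G n) • x = x := by
  have h1 := h _ ⟨n, hn, rfl⟩ x
  rw [sub_smul, one_smul, sub_eq_zero] at h1
  exact h1

variable {p : ℕ} {J : Set (MonoidAlgebra ℤ G)} {P : Type} [AddCommGroup P]
  [Module (MonoidAlgebra ℤ G) P]

/-- comparison through a relation -/
theorem nh_le_of_rel' (hP : GoodP p J P) (Rl : A → B → Prop) (h0 : Rl 0 0)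
    (hadd : ∀ a b a' b', Rl a b → Rl a' b' → Rl (a + a') (b + b'))
    (hneg : ∀ a b, Rl a b → Rl (-a) (-b))
    (hsmul : ∀ (g : G) a b, Rl a b → Rl ((MonoidAlgebra.of ℤ G g) • a) ((MonoidAlgebra.of ℤ G g) • b))
    (h1 : ∀ x, ∃ y, Rl x y) (h2 : ∀ x, Rl x 0 → x = 0)
    (hpX : ∀ x : A, p • x = 0) (hJX : ∀ j ∈ J, ∀ x : A, j • x = 0)
    (hpY : ∀ x : B, p • x = 0) (hJY : ∀ j ∈ J, ∀ x : B, j • x = 0)
    (h : Finite (P →ₗ[MonoidAlgebra ℤ G] B)) :
    nh (MonoidAlgebra ℤ G) P A ≤ nh (MonoidAlgebra ℤ G) P B := by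
  let Z₀ : AddSubgroup (A × B) :=
    { carrier := {q | Rl q.1 q.2}
      zero_mem' := h0
      add_mem' := fun {a b} ha hb => hadd _ _ _ _ ha hb
      neg_mem' := fun {a} ha => hneg _ _ ha }
  exact nh_le_of_rel hP (mkSub Z₀ fun g q hq => hsmul g _ _ hq) h1 h2 hpX hJX hpY hJY h

end general

end Fermat.Agent.EqEu
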