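import Mathlib

/-!
# Counting equivariant maps from a relatively projective module
-/

set_option autoImplicit false
set_option linter.unusedSectionVars false

namespace Fermat.Agent.EqEu

/-- `P` is killed by `p`, finite, and projective relatively to surjections of modules killed by `p`
and by `J`. -/
structure GoodP {R : Type} [Ring R] (p : ℕ) (J : Set R) (P : Type) [AddCommGroup P] [Module R P] :
    Prop where
  fin : Finite P
  tor : ∀ x : P, p • x = 0
  lift : ∀ (X Y : Type) [AddCommGroup X] [Module R X] [AddCommGroup Y] [Module R Y]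
    (g : X →ₗ[R] Y), Function.Surjective g → (∀ x : X, p • x = 0) → (∀ j ∈ J, ∀ x : X, j • x = 0) →
    ∀ f : P →ₗ[R] Y, ∃ f' : P →ₗ[R] X, g ∘ₗ f' = f

variable {R : Type} [Ring R] {p : ℕ} {J : Set R} {P : Type} [AddCommGroup P] [Module R P]

section defs

variable (R P)

/-- the number of maps -/
noncomputable def nh (B : Type) [AddCommGroup B] [Module R B] : ℕ := Nat.card (P →ₗ[R] B)

end defs

section basic

variable {X Y Z : Type} [AddCommGroup X] [Module R X] [AddCommGroup Y] [Module R Y]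
  [AddCommGroup Z] [Module R Z]

theorem finite_hom (hP : GoodP p J P) [Finite X] : Finite (P →ₗ[R] X) := by
  have := hP.fin
  exact Finite.of_injective (fun f : P →ₗ[R] X => (f : P → X)) DFunLike.coe_injective

theorem nh_pos (hP : GoodP p J P) [Finite X] : 0 < nh R P X := by
  have := finite_hom (X := X) hP
  have : Nonempty (P →ₗ[R] X) := ⟨0⟩
  exact Nat.card_pos

theorem nh_congr (e : X ≃ₗ[R] Y) : nh R P X = nh R P Y :=
  Nat.card_congr
    { toFun := fun f => e.toLinearMap ∘ₗ f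
      invFun := fun f => e.symm.toLinearMap ∘ₗ f
      left_inv := fun f => by
        ext x
        simp
      right_inv := fun f => by
        ext x
        simp }

theorem nh_le_of_injective (g : X →ₗ[R] Y) (hg : Function.Injective g)
    (h : Finite (P →ₗ[R] Y)) : nh R P X ≤ nh R P Y :=
  Nat.card_le_card_of_injective (fun f : P →ₗ[R] X => g ∘ₗ f) fun f f' h => by
    ext x
    exact hg (LinearMap.congr_fun h x)

theorem nh_le_of_surjective (hP : GoodP p J P) (g : X →ₗ[R] Y) (hg : Function.Surjective g)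
    (hp : ∀ x : X, p • x = 0) (hJ : ∀ j ∈ J, ∀ x : X, j • x = 0)
    (h : Finite (P →ₗ[R] X)) : nh R P Y ≤ nh R P X :=
  Nat.card_le_card_of_surjective (fun f : P →ₗ[R] X => g ∘ₗ f) fun f =>
    hP.lift X Y g hg hp hJ f

/-- relations -/
theorem nh_le_of_rel (hP : GoodP p J P) (Z : Submodule R (X × Y))
    (h1 : ∀ x, ∃ y, (x, y) ∈ Z) (h2 : ∀ x, (x, (0 : Y)) ∈ Z → x = 0)
    (hpX : ∀ x : X, p • x = 0) (hJX : ∀ j ∈ J, ∀ x : X, j • x = 0)
    (hpY : ∀ x : Y, p • x = 0) (hJY : ∀ j ∈ J, ∀ x : Y, j • x = 0)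
    (h : Finite (P →ₗ[R] Y)) : nh R P X ≤ nh R P Y := by
  have hinj : Function.Injective ((LinearMap.snd R X Y) ∘ₗ Z.subtype) := by
    rw [← LinearMap.ker_eq_bot, LinearMap.ker_eq_bot']
    rintro ⟨⟨x, y⟩, hz⟩ h0
    change y = 0 at h0
    subst h0
    apply Subtype.ext
    change (x, (0 : Y)) = 0
    rw [h2 x hz]
    rfl
  have hle := nh_le_of_injective (P := P) _ hinj h
  have hfin : Finite (P →ₗ[R] Z) := by
    refine Finite.of_injective
      (fun f : P →ₗ[R] Z => ((LinearMap.snd R X Y) ∘ₗ Z.subtype) ∘ₗ f) fun f f' h => ?_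
    ext x : 1
    exact hinj (LinearMap.congr_fun h x)
  refine le_trans (nh_le_of_surjective hP ((LinearMap.fst R X Y) ∘ₗ Z.subtype) ?_ ?_ ?_ hfin) hle
  · intro x
    obtain ⟨y, hy⟩ := h1 x
    exact ⟨⟨(x, y), hy⟩, rfl⟩
  · rintro ⟨⟨x, y⟩, hz⟩
    apply Subtype.ext
    exact Prod.ext (hpX x) (hpY y)
  · rintro j hj ⟨⟨x, y⟩, hz⟩
    apply Subtype.ext
    exact Prod.ext (hJX j hj x) (hJY j hj y)

/-- **Exactness.** -/
theorem nh_exact (hP : GoodP p J P) (f : X →ₗ[R] Y) (g : Y →ₗ[R] Z) (hf : Function.Injective f)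
    (hg : Function.Surjective g) (hfg : ∀ y, g y = 0 ↔ ∃ x, f x = y)
    (hp : ∀ x : Y, p • x = 0) (hJ : ∀ j ∈ J, ∀ x : Y, j • x = 0) :
    nh R P Y = nh R P X * nh R P Z := by
  let G : (P →ₗ[R] Y) →+ (P →ₗ[R] Z) :=
    { toFun := fun u => g ∘ₗ u
      map_zero' := LinearMap.comp_zero g
      map_add' := fun u v => LinearMap.comp_add u v g }
  have hG : Function.Surjective G := fun u => hP.lift Y Z g hg hp hJ u
  have h1 : Nat.card (P →ₗ[R] Y) = Nat.card G.ker * Nat.card (P →ₗ[R] Z) := by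
    rw [← AddSubgroup.card_mul_index G.ker, AddSubgroup.index_ker, AddMonoidHom.range_eq_top.mpr hG,
      AddSubgroup.card_top]
  have h2 : Nat.card G.ker = Nat.card (P →ₗ[R] X) := by
    symm
    refine Nat.card_congr (Equiv.ofBijective
      (fun u : P →ₗ[R] X => (⟨f ∘ₗ u, ?_⟩ : G.ker)) ⟨?_, ?_⟩)
    · rw [AddMonoidHom.mem_ker]
      ext x
      exact (hfg _).mpr ⟨u x, rfl⟩
    · intro u v h
      ext x
      exact hf (LinearMap.congr_fun (congrArg Subtype.val h) x)
    · rintro ⟨u, hu⟩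
      rw [AddMonoidHom.mem_ker] at hu
      have h3 : ∀ x, ∃ y, f y = u x := fun x => (hfg _).mp (LinearMap.congr_fun hu x)
      choose w hw using h3
      refine ⟨{ toFun := w, map_add' := fun a b => hf ?_, map_smul' := fun a b => hf ?_ },
        Subtype.ext (LinearMap.ext hw)⟩
      · rw [hw, map_add, map_add, hw, hw]
      · rw [hw, map_smul, map_smul, hw]
        rfl
  rw [nh, h1, h2]
  rfl

end basic

section subquotient

variable {M N : Type} [AddCommGroup M] [Module R M] [AddCommGroup N] [Module R N]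

/-- subquotients -/
abbrev SQ (Y X : Submodule R M) : Type := ↥Y ⧸ X.submoduleOf Y

theorem SQ.mk_eq_zero {Y X : Submodule R M} {y : Y} :
    (Submodule.Quotient.mk y : SQ Y X) = 0 ↔ (y : M) ∈ X := by
  rw [Submodule.Quotient.mk_eq_zero]
  exact Iff.rfl

/-- comparison of subquotients -/
theorem nh_SQ_congr {Y X : Submodule R M} {Y' X' : Submodule R N} (f : M →ₗ[R] N)
    (h1 : ∀ y ∈ Y, f y ∈ Y') (h2 : ∀ y' ∈ Y', ∃ y ∈ Y, y' - f y ∈ X')
    (h3 : ∀ y ∈ Y, f y ∈ X' ↔ y ∈ X) : nh R P (SQ Y X) = nh R P (SQ Y' X') := by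
  let g : SQ Y X →ₗ[R] SQ Y' X' := Submodule.mapQ _ _ (f.restrict h1) (by
    intro y hy
    exact (h3 y y.2).mpr hy)
  have hg : ∀ y : Y, g (Submodule.Quotient.mk y) = Submodule.Quotient.mk ⟨f y, h1 y y.2⟩ :=
    fun y => rfl
  refine nh_congr (LinearEquiv.ofBijective g ⟨?_, ?_⟩)
  · rw [← LinearMap.ker_eq_bot, LinearMap.ker_eq_bot']
    intro z hz
    obtain ⟨y, rfl⟩ := Submodule.Quotient.mk_surjective _ z
    rw [hg, SQ.mk_eq_zero] at hz
    exact SQ.mk_eq_zero.mpr ((h3 y y.2).mp hz)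
  · intro z
    obtain ⟨y', rfl⟩ := Submodule.Quotient.mk_surjective _ z
    obtain ⟨y, hy, h4⟩ := h2 y' y'.2
    refine ⟨Submodule.Quotient.mk ⟨y, hy⟩, ?_⟩
    rw [hg, eq_comm, ← sub_eq_zero, ← Submodule.Quotient.mk_sub, SQ.mk_eq_zero]
    exact h4

theorem nh_SQ_tower (hP : GoodP p J P) {Y X W : Submodule R M} (h1 : W ≤ X) (h2 : X ≤ Y)
    (hp : ∀ y ∈ Y, p • y ∈ W) (hJ : ∀ j ∈ J, ∀ y ∈ Y, j • y ∈ W) :
    nh R P (SQ Y W) = nh R P (SQ X W) * nh R P (SQ Y X) := by
  let f : SQ X W →ₗ[R] SQ Y W := Submodule.mapQ _ _ (Submodule.inclusion h2) (by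
    intro y hy
    exact hy)
  let g : SQ Y W →ₗ[R] SQ Y X := Submodule.mapQ _ _ LinearMap.id (by
    intro y hy
    exact h1 hy)
  have hf : ∀ y : X, f (Submodule.Quotient.mk y) = Submodule.Quotient.mk ⟨y, h2 y.2⟩ := fun y => rfl
  have hg : ∀ y : Y, g (Submodule.Quotient.mk y) = Submodule.Quotient.mk y := fun y => rfl
  refine nh_exact hP f g ?_ ?_ ?_ ?_ ?_
  · rw [← LinearMap.ker_eq_bot, LinearMap.ker_eq_bot']
    intro z hz
    obtain ⟨y, rfl⟩ := Submodule.Quotient.mk_surjective _ z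
    rw [hf, SQ.mk_eq_zero] at hz
    exact SQ.mk_eq_zero.mpr hz
  · intro z
    obtain ⟨y, rfl⟩ := Submodule.Quotient.mk_surjective _ z
    exact ⟨Submodule.Quotient.mk y, rfl⟩
  · intro z
    obtain ⟨y, rfl⟩ := Submodule.Quotient.mk_surjective _ z
    rw [hg, SQ.mk_eq_zero]
    constructor
    · intro hy
      exact ⟨Submodule.Quotient.mk ⟨y, hy⟩, rfl⟩
    · rintro ⟨x, hx⟩
      obtain ⟨x, rfl⟩ := Submodule.Quotient.mk_surjective _ x
      rw [hf, eq_comm, ← sub_eq_zero, ← Submodule.Quotient.mk_sub, SQ.mk_eq_zero] at hx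
      have h3 : (y : M) = ((y : M) - x) + x := by abel
      rw [h3]
      exact X.add_mem (h1 hx) x.2
  · intro z
    obtain ⟨y, rfl⟩ := Submodule.Quotient.mk_surjective _ z
    rw [← Submodule.Quotient.mk_smul, SQ.mk_eq_zero]
    exact hp y y.2
  · intro j hj z
    obtain ⟨y, rfl⟩ := Submodule.Quotient.mk_surjective _ z
    rw [← Submodule.Quotient.mk_smul, SQ.mk_eq_zero]
    exact hJ j hj y y.2

/-- multiplication by `p` -/
def mp (p : ℕ) (M : Type) [AddCommGroup M] [Module R M] : M →ₗ[R] M := p • LinearMap.id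

@[simp] theorem mp_apply (x : M) : mp (R := R) p M x = p • x := rfl

variable (R) (p) (P) in
/-- maps to the quotient by `p` -/
noncomputable def nq (M : Type) [AddCommGroup M] [Module R M] : ℕ :=
  nh R P (SQ (⊤ : Submodule R M) (LinearMap.range (mp (R := R) p M)))

variable (R) (p) (P) in
/-- maps to the `p`-torsion -/
noncomputable def nt (M : Type) [AddCommGroup M] [Module R M] : ℕ :=
  nh R P (SQ (LinearMap.ker (mp (R := R) p M)) (⊥ : Submodule R M))

theorem nq_congr (e : M ≃ₗ[R] N) : nq R p P M = nq R p P N := by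
  refine nh_SQ_congr e.toLinearMap (fun _ _ => trivial) (fun y _ => ⟨e.symm y, trivial, ?_⟩)
    (fun y _ => ?_)
  · simp
  · constructor
    · rintro ⟨z, hz⟩
      refine ⟨e.symm z, ?_⟩
      apply e.injective
      rw [mp_apply, map_nsmul, LinearEquiv.apply_symm_apply]
      exact hz
    · rintro ⟨z, hz⟩
      refine ⟨e z, ?_⟩
      rw [mp_apply] at hz ⊢
      rw [← hz]
      exact (map_nsmul e p z).symm

theorem nt_congr (e : M ≃ₗ[R] N) : nt R p P M = nt R p P N := by
  refine nh_SQ_congr e.toLinearMap (fun y hy => ?_) (fun y hy => ⟨e.symm y, ?_, ?_⟩)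
    (fun y _ => ?_)
  · rw [LinearMap.mem_ker, mp_apply] at hy ⊢
    exact (map_nsmul e p y).symm.trans (by rw [hy, map_zero])
  · rw [LinearMap.mem_ker, mp_apply] at hy ⊢
    rw [← map_nsmul, hy, map_zero]
  · simp
  · simp

/-- **Additivity of the index.** -/
theorem nq_nt_exact (hP : GoodP p J P) (A : Submodule R M)
    (hJ : ∀ j ∈ J, ∀ x : M, j • x = 0) :
    nq R p P M * (nt R p P A * nt R p P (M ⧸ A)) = nt R p P M * (nq R p P A * nq R p P (M ⧸ A)) := by
  set pM := LinearMap.range (mp (R := R) p M) with hpM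
  set tM := LinearMap.ker (mp (R := R) p M) with htM
  set pA := A.map (mp (R := R) p M) with hpA
  set T := A.comap (mp (R := R) p M) with hT
  have hJ' : ∀ (W Y : Submodule R M), ∀ j ∈ J, ∀ y ∈ Y, j • y ∈ W := by
    intro W Y j hj y _
    rw [hJ j hj]
    exact W.zero_mem
  have hmp : ∀ x : M, p • x ∈ pM := fun x => ⟨x, rfl⟩
  have hpAA : pA ≤ A := by
    rintro _ ⟨x, hx, rfl⟩
    exact A.smul_of_tower_mem p hx
  have hpAM : pA ≤ pM := by
    rintro _ ⟨x, hx, rfl⟩
    exact ⟨x, rfl⟩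
  -- `nq A`, `nt A`, `nq C`, `nt C`
  have e1 : nq R p P A = nh R P (SQ A pA) := by
    refine nh_SQ_congr A.subtype (fun y _ => y.2) (fun y hy => ⟨⟨y, hy⟩, trivial, ?_⟩)
      (fun y _ => ?_)
    · rw [Submodule.subtype_apply, sub_self]
      exact zero_mem _
    · constructor
      · rintro ⟨z, hz, hzy⟩
        exact ⟨⟨z, hz⟩, Subtype.ext hzy⟩
      · rintro ⟨z, hz⟩
        exact ⟨z, z.2, congrArg Subtype.val hz⟩
  have e2 : nt R p P A = nh R P (SQ (tM ⊓ A) (⊥ : Submodule R M)) := by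
    refine nh_SQ_congr A.subtype (fun y hy => ⟨?_, y.2⟩) (fun y hy => ⟨⟨y, hy.2⟩, ?_, ?_⟩)
      (fun y _ => ?_)
    · exact congrArg Subtype.val hy
    · exact Subtype.ext hy.1
    · rw [Submodule.subtype_apply, sub_self]
      exact zero_mem _
    · rw [Submodule.mem_bot, Submodule.mem_bot]
      exact ⟨fun h => Subtype.ext h, fun h => congrArg Subtype.val h⟩
  have e3 : nq R p P (M ⧸ A) = nh R P (SQ (⊤ : Submodule R M) (A ⊔ pM)) := by
    symm
    refine nh_SQ_congr A.mkQ (fun y _ => trivial) (fun y _ => ?_) (fun y _ => ?_)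
    · obtain ⟨x, rfl⟩ := Submodule.Quotient.mk_surjective _ y
      refine ⟨x, trivial, ?_⟩
      rw [Submodule.mkQ_apply, sub_self]
      exact zero_mem _
    · constructor
      · rintro ⟨z, hz⟩
        obtain ⟨x, rfl⟩ := Submodule.Quotient.mk_surjective _ z
        rw [mp_apply, ← Submodule.Quotient.mk_smul, Submodule.mkQ_apply, Submodule.Quotient.eq] at hz
        have h3 : y = -(p • x - y) + p • x := by abel
        rw [h3]
        exact Submodule.add_mem_sup (A.neg_mem hz) (hmp x)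
      · intro hy
        obtain ⟨a, ha, _, ⟨x, rfl⟩, rfl⟩ := Submodule.mem_sup.mp hy
        refine ⟨Submodule.Quotient.mk x, ?_⟩
        rw [mp_apply, ← Submodule.Quotient.mk_smul, Submodule.mkQ_apply, Submodule.Quotient.eq,
          mp_apply]
        have h3 : p • x - (a + p • x) = -a := by abel
        rw [h3]
        exact A.neg_mem ha
  have e4 : nt R p P (M ⧸ A) = nh R P (SQ T A) := by
    symm
    refine nh_SQ_congr A.mkQ (fun y hy => ?_) (fun y hy => ?_) (fun y _ => ?_)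
    · rw [LinearMap.mem_ker, mp_apply, Submodule.mkQ_apply, ← Submodule.Quotient.mk_smul,
        Submodule.Quotient.mk_eq_zero]
      exact hy
    · obtain ⟨x, rfl⟩ := Submodule.Quotient.mk_surjective _ y
      refine ⟨x, ?_, ?_⟩
      · rw [LinearMap.mem_ker, mp_apply, ← Submodule.Quotient.mk_smul,
          Submodule.Quotient.mk_eq_zero] at hy
        exact hy
      · rw [Submodule.mkQ_apply, sub_self]
        exact zero_mem _
    · rw [Submodule.mem_bot, Submodule.mkQ_apply, Submodule.Quotient.mk_eq_zero]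
  -- the towers
  have t1 : nq R p P M = nh R P (SQ (A ⊔ pM) pM) * nh R P (SQ (⊤ : Submodule R M) (A ⊔ pM)) :=
    nh_SQ_tower hP le_sup_right le_top (fun y _ => hmp y) (hJ' _ _)
  have t2 : nh R P (SQ (A ⊔ pM) pM) = nh R P (SQ A (A ⊓ pM)) := by
    symm
    refine nh_SQ_congr LinearMap.id (fun y hy => Submodule.mem_sup_left hy) (fun y hy => ?_)
      (fun y hy => ?_)
    · obtain ⟨a, ha, b, hb, rfl⟩ := Submodule.mem_sup.mp hy
      refine ⟨a, ha, ?_⟩
      rw [LinearMap.id_apply, add_sub_cancel_left]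
      exact hb
    · exact ⟨fun h => ⟨hy, h⟩, fun h => h.2⟩
  have t3 : nh R P (SQ A pA) = nh R P (SQ (A ⊓ pM) pA) * nh R P (SQ A (A ⊓ pM)) :=
    nh_SQ_tower hP (le_inf hpAA hpAM) inf_le_left (fun y hy => ⟨y, hy, rfl⟩) (hJ' _ _)
  have t4 : nh R P (SQ T (tM ⊔ A)) = nh R P (SQ (A ⊓ pM) pA) := by
    refine nh_SQ_congr (mp p M) (fun y hy => ⟨hy, ⟨y, rfl⟩⟩) (fun y hy => ?_) (fun y hy => ?_)
    · obtain ⟨hyA, ⟨x, rfl⟩⟩ := hy
      refine ⟨x, hyA, ?_⟩
      rw [sub_self]
      exact zero_mem _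
    · constructor
      · rintro ⟨a, ha, h3⟩
        have h4 : y = (y - a) + a := by abel
        rw [h4]
        refine Submodule.add_mem_sup ?_ ha
        rw [LinearMap.mem_ker, map_sub, h3, sub_self]
      · intro h
        obtain ⟨t, ht, a, ha, rfl⟩ := Submodule.mem_sup.mp h
        refine ⟨a, ha, ?_⟩
        rw [map_add, LinearMap.mem_ker.mp ht, zero_add]
  have t5 : nh R P (SQ T A) = nh R P (SQ (tM ⊔ A) A) * nh R P (SQ T (tM ⊔ A)) := by
    refine nh_SQ_tower hP le_sup_right (sup_le (fun y hy => ?_) (fun y hy => ?_)) (fun y hy => hy)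
      (hJ' _ _)
    · change mp (R := R) p M y ∈ A
      rw [LinearMap.mem_ker.mp hy]
      exact A.zero_mem
    · exact A.smul_of_tower_mem p hy
  have t6 : nh R P (SQ (tM ⊔ A) A) = nh R P (SQ tM (tM ⊓ A)) := by
    symm
    refine nh_SQ_congr LinearMap.id (fun y hy => Submodule.mem_sup_left hy) (fun y hy => ?_)
      (fun y hy => ?_)
    · obtain ⟨a, ha, b, hb, rfl⟩ := Submodule.mem_sup.mp hy
      refine ⟨a, ha, ?_⟩
      rw [LinearMap.id_apply, add_sub_cancel_left]
      exact hb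
    · exact ⟨fun h => ⟨hy, h⟩, fun h => h.2⟩
  have t7 : nt R p P M = nh R P (SQ (tM ⊓ A) (⊥ : Submodule R M)) * nh R P (SQ tM (tM ⊓ A)) :=
    nh_SQ_tower hP bot_le inf_le_left (fun y hy => LinearMap.mem_ker.mp hy) (hJ' _ _)
  rw [t1, e1, e2, e3, e4, t7, t2, t3, t5, t4, t6]
  ring

end subquotient

end Fermat.Agent.EqEu
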