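import Fermat.Agent.EqEu.QCalc

/-!
# Counting equivariant maps: finite modules, finitely generated modules
-/

set_option autoImplicit false
set_option linter.unusedSectionVars false

namespace Fermat.Agent.EqEu

variable {R : Type} [Ring R] {p : ℕ} {J : Set R} {P : Type} [AddCommGroup P] [Module R P]

section

variable {M N : Type} [AddCommGroup M] [Module R M] [AddCommGroup N] [Module R N]

theorem nh_subsingleton [Subsingleton M] : nh R P M = 1 := by
  have : Unique (P →ₗ[R] M) := ⟨⟨0⟩, fun f => by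
    ext x
    exact Subsingleton.elim _ _⟩
  exact Nat.card_unique

theorem nt_eq_one (h : ∀ x : M, p • x = 0 → x = 0) : nt R p P M = 1 := by
  have : Subsingleton (SQ (LinearMap.ker (mp (R := R) p M)) (⊥ : Submodule R M)) := by
    constructor
    intro a b
    obtain ⟨a, rfl⟩ := Submodule.Quotient.mk_surjective _ a
    obtain ⟨b, rfl⟩ := Submodule.Quotient.mk_surjective _ b
    have ha : a = 0 := Subtype.ext (h _ (LinearMap.mem_ker.mp a.2))
    have hb : b = 0 := Subtype.ext (h _ (LinearMap.mem_ker.mp b.2))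
    rw [ha, hb]
  exact nh_subsingleton

theorem nq_eq_one (h : ∀ x : M, ∃ y : M, p • y = x) : nq R p P M = 1 := by
  have : Subsingleton (SQ (⊤ : Submodule R M) (LinearMap.range (mp (R := R) p M))) := by
    constructor
    intro a b
    obtain ⟨a, rfl⟩ := Submodule.Quotient.mk_surjective _ a
    obtain ⟨b, rfl⟩ := Submodule.Quotient.mk_surjective _ b
    rw [← sub_eq_zero, ← Submodule.Quotient.mk_sub, SQ.mk_eq_zero]
    obtain ⟨y, hy⟩ := h ((a - b : (⊤ : Submodule R M)) : M)
    exact ⟨y, hy⟩
  exact nh_subsingleton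

theorem nt_eq_nh (h : ∀ x : M, p • x = 0) : nt R p P M = nh R P M := by
  have e : M ≃ₗ[R] SQ (LinearMap.ker (mp (R := R) p M)) (⊥ : Submodule R M) :=
    LinearEquiv.ofBijective
      { toFun := fun x => Submodule.Quotient.mk ⟨x, h x⟩
        map_add' := fun _ _ => rfl
        map_smul' := fun _ _ => rfl } ⟨fun x y hxy => by
          change (Submodule.Quotient.mk _ : SQ _ _) = Submodule.Quotient.mk _ at hxy
          rw [← sub_eq_zero, ← Submodule.Quotient.mk_sub, SQ.mk_eq_zero] at hxy
          exact sub_eq_zero.mp hxy, fun x => by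
          obtain ⟨x, rfl⟩ := Submodule.Quotient.mk_surjective _ x
          exact ⟨x, rfl⟩⟩
  exact (nh_congr e).symm

theorem nq_eq_nh (h : ∀ x : M, p • x = 0) : nq R p P M = nh R P M := by
  have e : M ≃ₗ[R] SQ (⊤ : Submodule R M) (LinearMap.range (mp (R := R) p M)) :=
    LinearEquiv.ofBijective
      { toFun := fun x => Submodule.Quotient.mk ⟨x, trivial⟩
        map_add' := fun _ _ => rfl
        map_smul' := fun _ _ => rfl } ⟨fun x y hxy => by
          change (Submodule.Quotient.mk _ : SQ _ _) = Submodule.Quotient.mk _ at hxy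
          rw [← sub_eq_zero, ← Submodule.Quotient.mk_sub, SQ.mk_eq_zero] at hxy
          obtain ⟨z, hz⟩ := hxy
          rw [mp_apply, h] at hz
          exact sub_eq_zero.mp hz.symm, fun x => by
          obtain ⟨x, rfl⟩ := Submodule.Quotient.mk_surjective _ x
          exact ⟨x, rfl⟩⟩
  exact (nh_congr e).symm

theorem finite_quot (A : Submodule R M) [Finite M] : Finite (M ⧸ A) :=
  Finite.of_surjective _ A.mkQ_surjective

theorem finite_SQ (Y X : Submodule R M) [Finite Y] : Finite (SQ Y X) :=
  Finite.of_surjective _ (Submodule.mkQ_surjective (X.submoduleOf Y))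

theorem nt_pos (hP : GoodP p J P) [Finite M] : 0 < nt R p P M := by
  have := finite_SQ (LinearMap.ker (mp (R := R) p M)) (⊥ : Submodule R M)
  exact nh_pos hP

theorem nq_pos (hP : GoodP p J P) [Finite M] : 0 < nq R p P M := by
  have := finite_SQ (⊤ : Submodule R M) (LinearMap.range (mp (R := R) p M))
  exact nh_pos hP

end

/-- **Finite modules have index one.** -/
theorem nq_eq_nt_of_finite (hP : GoodP p J P) : ∀ (n : ℕ) (M : Type) [AddCommGroup M] [Module R M]
    [Finite M], Nat.card M = n → (∀ j ∈ J, ∀ x : M, j • x = 0) → nq R p P M = nt R p P M := by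
  intro n
  induction n using Nat.strong_induction_on with
  | _ n ih =>
  intro M _ _ _ hn hJ
  by_cases hs : Function.Surjective (mp (R := R) p M)
  · have hi : Function.Injective (mp (R := R) p M) := Finite.injective_iff_surjective.mpr hs
    rw [nq_eq_one (fun x => hs x), nt_eq_one (fun x hx => hi (by rw [mp_apply, hx, map_zero]))]
  · set A := LinearMap.range (mp (R := R) p M) with hA
    have hlt : Nat.card A < n := by
      rw [← hn]
      refine lt_of_le_of_ne (Nat.card_le_card_of_injective _ A.injective_subtype) fun heq => hs ?_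
      have h1 : Function.Bijective A.subtype :=
        (Nat.bijective_iff_injective_and_card _).mpr ⟨A.injective_subtype, heq⟩
      intro x
      obtain ⟨⟨y, hy⟩, rfl⟩ := h1.2 x
      exact hy
    have h1 := ih _ hlt A rfl (fun j hj x => Subtype.ext (hJ j hj x))
    have hk : ∀ x : M ⧸ A, p • x = 0 := by
      intro x
      obtain ⟨x, rfl⟩ := Submodule.Quotient.mk_surjective _ x
      rw [← Submodule.Quotient.mk_smul, Submodule.Quotient.mk_eq_zero]
      exact ⟨x, rfl⟩
    have h2 : nq R p P (M ⧸ A) = nt R p P (M ⧸ A) := by rw [nq_eq_nh hk, nt_eq_nh hk]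
    have h3 := nq_nt_exact hP A hJ
    rw [h1, h2] at h3
    have := finite_quot A
    have h4 : 0 < nt R p P A * nt R p P (M ⧸ A) := Nat.mul_pos (nt_pos hP) (nt_pos hP)
    exact Nat.eq_of_mul_eq_mul_right h4 h3

section fg

theorem finite_of_fg_tor {M : Type} [AddCommGroup M] [Module.Finite ℤ M]
    (h : ∀ x : M, ∃ n : ℕ, n ≠ 0 ∧ n • x = 0) : Finite M := by
  have h1 : AddGroup.FG M := (AddGroup.fg_iff_addMonoid_fg).mpr (by
    have := (Module.Finite.iff_addGroup_fg (G := M)).mp inferInstance
    exact AddGroup.fg_iff_addMonoid_fg.mp this)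
  have h2 : Group.FG (Multiplicative M) := inferInstance
  have : Finite (Multiplicative M) := by
    refine CommGroup.finite_of_fg_isMulTorsion _ fun x => ?_
    rw [isOfFinOrder_iff_pow_eq_one]
    obtain ⟨n, hn, hx⟩ := h (Multiplicative.toAdd x)
    exact ⟨n, Nat.pos_of_ne_zero hn, congrArg Multiplicative.ofAdd hx⟩
  exact this

variable {M N : Type} [AddCommGroup M] [Module R M] [AddCommGroup N] [Module R N]

theorem fg_sub [Module.Finite ℤ M] (A : Submodule R M) : Module.Finite ℤ A :=
  Module.Finite.of_injective A.subtype.toAddMonoidHom.toIntLinearMap A.injective_subtype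

theorem fg_quot [Module.Finite ℤ M] (A : Submodule R M) : Module.Finite ℤ (M ⧸ A) :=
  Module.Finite.of_surjective A.mkQ.toAddMonoidHom.toIntLinearMap A.mkQ_surjective

theorem finite_SQ_q [Module.Finite ℤ M] (hp : p ≠ 0) :
    Finite (SQ (⊤ : Submodule R M) (LinearMap.range (mp (R := R) p M))) := by
  have := fg_sub (⊤ : Submodule R M)
  have := fg_quot (M := (⊤ : Submodule R M))
    ((LinearMap.range (mp (R := R) p M)).submoduleOf (⊤ : Submodule R M))
  refine finite_of_fg_tor fun x => ⟨p, hp, ?_⟩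
  obtain ⟨x, rfl⟩ := Submodule.Quotient.mk_surjective _ x
  rw [← Submodule.Quotient.mk_smul, SQ.mk_eq_zero]
  exact ⟨x, rfl⟩

theorem finite_SQ_t [Module.Finite ℤ M] (hp : p ≠ 0) :
    Finite (SQ (LinearMap.ker (mp (R := R) p M)) (⊥ : Submodule R M)) := by
  have := fg_sub (LinearMap.ker (mp (R := R) p M))
  have : Finite (LinearMap.ker (mp (R := R) p M)) :=
    finite_of_fg_tor fun x => ⟨p, hp, Subtype.ext (LinearMap.mem_ker.mp x.2)⟩
  exact finite_SQ _ _

theorem nq_pos' (hP : GoodP p J P) (hp : p ≠ 0) [Module.Finite ℤ M] : 0 < nq R p P M := by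
  have := finite_SQ_q (R := R) (M := M) hp
  exact nh_pos hP

theorem nt_pos' (hP : GoodP p J P) (hp : p ≠ 0) [Module.Finite ℤ M] : 0 < nt R p P M := by
  have := finite_SQ_t (R := R) (M := M) hp
  exact nh_pos hP

/-- the torsion submodule -/
def torS (R : Type) [Ring R] (M : Type) [AddCommGroup M] [Module R M] : Submodule R M where
  carrier := {x | ∃ n : ℕ, n ≠ 0 ∧ n • x = 0}
  zero_mem' := ⟨1, one_ne_zero, smul_zero _⟩
  add_mem' := by
    rintro a b ⟨n, hn, ha⟩ ⟨m, hm, hb⟩
    refine ⟨n * m, mul_ne_zero hn hm, ?_⟩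
    rw [smul_add, mul_comm n m, mul_smul, ha, smul_zero, zero_add, mul_comm m n, mul_smul, hb,
      smul_zero]
  smul_mem' := by
    rintro c a ⟨n, hn, ha⟩
    exact ⟨n, hn, by rw [smul_comm, ha, smul_zero]⟩

/-- finitely generated modules have index at least one -/
theorem nt_le_nq (hP : GoodP p J P) (hp : p ≠ 0) [Module.Finite ℤ M]
    (hJ : ∀ j ∈ J, ∀ x : M, j • x = 0) : nt R p P M ≤ nq R p P M := by
  set A := torS R M with hA
  have := fg_sub A
  have := fg_quot A
  have hfin : Finite A := finite_of_fg_tor fun x => by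
    obtain ⟨n, hn, hx⟩ := x.2
    exact ⟨n, hn, Subtype.ext hx⟩
  have h1 := nq_eq_nt_of_finite hP _ A rfl (fun j hj x => Subtype.ext (hJ j hj x))
  have h2 : nt R p P (M ⧸ A) = 1 := by
    refine nt_eq_one fun x hx => ?_
    obtain ⟨x, rfl⟩ := Submodule.Quotient.mk_surjective _ x
    rw [← Submodule.Quotient.mk_smul, Submodule.Quotient.mk_eq_zero] at hx
    rw [Submodule.Quotient.mk_eq_zero]
    obtain ⟨n, hn, h3⟩ := hx
    exact ⟨n * p, mul_ne_zero hn hp, by rw [mul_smul, h3]⟩
  have h3 := nq_nt_exact hP A hJ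
  rw [h1, h2, mul_one] at h3
  have h4 : 0 < nt R p P A := nt_pos' hP hp
  have h5 : nq R p P M = nt R p P M * nq R p P (M ⧸ A) := by
    apply Nat.eq_of_mul_eq_mul_right h4
    rw [h3]
    ring
  rw [h5]
  exact Nat.le_mul_of_pos_right _ (nq_pos' hP hp)

/-- **The main inequality** for a map between finitely generated modules. -/
theorem nq_map_le (hP : GoodP p J P) (hp : p ≠ 0) [Module.Finite ℤ M] [Module.Finite ℤ N]
    (hJM : ∀ j ∈ J, ∀ x : M, j • x = 0) (hJN : ∀ j ∈ J, ∀ x : N, j • x = 0) (Θ : M →ₗ[R] N) :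
    nq R p P M * nt R p P (LinearMap.ker Θ) * nt R p P N ≤
      nq R p P N * nt R p P M * nq R p P (LinearMap.ker Θ) := by
  have i1 := fg_sub (LinearMap.ker Θ)
  have i2 := fg_sub (LinearMap.range Θ)
  have i3 := fg_quot (LinearMap.ker Θ)
  have i4 := fg_quot (LinearMap.range Θ)
  have e := Θ.quotKerEquivRange
  have h1 := nq_nt_exact hP (LinearMap.ker Θ) hJM
  rw [nq_congr e, nt_congr e] at h1
  have h2 := nq_nt_exact hP (LinearMap.range Θ) hJN
  have h3 : nt R p P (N ⧸ LinearMap.range Θ) ≤ nq R p P (N ⧸ LinearMap.range Θ) :=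
    nt_le_nq hP hp fun j hj x => by
      obtain ⟨x, rfl⟩ := Submodule.Quotient.mk_surjective _ x
      rw [← Submodule.Quotient.mk_smul, hJN j hj, Submodule.Quotient.mk_zero]
  have p1 : 0 < nt R p P (LinearMap.range Θ) := nt_pos' hP hp
  have p2 : 0 < nq R p P (LinearMap.range Θ) := nq_pos' hP hp
  have p3 : 0 < nt R p P (N ⧸ LinearMap.range Θ) := nt_pos' hP hp
  -- `h(N) ≥ h(range)`
  have h4 : nt R p P N * nq R p P (LinearMap.range Θ) ≤
      nq R p P N * nt R p P (LinearMap.range Θ) := by
    refine Nat.le_of_mul_le_mul_right ?_ p3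
    calc nt R p P N * nq R p P (LinearMap.range Θ) * nt R p P (N ⧸ LinearMap.range Θ)
        ≤ nt R p P N * nq R p P (LinearMap.range Θ) * nq R p P (N ⧸ LinearMap.range Θ) :=
          Nat.mul_le_mul_left _ h3
      _ = nq R p P N * (nt R p P (LinearMap.range Θ) * nt R p P (N ⧸ LinearMap.range Θ)) := by
          rw [h2]; ring
      _ = _ := by ring
  refine Nat.le_of_mul_le_mul_right ?_ p1
  calc nq R p P M * nt R p P (LinearMap.ker Θ) * nt R p P N * nt R p P (LinearMap.range Θ)
      = (nq R p P M * (nt R p P (LinearMap.ker Θ) * nt R p P (LinearMap.range Θ))) *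
          nt R p P N := by ring
    _ = (nt R p P M * nq R p P (LinearMap.ker Θ)) * (nt R p P N * nq R p P (LinearMap.range Θ)) := by
          rw [h1]; ring
    _ ≤ (nt R p P M * nq R p P (LinearMap.ker Θ)) * (nq R p P N * nt R p P (LinearMap.range Θ)) :=
          Nat.mul_le_mul_left _ h4
    _ = _ := by ring

end fg

end Fermat.Agent.EqEu
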