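import Fermat.Agent.EqEu.PlM
import Fermat.Agent.EqEu.Kum

/-!
# The map from functions on places to units: abstract part
-/

set_option autoImplicit false
set_option linter.unusedSectionVars false

namespace Fermat.Agent.EqEu

open Fermat.Agent.PT Module Fermat.Agent.Coh

section sums

variable {Γ : Type} [Group Γ] {U₀ : Subgroup Γ} [hN : U₀.Normal] {B : Type*}

theorem out_eq {F : Γ → B} (hF : ∀ g, ∀ n ∈ U₀, F (g * n) = F g) (g : Γ) :
    F (g : Γ ⧸ U₀).out = F g := by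
  obtain ⟨u, hu⟩ := QuotientGroup.mk_out_eq_mul U₀ g
  rw [hu, hF _ _ u.2]

variable [Fintype (Γ ⧸ U₀)] [AddCommMonoid B]

theorem sum_right {F : Γ → B} (hF : ∀ g, ∀ n ∈ U₀, F (g * n) = F g) (g : Γ) :
    ∑ x : Γ ⧸ U₀, F (x.out * g) = ∑ x : Γ ⧸ U₀, F x.out := by
  rw [← Equiv.sum_comp (Equiv.mulRight (g : Γ ⧸ U₀)) (fun x => F x.out)]
  refine Finset.sum_congr rfl fun x _ => ?_
  rw [← out_eq hF (x.out * g)]
  congr 2
  rw [Equiv.coe_mulRight, QuotientGroup.mk_mul, QuotientGroup.out_eq']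

theorem sum_left {F : Γ → B} (hF : ∀ g, ∀ n ∈ U₀, F (g * n) = F g) (g : Γ) :
    ∑ x : Γ ⧸ U₀, F (g * x.out) = ∑ x : Γ ⧸ U₀, F x.out := by
  rw [← Equiv.sum_comp (Equiv.mulLeft (g : Γ ⧸ U₀)) (fun x => F x.out)]
  refine Finset.sum_congr rfl fun x _ => ?_
  rw [← out_eq hF (g * x.out)]
  congr 2
  rw [Equiv.coe_mulLeft, QuotientGroup.mk_mul, QuotientGroup.out_eq']

theorem sum_refl {F : Γ → B} (hF : ∀ g, ∀ n ∈ U₀, F (g * n) = F g) (g : Γ) :
    ∑ x : Γ ⧸ U₀, F (g * x.out⁻¹) = ∑ x : Γ ⧸ U₀, F x.out := by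
  rw [← Equiv.sum_comp ((Equiv.inv (Γ ⧸ U₀)).trans (Equiv.mulLeft (g : Γ ⧸ U₀)))
    (fun x => F x.out)]
  refine Finset.sum_congr rfl fun x _ => ?_
  rw [← out_eq hF (g * x.out⁻¹)]
  congr 2
  rw [Equiv.trans_apply, Equiv.coe_mulLeft, Equiv.inv_apply, QuotientGroup.mk_mul,
    QuotientGroup.mk_inv, QuotientGroup.out_eq']

end sums

section theta

variable {Γ : Type} [Group Γ] {U H U₀ : Subgroup Γ} [hN : U₀.Normal] [Fintype (Γ ⧸ U₀)]
  (hn : ∀ h ∈ H, ∀ u ∈ U, h * u * h⁻¹ ∈ U) (hU₀ : U₀ ≤ U)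
  {A : Type} [AddCommGroup A] (ρ : Representation ℤ Γ A) {ι : Type} [Fintype ι]
  (D : ι → Subgroup Γ) (u : ι → A) (hu : ∀ i, ∀ n ∈ U₀, ρ n (u i) = u i)

/-- the map from functions on places, one component -/
noncomputable def th (U₀ : Subgroup Γ) [Fintype (Γ ⧸ U₀)] (v : A) {E : Subgroup Γ} :
    XM hn ℤ E →+ A where
  toFun f := ∑ x : Γ ⧸ U₀, fn hn f x.out • ρ (x.out)⁻¹ v
  map_zero' := Finset.sum_eq_zero fun x _ => by rw [fn_zero, zero_smul]
  map_add' f f' := by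
    rw [← Finset.sum_add_distrib]
    exact Finset.sum_congr rfl fun x _ => by rw [fn_add, add_smul]

theorem th_apply (v : A) {E : Subgroup Γ} (f : XM hn ℤ E) :
    th hn ρ U₀ v f = ∑ x : Γ ⧸ U₀, fn hn f x.out • ρ (x.out)⁻¹ v := rfl

include hU₀ in
theorem th_inv {v : A} (hv : ∀ n ∈ U₀, ρ n v = v) {E : Subgroup Γ} (f : XM hn ℤ E) (g : Γ) :
    ∀ n ∈ U₀, fn hn f (g * n) • ρ (g * n)⁻¹ v = fn hn f g • ρ g⁻¹ v := by
  intro n hn1
  rw [fn_right hn f (hU₀ hn1)]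
  congr 1
  have h1 : (g * n)⁻¹ = g⁻¹ * (g * n⁻¹ * g⁻¹) := by group
  rw [h1, map_mul, Module.End.mul_apply, hv _ (hN.conj_mem _ (U₀.inv_mem hn1) g)]

include hU₀ in
theorem th_translate {v : A} (hv : ∀ n ∈ U₀, ρ n v = v) {E : Subgroup Γ}
    (f f' : XM hn ℤ E) (g : Γ) (hf : ∀ y, fn hn f' y = fn hn f (y * g)) :
    ρ g (th hn ρ U₀ v f) = th hn ρ U₀ v f' := by
  rw [th_apply, th_apply, map_sum]
  have h1 : ∀ x : Γ ⧸ U₀, ρ g (fn hn f x.out • ρ (x.out)⁻¹ v) =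
      (fun y => fn hn f' y • ρ y⁻¹ v) (x.out * g⁻¹) := by
    intro x
    simp only
    rw [map_zsmul, hf, inv_mul_cancel_right, mul_inv_rev, inv_inv, map_mul, Module.End.mul_apply]
  rw [Finset.sum_congr rfl fun x _ => h1 x,
    sum_right (F := fun y => fn hn f' y • ρ y⁻¹ v) (fun y => th_inv hn hU₀ ρ hv f' y) g⁻¹]

include hU₀ in
theorem th_fixed {v : A} (hv : ∀ n ∈ U₀, ρ n v = v) {E : Subgroup Γ} (f : XM hn ℤ E) {w : Γ}
    (hw : w ∈ U) : ρ w (th hn ρ U₀ v f) = th hn ρ U₀ v f :=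
  th_translate hn hU₀ ρ hv f f w fun y => (fn_right hn f hw y).symm

/-- the map from functions on places -/
noncomputable def Th : XA hn ℤ D →ₗ[MonoidAlgebra ℤ H] GM (rep ρ H) :=
  mkHom ((ofG (rep ρ H)).comp (∑ i, (th hn ρ U₀ (u i)).comp (prX hn D i).toAddMonoidHom))
    fun h x => by
      rw [AddMonoidHom.comp_apply, AddMonoidHom.comp_apply, smul_ofG]
      congr 1
      rw [AddMonoidHom.finsetSum_apply, AddMonoidHom.finsetSum_apply]
      change _ = ρ (h : Γ) _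
      rw [map_sum]
      refine Finset.sum_congr rfl fun i _ => ?_
      symm
      refine th_translate hn hU₀ ρ (hu i) _ _ (h : Γ) fun y => ?_
      change fn hn (prX hn D i (MonoidAlgebra.of ℤ H h • x)) y = _
      rw [map_smul, fn_of_smul]
      rfl

theorem toV_Th (x : XA hn ℤ D) : toV _ (Th hn hU₀ ρ D u hu x) =
    ∑ i, th hn ρ U₀ (u i) (prX hn D i x) := by
  change (∑ i, (th hn ρ U₀ (u i)).comp (prX hn D i).toAddMonoidHom) x = _
  rw [AddMonoidHom.finsetSum_apply]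
  rfl

theorem Th_fixed (x : XA hn ℤ D) {w : Γ} (hw : w ∈ U) :
    ρ w (toV _ (Th hn hU₀ ρ D u hu x)) = toV _ (Th hn hU₀ ρ D u hu x) := by
  rw [toV_Th, map_sum]
  exact Finset.sum_congr rfl fun i _ => th_fixed hn hU₀ ρ (hu i) _ hw

end theta

section kernel

variable {Γ : Type} [Group Γ] {U H U₀ : Subgroup Γ} [hN : U₀.Normal] [Fintype (Γ ⧸ U₀)]
  (hn : ∀ h ∈ H, ∀ u ∈ U, h * u * h⁻¹ ∈ U) (hU₀ : U₀ ≤ U)
  {A : Type} [AddCommGroup A] (ρ : Representation ℤ Γ A) {κ : Type} [Fintype κ]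
  (D : Option κ → Subgroup Γ) (u : Option κ → A) (hu : ∀ i, ∀ n ∈ U₀, ρ n (u i) = u i)

omit [Fintype (Γ ⧸ U₀)] in
include hU₀ in
theorem fn_eq_of_mem {E : Subgroup Γ} (f : XM hn ℤ E) {g y : Γ}
    (h : ∃ d ∈ E, ∃ n ∈ U₀, g * y⁻¹ = d * n) : fn hn f y = fn hn f g := by
  obtain ⟨d, hd, n, hn1, hdn⟩ := h
  have h1 : y = d⁻¹ * (g * (g⁻¹ * (d * n⁻¹ * d⁻¹) * g)) := by
    have : y = (g * y⁻¹)⁻¹ * g := by group
    rw [this, hdn]
    group
  have h2 : g⁻¹ * (d * n⁻¹ * d⁻¹) * g ∈ U₀ := by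
    have := hN.conj_mem _ (hN.conj_mem _ (U₀.inv_mem hn1) d) g⁻¹
    simpa using this
  rw [h1, fn_left hn f (E.inv_mem hd), fn_right hn f (hU₀ h2)]

set_option maxHeartbeats 400000 in
theorem Th_kernel (L : Option κ → Γ → A →+ ℝ)
    (L1 : ∀ i g h a, L i g (ρ h a) = L i (g * h) a)
    (L2 : ∀ i, ∀ d ∈ D i, ∀ g a, L i (d * g) a = L i g a)
    (H1 : ∀ l j, j ≠ some l → ∀ g, L (some l) g (u j) = 0)
    (H2 : ∀ l g, (¬ ∃ d ∈ D (some l), ∃ n ∈ U₀, g = d * n) → L (some l) g (u (some l)) = 0)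
    (H3 : ∀ l, L (some l) 1 (u (some l)) < 0)
    (H4 : ∀ g, (¬ ∃ d ∈ D none, ∃ n ∈ U₀, g = d * n) → L none g (u none) < 0)
    (H5 : ∑ x : Γ ⧸ U₀, L none x.out (u none) = 0) (f : XA hn ℤ D)
    (hf : Th hn hU₀ ρ D u hu f = 0) :
    (∀ l, prX hn D (some l) f = 0) ∧ ∃ c, ∀ g, fn hn (prX hn D none f) g = c := by
  classical
  have key : ∀ i g, ∑ j, ∑ x : Γ ⧸ U₀, ((fn hn (prX hn D j f) x.out : ℤ) : ℝ) *
      L i (g * x.out⁻¹) (u j) = 0 := by
    intro i g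
    have h1 : L i g (∑ i, th hn ρ U₀ (u i) (prX hn D i f)) = 0 := by
      rw [← toV_Th hn hU₀ ρ D u hu f, hf, map_zero, map_zero]
    rw [map_sum] at h1
    rw [← h1]
    refine Finset.sum_congr rfl fun j _ => ?_
    rw [th_apply, map_sum]
    refine Finset.sum_congr rfl fun x _ => ?_
    rw [map_zsmul, L1, zsmul_eq_mul]
  have Linv : ∀ i j g, ∀ n ∈ U₀, L i (g * n) (u j) = L i g (u j) := by
    intro i j g n hn1
    rw [← L1, hu j n hn1]
  have hone : ∀ g : Γ, g * (g : Γ ⧸ U₀).out⁻¹ ∈ U₀ := by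
    intro g
    obtain ⟨w, hw⟩ := QuotientGroup.mk_out_eq_mul U₀ g
    rw [hw]
    have h3 : g * (g * (w : Γ))⁻¹ = g * (w : Γ)⁻¹ * g⁻¹ := by group
    rw [h3]
    exact hN.conj_mem _ (U₀.inv_mem w.2) g
  have hfin : ∀ l, prX hn D (some l) f = 0 := by
    intro l
    refine fn_ext hn fun g => ?_
    rw [fn_zero]
    have h1 := key (some l) g
    have h2 : ∀ j ∈ (Finset.univ : Finset (Option κ)), j ≠ some l →
        ∑ x : Γ ⧸ U₀, ((fn hn (prX hn D j f) x.out : ℤ) : ℝ) * L (some l) (g * x.out⁻¹) (u j) = 0 := by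
      intro j _ hj
      exact Finset.sum_eq_zero fun x _ => by rw [H1 l j hj, mul_zero]
    rw [Finset.sum_eq_single_of_mem (some l) (Finset.mem_univ _) h2] at h1
    have h3 : ∀ x : Γ ⧸ U₀, ((fn hn (prX hn D (some l) f) x.out : ℤ) : ℝ) *
        L (some l) (g * x.out⁻¹) (u (some l)) = ((fn hn (prX hn D (some l) f) g : ℤ) : ℝ) *
        L (some l) (g * x.out⁻¹) (u (some l)) := by
      intro x
      by_cases hx : ∃ d ∈ D (some l), ∃ n ∈ U₀, g * x.out⁻¹ = d * n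
      · rw [fn_eq_of_mem hn hU₀ _ hx]
      · rw [H2 l _ hx, mul_zero, mul_zero]
    rw [Finset.sum_congr rfl fun x _ => h3 x, ← Finset.mul_sum] at h1
    have h4 : ∀ x : Γ ⧸ U₀, L (some l) (g * x.out⁻¹) (u (some l)) ≤ 0 := by
      intro x
      by_cases hx : ∃ d ∈ D (some l), ∃ n ∈ U₀, g * x.out⁻¹ = d * n
      · obtain ⟨d, hd, n, hn1, hdn⟩ := hx
        rw [hdn, Linv _ _ _ n hn1]
        have : L (some l) d (u (some l)) = L (some l) 1 (u (some l)) := by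
          have := L2 (some l) d hd 1 (u (some l))
          rwa [mul_one] at this
        rw [this]
        exact (H3 l).le
      · rw [H2 l _ hx]
    have h5 : ∑ x : Γ ⧸ U₀, L (some l) (g * x.out⁻¹) (u (some l)) < 0 := by
      refine Finset.sum_neg' (fun x _ => h4 x) ⟨(g : Γ ⧸ U₀), Finset.mem_univ _, ?_⟩
      have h6 : L (some l) (g * (g : Γ ⧸ U₀).out⁻¹) (u (some l)) = L (some l) 1 (u (some l)) := by
        have := Linv (some l) (some l) 1 _ (hone g)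
        rwa [one_mul] at this
      rw [h6]
      exact H3 l
    have h6 := (mul_eq_zero.mp h1).resolve_right h5.ne
    exact_mod_cast h6
  refine ⟨hfin, ?_⟩
  have key2 : ∀ g, ∑ x : Γ ⧸ U₀, ((fn hn (prX hn D none f) x.out : ℤ) : ℝ) *
      L none (g * x.out⁻¹) (u none) = 0 := by
    intro g
    have h1 := key none g
    have h2 : ∀ j ∈ (Finset.univ : Finset (Option κ)), j ≠ none →
        ∑ x : Γ ⧸ U₀, ((fn hn (prX hn D j f) x.out : ℤ) : ℝ) * L none (g * x.out⁻¹) (u j) = 0 := by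
      intro j _ hj
      obtain ⟨l, rfl⟩ := Option.ne_none_iff_exists'.mp hj
      exact Finset.sum_eq_zero fun x _ => by rw [hfin l, fn_zero, Int.cast_zero, zero_mul]
    rwa [Finset.sum_eq_single_of_mem none (Finset.mem_univ _) h2] at h1
  have hsum : ∀ g, ∑ x : Γ ⧸ U₀, L none (g * x.out⁻¹) (u none) = 0 := by
    intro g
    rw [sum_refl (F := fun y => L none y (u none)) (fun y n hn1 => Linv _ _ y n hn1) g]
    exact H5
  haveI : Nonempty (Γ ⧸ U₀) := ⟨(1 : Γ)⟩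
  obtain ⟨x₀, hx₀⟩ := Finite.exists_min (fun x : Γ ⧸ U₀ => fn hn (prX hn D none f) x.out)
  set m := fn hn (prX hn D none f) x₀.out with hm
  have h1 : ∑ x : Γ ⧸ U₀, (((fn hn (prX hn D none f) x.out : ℤ) : ℝ) - m) *
      L none (x₀.out * x.out⁻¹) (u none) = 0 := by
    simp only [sub_mul]
    rw [Finset.sum_sub_distrib, key2, ← Finset.mul_sum, hsum, mul_zero, sub_zero]
  have h2 : ∀ x : Γ ⧸ U₀, (((fn hn (prX hn D none f) x.out : ℤ) : ℝ) - m) *
      L none (x₀.out * x.out⁻¹) (u none) ≤ 0 := by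
    intro x
    by_cases hx : ∃ d ∈ D none, ∃ n ∈ U₀, x₀.out * x.out⁻¹ = d * n
    · rw [fn_eq_of_mem hn hU₀ _ hx, hm, sub_self, zero_mul]
    · refine mul_nonpos_of_nonneg_of_nonpos ?_ (H4 _ hx).le
      rw [sub_nonneg]
      exact_mod_cast hx₀ x
  have h3 := (Finset.sum_eq_zero_iff_of_nonpos fun x _ => h2 x).mp h1
  refine ⟨m, fun g => ?_⟩
  have h4 : fn hn (prX hn D none f) (g : Γ ⧸ U₀).out = fn hn (prX hn D none f) g :=
    out_eq (F := fn hn (prX hn D none f)) (fun y n hn1 => fn_right hn _ (hU₀ hn1) y) g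
  rw [← h4]
  by_cases hx : ∃ d ∈ D none, ∃ n ∈ U₀, x₀.out * (g : Γ ⧸ U₀).out⁻¹ = d * n
  · rw [fn_eq_of_mem hn hU₀ _ hx]
  · have h5 := h3 (g : Γ ⧸ U₀) (Finset.mem_univ _)
    have h6 := (mul_eq_zero.mp h5).resolve_right (H4 _ hx).ne
    have h7 : ((fn hn (prX hn D none f) (g : Γ ⧸ U₀).out : ℤ) : ℝ) = m := sub_eq_zero.mp h6
    exact_mod_cast h7

end kernel

section fp

variable (p : ℕ) [Fact p.Prime] (G : Type) [Group G]

/-- the trivial module `ZMod p` -/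
abbrev Fp : Type := GM (1 : Representation (ZMod p) G (ZMod p))

variable {p G} {J : Set (MonoidAlgebra ℤ G)} {P : Type} [AddCommGroup P]
  [Module (MonoidAlgebra ℤ G) P]

theorem nq_le_Fp (hP : GoodP p J P) {A : Type} [AddCommGroup A] [Module (MonoidAlgebra ℤ G) A]
    (ε : A →+ ℤ) (hε : Function.Injective ε)
    (hinv : ∀ (h : G) (a : A), ε (MonoidAlgebra.of ℤ G h • a) = ε a) :
    nq (MonoidAlgebra ℤ G) p P A ≤ nh (MonoidAlgebra ℤ G) P (Fp p G) := by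
  have hfF : Finite (Fp p G) := inferInstanceAs (Finite (ZMod p))
  obtain ⟨n, hn⟩ := Int.subgroup_cyclic ε.range
  have hn' : ∀ a, ∃ q : ℤ, ε a = q * n := by
    intro a
    have h1 : ε a ∈ ε.range := ⟨a, rfl⟩
    rw [hn, AddSubgroup.mem_closure_singleton] at h1
    obtain ⟨q, hq⟩ := h1
    exact ⟨q, by rw [← hq, smul_eq_mul]⟩
  by_cases hn0 : n = 0
  · have h0 : ∀ a : A, a = 0 := by
      intro a
      obtain ⟨q, hq⟩ := hn' a
      apply hε
      rw [hq, hn0, mul_zero, map_zero]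
    rw [nq_eq_one fun x => ⟨0, by rw [h0 x, smul_zero]⟩]
    exact nh_pos hP
  · choose q hq using hn'
    obtain ⟨a₀, ha₀⟩ : n ∈ ε.range := by
      rw [hn]
      exact AddSubgroup.subset_closure rfl
    have hqa : ∀ a b, q (a + b) = q a + q b := by
      intro a b
      have h1 : q (a + b) * n = (q a + q b) * n := by rw [← hq, map_add, hq, hq]; ring
      exact mul_right_cancel₀ hn0 h1
    have hq0 : ∀ k : ℤ, q (k • a₀) = k := by
      intro k
      have h1 : q (k • a₀) * n = k * n := by rw [← hq, map_zsmul, ha₀, smul_eq_mul]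
      exact mul_right_cancel₀ hn0 h1
    let f : A →ₗ[MonoidAlgebra ℤ G] Fp p G :=
      mkHom (AddMonoidHom.mk' (fun a => ofG _ ((q a : ℤ) : ZMod p)) (fun a b => by
        rw [hqa, Int.cast_add, map_add])) fun h a => by
        have h1 : q (MonoidAlgebra.of ℤ G h • a) = q a := by
          have h2 : q (MonoidAlgebra.of ℤ G h • a) * n = q a * n := by rw [← hq, hinv, hq]
          exact mul_right_cancel₀ hn0 h2
        change ofG _ ((q (MonoidAlgebra.of ℤ G h • a) : ℤ) : ZMod p) =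
          MonoidAlgebra.of ℤ G h • ofG _ ((q a : ℤ) : ZMod p)
        rw [h1, smul_ofG]
        rfl
    have hf : ∀ a, f a = ofG _ ((q a : ℤ) : ZMod p) := fun a => rfl
    refine le_of_eq (nh_SQ_eq f (fun y => ?_) fun a _ => ?_)
    · refine ⟨(((toV _ y : ZMod p).val : ℕ) : ℤ) • a₀, trivial, ?_⟩
      rw [hf, hq0, Int.cast_natCast]
      apply toV_injective
      rw [toV_ofG]
      haveI : NeZero p := ⟨(Fact.out : p.Prime).ne_zero⟩
      exact ZMod.natCast_zmod_val _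
    · rw [hf]
      constructor
      · intro h
        have h1 : ((q a : ℤ) : ZMod p) = 0 := h
        obtain ⟨k, hk⟩ := (ZMod.intCast_zmod_eq_zero_iff_dvd _ p).mp h1
        refine ⟨k • a₀, ?_⟩
        apply hε
        rw [mp_apply, map_nsmul, map_zsmul, ha₀, hq a, hk, nsmul_eq_mul, smul_eq_mul]
        ring
      · rintro ⟨b, rfl⟩
        have h1 : q (p • b) = p * q b := by
          have h2 : q (p • b) * n = (p * q b) * n := by
            rw [← hq, map_nsmul, hq, nsmul_eq_mul]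
            ring
          exact mul_right_cancel₀ hn0 h2
        rw [mp_apply, h1]
        apply toV_injective
        rw [toV_ofG, Int.cast_mul, Int.cast_natCast, ZMod.natCast_self, zero_mul, map_zero]

end fp

end Fermat.Agent.EqEu
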