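import Fermat.Agent.EqEu.LocM
import Fermat.Agent.EqEu.Theta

/-!
# The sum of the invariants
-/

set_option autoImplicit false
set_option linter.unusedSectionVars false
set_option linter.style.haveILetI false

namespace Fermat.Agent.EqEu

open Fermat.Agent.Coh Fermat.Agent.GCFT Fermat.Agent.GlobalCFT Fermat.Agent.PT Fermat.Agent.GalD
  Fermat.Agent.LocalCFT Module ExtCitation

/-- The field of algebraic numbers. -/
local notation "Qb" => AlgebraicClosure ℚ
/-- The absolute Galois group. -/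
local notation "GQ" => (AlgebraicClosure ℚ ≃ₐ[ℚ] AlgebraicClosure ℚ)

variable {p : ℕ} [hp : Fact p.Prime] {S : Finset Nat.Primes}
  {U H : Subgroup (AlgebraicClosure ℚ ≃ₐ[ℚ] AlgebraicClosure ℚ)}
variable (hn : ∀ h ∈ H, ∀ u ∈ U, h * u * h⁻¹ ∈ U)

section one

variable (l : Nat.Primes)

theorem fn_cl (x : XM hn (ZMod p) (rl l).range) {g g' : GQ}
    (h : cl (rl l) U g = cl (rl l) U g') : fn hn x g = fn hn x g' := by
  obtain ⟨δ, u, hu, rfl⟩ := (cl_eq_iff _ _).mp h
  rw [fn_right hn x hu, fn_left hn x ⟨δ, rfl⟩]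

include hn in
theorem cl_mul {x x' : GQ} (h : H) (hx : cl (rl l) U x = cl (rl l) U x') :
    cl (rl l) U (x * h) = cl (rl l) U (x' * h) := by
  obtain ⟨δ, u, hu, rfl⟩ := (cl_eq_iff _ _).mp hx
  rw [cl_eq_iff]
  exact ⟨δ, (h : GQ)⁻¹ * u * h, hn' hn h u hu, by group⟩

/-- right translation of places -/
noncomputable def tr (h : H) (c : Pl (rl l) U) : Pl (rl l) U := cl (rl l) U (c.out * h)

theorem cl_out (c : Pl (rl l) U) : cl (rl l) U c.out = c := Quotient.out_eq c

include hn in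
theorem tr_bij (h : H) : Function.Bijective (tr l h : Pl (rl l) U → Pl (rl l) U) := by
  have h1 : ∀ (h h' : H), (h : H) * h' = 1 → ∀ c : Pl (rl l) U, tr l h' (tr l h c) = c := by
    intro h h' hh c
    have e1 : cl (rl l) U ((tr l h c).out) = cl (rl l) U (c.out * h) := cl_out l _
    have e2 := cl_mul hn l h' e1
    change cl (rl l) U ((tr l h c).out * h') = c
    rw [e2, mul_assoc]
    have e3 : (h : GQ) * (h' : GQ) = 1 := congrArg Subtype.val hh
    rw [e3, mul_one, cl_out]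
  refine ⟨fun a b hab => ?_, fun c => ⟨tr l h⁻¹ c, h1 _ _ (inv_mul_cancel h) c⟩⟩
  rw [← h1 _ _ (mul_inv_cancel h) a, ← h1 _ _ (mul_inv_cancel h) b, hab]

end one

variable [∀ l : Nat.Primes, Fintype (Pl (rl l) U)]

/-- the sum over all places -/
noncomputable def sX : XA hn (ZMod p) (DF S) →ₗ[MonoidAlgebra ℤ H] Fp p H :=
  mkHom (AddMonoidHom.mk' (fun x => ofG _
      (∑ l : ↥S, ∑ c : Pl (rl (l : Nat.Primes)) U, fn hn (prX hn (DF S) l x) c.out))
    (fun x y => by
      rw [← map_add]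
      congr 1
      simp only [map_add, fn_add, Finset.sum_add_distrib]))
    fun h x => by
      change ofG _ (∑ l : ↥S, ∑ c : Pl (rl (l : Nat.Primes)) U,
          fn hn (prX hn (DF S) l (MonoidAlgebra.of ℤ H h • x)) c.out) =
        MonoidAlgebra.of ℤ H h • ofG _ (∑ l : ↥S, ∑ c : Pl (rl (l : Nat.Primes)) U,
          fn hn (prX hn (DF S) l x) c.out)
      rw [smul_ofG]
      congr 1
      refine Finset.sum_congr rfl fun l _ => ?_
      rw [LinearMap.map_smul, ← (tr_bij hn (l : Nat.Primes) h).sum_comp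
        (fun c => fn hn (prX hn (DF S) l x) c.out)]
      refine Finset.sum_congr rfl fun c _ => ?_
      rw [fn_of_smul]
      exact fn_cl hn (l : Nat.Primes) _ (cl_out (l : Nat.Primes) _).symm

theorem sX_apply (x : XA hn (ZMod p) (DF S)) : sX hn x = ofG _
      (∑ l : ↥S, ∑ c : Pl (rl (l : Nat.Primes)) U, fn hn (prX hn (DF S) l x) c.out) := rfl

theorem sX_surjective (hS : S.Nonempty) : Function.Surjective (sX (p := p) (S := S) hn) := by
  classical
  intro a
  obtain ⟨l₀, hl₀⟩ := hS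
  let x : XA hn (ZMod p) (DF S) := mkA hn fun l => mkX hn
    (fun g => if (l : Nat.Primes) = l₀ ∧ cl (rl (l : Nat.Primes)) U g = cl (rl (l : Nat.Primes)) U 1
      then toV _ a else 0)
    (fun d hd g => by
      obtain ⟨δ, rfl⟩ := hd
      have : cl (rl (l : Nat.Primes)) U (rl (l : Nat.Primes) δ * g) =
          cl (rl (l : Nat.Primes)) U g :=
        ((cl_eq_iff _ _).mpr ⟨δ, 1, U.one_mem, by rw [mul_one]⟩).symm
      rw [this])
    (fun g u hu => by
      have : cl (rl (l : Nat.Primes)) U (g * u) = cl (rl (l : Nat.Primes)) U g :=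
        ((cl_eq_iff _ _).mpr ⟨1, u, hu, by rw [map_one, one_mul]⟩).symm
      rw [this])
  refine ⟨x, ?_⟩
  rw [sX_apply]
  apply toV_injective
  rw [toV_ofG, Finset.sum_eq_single (⟨l₀, hl₀⟩ : ↥S)]
  · rw [Finset.sum_eq_single (cl (rl l₀) U 1)]
    · change (if l₀ = l₀ ∧ cl (rl l₀) U (cl (rl l₀) U 1).out = cl (rl l₀) U 1 then toV _ a
        else 0) = _
      rw [if_pos ⟨rfl, cl_out l₀ _⟩]
    · intro c _ hc
      change (if l₀ = l₀ ∧ cl (rl l₀) U c.out = cl (rl l₀) U 1 then toV _ a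
        else 0) = _
      rw [if_neg]
      rintro ⟨-, h⟩
      exact hc ((cl_out l₀ c).symm.trans h)
    · intro h
      exact absurd (Finset.mem_univ _) h
  · intro l _ hl
    refine Finset.sum_eq_zero fun c _ => ?_
    change (if (l : Nat.Primes) = l₀ ∧ _ then toV _ a else 0) = _
    rw [if_neg]
    rintro ⟨h, -⟩
    exact hl (Subtype.ext h)
  · intro h
    exact absurd (Finset.mem_univ _) h

theorem sX_lM (hp2 : p ≠ 2) (hU : (famS S).IsOpen U) (hpS : pPrime p ∈ S) (y : M2 hn S p) :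
    sX hn (lM hp2 hU hn y) = 0 := by
  rw [sX_apply]
  have := sum_lx hp2 hU hpS (toV _ y)
  rw [← map_zero (ofG _), ← this]
  rfl

end Fermat.Agent.EqEu
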