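import Fermat.Agent.EqEu.Theta

/-!
# Minkowski units and `S`-units with prescribed divisor
-/

set_option autoImplicit false
set_option linter.unusedSectionVars false

namespace Fermat.Agent.EqEu

open Fermat.Agent.Coh Fermat.Agent.GCFT Fermat.Agent.GlobalCFT Fermat.Agent.PT Fermat.Agent.GalD
  Fermat.Agent.LocalCFT Module ExtCitation NumberField IsDedekindDomain

/-- The field of algebraic numbers. -/
local notation "Qb" => AlgebraicClosure ℚ
/-- The absolute Galois group. -/
local notation "GQ" => (AlgebraicClosure ℚ ≃ₐ[ℚ] AlgebraicClosure ℚ)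

variable {S : Finset Nat.Primes} {W : Subgroup (AlgebraicClosure ℚ ≃ₐ[ℚ] AlgebraicClosure ℚ)}

/-- the underlying algebraic number -/
noncomputable def vl (a : KS S) : AlgebraicClosure ℚ := ((a : Additive Qbˣ).toMul : Qb)

theorem vl_ne_zero (a : KS S) : vl a ≠ 0 := Units.ne_zero _

theorem vl_add (a b : KS S) : vl (a + b) = vl a * vl b := rfl

theorem vl_zero : vl (0 : KS S) = 1 := rfl

theorem vl_repK (g : GQ) (a : KS S) : vl (repK S g a) = g (vl a) := rfl

/-- logarithm of a `l`-adic absolute value -/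
noncomputable def Lf (S : Finset Nat.Primes) (l : Nat.Primes)
    (g : AlgebraicClosure ℚ ≃ₐ[ℚ] AlgebraicClosure ℚ) : KS S →+ ℝ where
  toFun a := Real.log ‖il l (g (vl a))‖
  map_zero' := by rw [vl_zero, map_one, map_one, norm_one, Real.log_one]
  map_add' a b := by
    rw [vl_add, map_mul, map_mul, norm_mul, Real.log_mul]
    · exact norm_ne_zero_iff.mpr ((map_ne_zero _).mpr ((map_ne_zero _).mpr (vl_ne_zero a)))
    · exact norm_ne_zero_iff.mpr ((map_ne_zero _).mpr ((map_ne_zero _).mpr (vl_ne_zero b)))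

/-- logarithm of the complex absolute value -/
noncomputable def Li (S : Finset Nat.Primes)
    (g : AlgebraicClosure ℚ ≃ₐ[ℚ] AlgebraicClosure ℚ) : KS S →+ ℝ where
  toFun a := Real.log ‖complexEmbedding (g (vl a))‖
  map_zero' := by rw [vl_zero, map_one, map_one, norm_one, Real.log_one]
  map_add' a b := by
    rw [vl_add, map_mul, map_mul, norm_mul, Real.log_mul]
    · exact norm_ne_zero_iff.mpr ((map_ne_zero _).mpr ((map_ne_zero _).mpr (vl_ne_zero a)))
    · exact norm_ne_zero_iff.mpr ((map_ne_zero _).mpr ((map_ne_zero _).mpr (vl_ne_zero b)))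

theorem Lf_apply (l : Nat.Primes) (g : GQ) (a : KS S) :
    Lf S l g a = Real.log ‖il l (g (vl a))‖ := rfl

theorem Li_apply (g : GQ) (a : KS S) : Li S g a = Real.log ‖complexEmbedding (g (vl a))‖ := rfl

/-- the decomposition groups -/
noncomputable def DS (S : Finset Nat.Primes) :
    Option ↥S → Subgroup (AlgebraicClosure ℚ ≃ₐ[ℚ] AlgebraicClosure ℚ)
  | none => Subgroup.zpowers complexConjugation
  | some l => (rl (l : Nat.Primes)).range

/-- the logarithms -/
noncomputable def LS (S : Finset Nat.Primes) :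
    Option ↥S → (AlgebraicClosure ℚ ≃ₐ[ℚ] AlgebraicClosure ℚ) → KS S →+ ℝ
  | none => Li S
  | some l => Lf S l

theorem LS_one (i : Option ↥S) (g h : GQ) (a : KS S) : LS S i g (repK S h a) = LS S i (g * h) a := by
  cases i with
  | none => rfl
  | some l => rfl

theorem norm_cc (z : Qb) : ‖complexEmbedding (complexConjugation z)‖ = ‖complexEmbedding z‖ := by
  rw [complexEmbedding_complexConjugation]
  exact RCLike.norm_conj _

theorem LS_two (i : Option ↥S) : ∀ d ∈ DS S i, ∀ (g : GQ) (a : KS S),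
    LS S i (d * g) a = LS S i g a := by
  intro d hd g a
  cases i with
  | none =>
    change Real.log ‖complexEmbedding ((d * g) (vl a))‖ = Real.log ‖complexEmbedding (g (vl a))‖
    obtain ⟨n, rfl⟩ := Subgroup.mem_zpowers_iff.mp hd
    congr 1
    rw [AlgEquiv.mul_apply]
    rcases Int.even_or_odd' n with ⟨k, rfl | rfl⟩
    · rw [zpow_mul, zpow_ofNat, complexConjugation_sq, one_zpow, AlgEquiv.one_apply]
    · rw [zpow_add, zpow_mul, zpow_ofNat, complexConjugation_sq, one_zpow, one_mul, zpow_one,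
        norm_cc]
  | some l =>
    change Real.log ‖il (l : Nat.Primes) ((d * g) (vl a))‖ =
      Real.log ‖il (l : Nat.Primes) (g (vl a))‖
    obtain ⟨δ, rfl⟩ := hd
    rw [AlgEquiv.mul_apply, il_rl, norm_gal]

theorem log_norm_of_val {l : Nat.Primes} (hW : (famS S).IsOpen W) [NumberField (FFd W)]
    (x : (FFd W)ˣ) (g : GQ) (h : (primeOf (phx l W g)).valuation (FFd W) (x : FFd W) = 1) :
    Lf S l g (toKS hW x).toAdd = 0 := by
  rw [valuation_eq_one_iff] at h
  change Real.log ‖il l (g ((x : FFd W) : Qb))‖ = 0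
  rw [phx_apply] at h
  rw [h, Real.log_one]

/-- an `S`-unit with divisor supported at one place -/
theorem exists_unit_fin (hW : (famS S).IsOpen W) (hS : S.Nonempty) (l : ↥S) :
    ∃ u : KS S, (∀ n ∈ W, repK S n u = u) ∧ dk S u = 0 ∧
      (∀ j : ↥S, j ≠ l → ∀ g, Lf S j g u = 0) ∧
      (∀ g, (¬ ∃ d ∈ (rl (l : Nat.Primes)).range, ∃ n ∈ W, g = d * n) → Lf S l g u = 0) ∧
      Lf S l 1 u < 0 := by
  have hWo := isOpen_of_famS hW
  haveI := numberField_FFd hWo
  set v := primeOf (phx (l : Nat.Primes) W 1) with hv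
  obtain ⟨x, hx1, hx2⟩ := exists_gen v
  have hET : x ∈ ET (TW S W hWo) := by
    rw [mem_ET]
    intro w hw
    apply hx1
    rintro rfl
    exact hw ((mem_TW hWo).mpr ⟨l, l.2, natCast_mem_primeOf _⟩)
  have hdk : toKS hW x ∈ AddSubgroup.toSubgroup (FKU S W) ⊓
      (AddMonoidHom.toMultiplicative (dk S)).ker := by
    rw [← map_ET_toKS hS hW]
    exact ⟨x, hET, rfl⟩
  refine ⟨(toKS hW x).toAdd, fun n hn => toKS_fixed hW x hn, ?_, ?_, ?_, ?_⟩
  · exact congrArg Multiplicative.toAdd hdk.2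
  · intro j hj g
    apply log_norm_of_val
    apply hx1
    intro h
    have h1 : plMap (j : Nat.Primes) W (cl (rl (j : Nat.Primes)) W g) =
        plMap (l : Nat.Primes) W (cl (rl (l : Nat.Primes)) W 1) := by
      rw [plMap_cl hWo, plMap_cl hWo, h]
    exact hj (Subtype.ext (plMap_prime_unique h1))
  · intro g hg
    apply log_norm_of_val
    apply hx1
    intro h
    rw [hv, eq_comm, primeOf_phx_eq_iff hWo, cl_eq_iff] at h
    obtain ⟨δ, w, hw, hg2⟩ := h
    exact hg ⟨rl _ δ, ⟨δ, rfl⟩, w, hw, by rw [hg2, mul_one]⟩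
  · change Real.log ‖il (l : Nat.Primes) ((1 : GQ) ((x : FFd W) : Qb))‖ < 0
    have h1 : v.valuation (FFd W) (x : FFd W) < 1 := by
      rw [hx2]
      have h2 : 0 < classNumber (FFd W) := Fintype.card_pos
      have h3 : (Multiplicative.ofAdd (-(classNumber (FFd W) : ℤ)) : Multiplicative ℤ) <
          Multiplicative.ofAdd (0 : ℤ) := by
        rw [Multiplicative.ofAdd_lt]
        omega
      exact WithZero.coe_lt_coe.mpr h3
    rw [hv, valuation_lt_one_iff, phx_apply] at h1
    refine Real.log_neg ?_ h1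
    exact norm_pos_iff.mpr ((map_ne_zero _).mpr ((map_ne_zero _).mpr
      (fun h => x.ne_zero (Subtype.ext h))))

/-- A number fixed by the Galois group which is a unit has absolute value one. -/
theorem norm_eq_one_of_fixed {z : Qb} (hz0 : z ≠ 0) (hz : ∀ g : GQ, g z = z)
    (h1 : IsIntegral ℤ z)
    (h2 : IsIntegral ℤ z⁻¹) : ‖complexEmbedding z‖ = 1 := by
  have hQ : ∃ q : ℚ, algebraMap ℚ Qb q = z := by
    have : z ∈ (⊥ : IntermediateField ℚ Qb) := by
      rw [InfiniteGalois.mem_bot_iff_fixed]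
      exact hz
    exact IntermediateField.mem_bot.mp this
  obtain ⟨q, rfl⟩ := hQ
  have e1 : IsIntegral ℤ q := (isIntegral_algebraMap_iff (algebraMap ℚ Qb).injective).mp h1
  have e2 : IsIntegral ℤ q⁻¹ := by
    rw [← map_inv₀] at h2
    exact (isIntegral_algebraMap_iff (algebraMap ℚ Qb).injective).mp h2
  obtain ⟨a, ha⟩ := (IsIntegrallyClosed.isIntegral_iff (R := ℤ) (K := ℚ)).mp e1
  obtain ⟨b, hb⟩ := (IsIntegrallyClosed.isIntegral_iff (R := ℤ) (K := ℚ)).mp e2
  by_cases hq : q = 0
  · exact absurd (by rw [hq, map_zero]) hz0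
  · have hab : a * b = 1 := by
      have : ((a * b : ℤ) : ℚ) = 1 := by
        push_cast
        rw [show ((a : ℤ) : ℚ) = q from ha, show ((b : ℤ) : ℚ) = q⁻¹ from hb, mul_inv_cancel₀ hq]
      exact_mod_cast this
    have hq1 : q = 1 ∨ q = -1 := by
      rcases Int.eq_one_or_neg_one_of_mul_eq_one hab with h | h
      · left
        rw [← ha, h]
        simp
      · right
        rw [← ha, h]
        simp
    rcases hq1 with rfl | rfl <;> simp

theorem isIntegral_map (g : GQ) {z : Qb} (hz : IsIntegral ℤ z) : IsIntegral ℤ (g z) :=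
  hz.map (g : Qb →+* Qb).toIntAlgHom

/-- **Minkowski units.** -/
theorem exists_unit_inf (hW : (famS S).IsOpen W) (hS : S.Nonempty) [hN : W.Normal]
    [Fintype (GQ ⧸ W)] :
    ∃ u : KS S, (∀ n ∈ W, repK S n u = u) ∧ dk S u = 0 ∧
      (∀ j : ↥S, ∀ g, Lf S j g u = 0) ∧
      (∀ g, (¬ ∃ d ∈ Subgroup.zpowers complexConjugation, ∃ n ∈ W, g = d * n) → Li S g u < 0) ∧
      ∑ x : GQ ⧸ W, Li S x.out u = 0 := by
  have hWo := isOpen_of_famS hW
  haveI := numberField_FFd hWo
  let emb : GQ → (FFd W →+* ℂ) := fun g =>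
    complexEmbedding.toRingHom.comp ((g : Qb →+* Qb).comp (algebraMap (FFd W) Qb))
  have hemb : ∀ g y, emb g y = complexEmbedding (g (y : Qb)) := fun g y => rfl
  obtain ⟨u, hu⟩ := Units.dirichletUnitTheorem.exists_unit (FFd W) (InfinitePlace.mk (emb 1))
  set x : (FFd W)ˣ := Units.map (algebraMap (𝓞 (FFd W)) (FFd W) : 𝓞 (FFd W) →* FFd W) u with hx
  have hxU : x ∈ unitGrp (FFd W) := ⟨u, trivial, rfl⟩
  have hval := mem_unitGrp_iff.mp hxU
  have hET : x ∈ ET (TW S W hWo) := (mem_ET _).mpr fun v _ => hval v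
  have hdk : toKS hW x ∈ AddSubgroup.toSubgroup (FKU S W) ⊓
      (AddMonoidHom.toMultiplicative (dk S)).ker := by
    rw [← map_ET_toKS hS hW]
    exact ⟨x, hET, rfl⟩
  set U := (toKS hW x).toAdd with hU
  have hfix : ∀ n ∈ W, repK S n U = U := fun n hn => toKS_fixed hW x hn
  have hvl : vl U = ((x : FFd W) : Qb) := rfl
  have hint : ∀ y : 𝓞 (FFd W), IsIntegral ℤ (((y : 𝓞 (FFd W)) : FFd W) : Qb) := fun y =>
    (y.2 : IsIntegral ℤ (y : FFd W)).map (FFd W).val.toRingHom.toIntAlgHom
  have hint1 : IsIntegral ℤ (vl U) := hint (u : 𝓞 (FFd W))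
  have hint2 : IsIntegral ℤ (vl U)⁻¹ := by
    have h1 := hint ((u⁻¹ : (𝓞 (FFd W))ˣ) : 𝓞 (FFd W))
    have h2 : ((((u⁻¹ : (𝓞 (FFd W))ˣ) : 𝓞 (FFd W)) : FFd W) : Qb) = (vl U)⁻¹ := by
      have h3 : ((((u⁻¹ : (𝓞 (FFd W))ˣ) : 𝓞 (FFd W)) : FFd W) : Qb) * vl U = 1 := by
        have h4 : ((u⁻¹ : (𝓞 (FFd W))ˣ) : 𝓞 (FFd W)) * (u : 𝓞 (FFd W)) = 1 := Units.inv_mul u
        have h5 := congrArg (algebraMap (FFd W) Qb)
          (congrArg (algebraMap (𝓞 (FFd W)) (FFd W)) h4)
        rw [map_mul, map_mul, map_one, map_one] at h5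
        exact h5
      exact eq_inv_of_mul_eq_one_left h3
    rwa [h2] at h1
  refine ⟨U, hfix, congrArg Multiplicative.toAdd hdk.2, fun j g => log_norm_of_val hW x g (hval _),
    fun g hg => ?_, ?_⟩
  · have h1 : InfinitePlace.mk (emb g) ≠ InfinitePlace.mk (emb 1) := by
      intro h
      rw [InfinitePlace.mk_eq_iff] at h
      apply hg
      rcases h with h | h
      · refine ⟨1, one_mem _, g, ?_, (one_mul g).symm⟩
        rw [← fixingSubgroup_FFd hWo, IntermediateField.mem_fixingSubgroup_iff]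
        intro y hy
        have h2 := RingHom.congr_fun h ⟨y, hy⟩
        rw [hemb, hemb] at h2
        exact complexEmbedding.toRingHom.injective h2
      · refine ⟨complexConjugation, Subgroup.mem_zpowers _, complexConjugation * g, ?_, ?_⟩
        · rw [← fixingSubgroup_FFd hWo, IntermediateField.mem_fixingSubgroup_iff]
          intro y hy
          have h2 := RingHom.congr_fun h ⟨y, hy⟩
          rw [ComplexEmbedding.conjugate_coe_eq, hemb, hemb,
            ← complexEmbedding_complexConjugation] at h2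
          exact complexEmbedding.toRingHom.injective h2
        · rw [← mul_assoc, complexConjugation_mul_self, one_mul]
    exact hu _ h1
  · have h1 : ∀ x : GQ ⧸ W, Li S x.out U = Li S 1 (repK S x.out U) := by
      intro x
      rw [Li_apply, Li_apply, vl_repK, AlgEquiv.one_apply]
    rw [Finset.sum_congr rfl fun x _ => h1 x, ← map_sum, Li_apply, AlgEquiv.one_apply]
    have hinv : ∀ g : GQ, ∀ n ∈ W, repK S (g * n) U = repK S g U := by
      intro g n hn
      rw [map_mul, Module.End.mul_apply, hfix n hn]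
    have h2 : ∀ g : GQ, repK S g (∑ x : GQ ⧸ W, repK S x.out U) = ∑ x : GQ ⧸ W, repK S x.out U := by
      intro g
      rw [map_sum, ← sum_left (F := fun y => repK S y U) hinv g]
      refine Finset.sum_congr rfl fun x _ => ?_
      rw [map_mul, Module.End.mul_apply]
    have h3 : ∀ s : Finset (GQ ⧸ W), IsIntegral ℤ (vl (∑ x ∈ s, repK S x.out U)) ∧
        IsIntegral ℤ (vl (∑ x ∈ s, repK S x.out U))⁻¹ := by
      classical
      intro s
      induction s using Finset.induction_on with
      | empty =>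
        rw [Finset.sum_empty, vl_zero, inv_one]
        exact ⟨isIntegral_one, isIntegral_one⟩
      | insert a s ha ih =>
        rw [Finset.sum_insert ha, vl_add, mul_inv, vl_repK, ← map_inv₀]
        exact ⟨(isIntegral_map _ hint1).mul ih.1, (isIntegral_map _ hint2).mul ih.2⟩
    rw [norm_eq_one_of_fixed (vl_ne_zero _) (fun g => congrArg vl (h2 g)) (h3 _).1 (h3 _).2,
      Real.log_one]

end Fermat.Agent.EqEu
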